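import Mathlib

/-!
# Project K (Kummer): shared definitions

Classical Fermat for the exponents `5, 7, 11, 13` by Kummer's method.
This file only contains the definitions shared by the work packages.
-/

namespace Fermat.Agent.Kummer

open NumberField Polynomial

/-- Kummer's lemma for the number field `K` and the prime `p`: a unit of the ring of integers
that is congruent to a rational integer modulo `p` is a `p`-th power of a unit. -/
def KummerLemma (p : ℕ) (K : Type*) [Field K] [NumberField K] : Prop :=
  ∀ u : (𝓞 K)ˣ, (∃ n : ℤ, (p : 𝓞 K) ∣ (u : 𝓞 K) - n) → ∃ v : (𝓞 K)ˣ, u = v ^ p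

/-- The polynomials whose values at a primitive `p`-th root of unity generate (a finite index
subgroup of) the unit group: `cycPoly R 0 = X` and `cycPoly R i = 1 + X + ... + X ^ i`
for `1 ≤ i`. -/
noncomputable def cycPoly (R : Type*) [CommRing R] (i : ℕ) : R[X] :=
  if i = 0 then X else ∑ k ∈ Finset.range (i + 1), X ^ k

/-- Independence of the cyclotomic units modulo `p`, stated for polynomials over `ZMod p`:
if a product of powers of the `cycPoly`'s is congruent to a constant modulo
`(X - 1) ^ (p - 1)` (the `p`-th cyclotomic polynomial modulo `p`), then all the exponents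
are divisible by `p`. -/
def PolyIndep (p : ℕ) : Prop :=
  ∀ (e : ℕ → ℕ) (n : ZMod p),
    ((X - 1 : (ZMod p)[X]) ^ (p - 1) ∣
      (∏ i ∈ Finset.range ((p - 1) / 2), cycPoly (ZMod p) i ^ e i) - C n) →
    ∀ i < (p - 1) / 2, p ∣ e i

/-- Independence of the cyclotomic units modulo `p`, stated in the ring of integers. -/
def CycIndep (p : ℕ) (K : Type*) [Field K] [NumberField K] : Prop :=
  ∀ (ζ : 𝓞 K), IsPrimitiveRoot ζ p → ∀ (e : ℕ → ℕ) (n : ℤ),
    ((p : 𝓞 K) ∣ (∏ i ∈ Finset.range ((p - 1) / 2), (aeval ζ (cycPoly ℤ i)) ^ e i) - n) →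
    ∀ i < (p - 1) / 2, p ∣ e i

end Fermat.Agent.Kummer
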