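/-
Project K (helper16): reduction of Fermat's Last Theorem for an odd prime exponent `p` to
(1) the first case (`p ∤ a b c`) over `ℤ` and (2) the generalised equation
`a ^ p + b ^ p = u * c ^ p` over the ring of integers of the `p`-th cyclotomic field.
This is the exponent-`p` analogue of the first part of Mathlib's `NumberTheory/FLT/Three.lean`.
-/
import Mathlib.NumberTheory.FLT.Basic
import Mathlib.NumberTheory.NumberField.Cyclotomic.Basic
import Mathlib.Algebra.Ring.Divisibility.Lemmas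
import Fermat.Prelude.Def_FLTPrelim_FreyPackage

set_option autoImplicit false

namespace Fermat.Agent.Kummer.K0

section case2

variable {p : ℕ}

lemma p_dvd_b_of_dvd_a_of_gcd_eq_one_of_case2 (hp : p.Prime) (hodd : Odd p) {a b c : ℤ}
    (ha : a ≠ 0) (Hgcd : Finset.gcd {a, b, c} id = 1) (hpa : (p : ℤ) ∣ a)
    (HF : a ^ p + b ^ p + c ^ p = 0)
    (H : ∀ a b c : ℤ, c ≠ 0 → ¬ (p : ℤ) ∣ a → ¬ (p : ℤ) ∣ b → (p : ℤ) ∣ c → IsCoprime a b →
      a ^ p + b ^ p ≠ c ^ p) :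
    (p : ℤ) ∣ b := by
  have hpZ : Prime (p : ℤ) := Nat.prime_iff_prime_int.mp hp
  have hbc : IsCoprime (-b) (-c) := by
    refine IsCoprime.neg_neg ?_
    rw [add_comm (a ^ p), add_assoc, add_comm (a ^ p), ← add_assoc] at HF
    refine isCoprime_of_gcd_eq_one_of_FLT ?_ HF
    convert Hgcd using 2
    rw [Finset.pair_comm, Finset.insert_comm]
  by_contra! hpb
  by_cases hpc : (p : ℤ) ∣ c
  · apply hpb
    rw [add_assoc, add_comm (b ^ p), ← add_assoc] at HF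
    exact dvd_c_of_prime_of_dvd_a_of_dvd_b_of_FLT hpZ hpa hpc HF
  · refine H (-b) (-c) a ha (by simp [hpb]) (by simp [hpc]) hpa hbc ?_
    rw [hodd.neg_pow, hodd.neg_pow]
    linear_combination -HF

open Finset in
lemma flt_of_dvd_a_of_gcd_eq_one_of_case2 (hp : p.Prime) (hodd : Odd p) {a b c : ℤ}
    (ha : a ≠ 0) (hpa : (p : ℤ) ∣ a) (Hgcd : Finset.gcd {a, b, c} id = 1)
    (H : ∀ a b c : ℤ, c ≠ 0 → ¬ (p : ℤ) ∣ a → ¬ (p : ℤ) ∣ b → (p : ℤ) ∣ c → IsCoprime a b →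
      a ^ p + b ^ p ≠ c ^ p) :
    a ^ p + b ^ p + c ^ p ≠ 0 := by
  have hpZ : Prime (p : ℤ) := Nat.prime_iff_prime_int.mp hp
  intro HF
  apply hpZ.not_dvd_one
  rw [← Hgcd]
  refine dvd_gcd (fun x hx ↦ ?_)
  simp only [mem_insert, mem_singleton] at hx
  have hpb : (p : ℤ) ∣ b := by
    refine p_dvd_b_of_dvd_a_of_gcd_eq_one_of_case2 hp hodd ha ?_ hpa HF H
    simp only [← Hgcd, gcd_insert, gcd_singleton, id_eq, ← Int.abs_eq_normalize]
  rcases hx with hx | hx | hx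
  · exact hx ▸ hpa
  · exact hx ▸ hpb
  · simpa [hx] using dvd_c_of_prime_of_dvd_a_of_dvd_b_of_FLT hpZ hpa hpb HF

open Finset Int in
/-- To prove Fermat's Last Theorem for an odd prime `p`, it is enough to prove the first case
and to show that `a ^ p + b ^ p ≠ c ^ p` whenever `c ≠ 0`, `p ∤ a`, `p ∤ b`, `p ∣ c` and
`a`, `b` are coprime. -/
theorem fermatLastTheoremFor_of_p_dvd_only_c (hp : p.Prime) (hodd : Odd p)
    (hcaseI : ∀ a b c : ℤ, ({a, b, c} : Finset ℤ).gcd id = 1 → a ^ p + b ^ p = c ^ p →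
      (p : ℤ) ∣ a * b * c)
    (H : ∀ a b c : ℤ, c ≠ 0 → ¬ (p : ℤ) ∣ a → ¬ (p : ℤ) ∣ b → (p : ℤ) ∣ c → IsCoprime a b →
      a ^ p + b ^ p ≠ c ^ p) :
    FermatLastTheoremFor p := by
  have hpZ : Prime (p : ℤ) := Nat.prime_iff_prime_int.mp hp
  rw [fermatLastTheoremFor_iff_int]
  refine fermatLastTheoremWith_of_fermatLastTheoremWith_coprime (fun a b c ha hb hc Hgcd hF ↦ ?_)
  have h1 : (p : ℤ) ∣ a * b * c := hcaseI a b c Hgcd hF
  rw [hpZ.dvd_mul, hpZ.dvd_mul] at h1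
  rw [← sub_eq_zero, sub_eq_add_neg, ← hodd.neg_pow] at hF
  rcases h1 with (hpa | hpb) | hpc
  · refine flt_of_dvd_a_of_gcd_eq_one_of_case2 hp hodd ha hpa ?_ H hF
    simp only [← Hgcd, gcd_insert, gcd_singleton, id_eq, ← abs_eq_normalize, abs_neg]
  · rw [add_comm (a ^ p)] at hF
    refine flt_of_dvd_a_of_gcd_eq_one_of_case2 hp hodd hb hpb ?_ H hF
    simp only [← Hgcd, insert_comm, gcd_insert, gcd_singleton, id_eq, ← abs_eq_normalize, abs_neg]
  · rw [add_comm _ ((-c) ^ p), ← add_assoc] at hF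
    refine flt_of_dvd_a_of_gcd_eq_one_of_case2 hp hodd (neg_ne_zero.2 hc) (by simp [hpc])
      ?_ H hF
    rw [Finset.insert_comm (-c), Finset.pair_comm (-c) b]
    simp only [← Hgcd, gcd_insert, gcd_singleton, id_eq, ← abs_eq_normalize, abs_neg]

end case2

section cyclotomic

open NumberField

variable {p : ℕ} [hp : Fact p.Prime] {K : Type*} [Field K] {ζ : K} (hζ : IsPrimitiveRoot ζ p)

/-- The generalised Fermat equation over the `p`-th cyclotomic integers: there are no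
`a b c : 𝓞 K` and unit `u` with `c ≠ 0`, `λ ∤ a`, `λ ∤ b`, `λ ∣ c`, `a`, `b` coprime and
`a ^ p + b ^ p = u * c ^ p`, where `λ = ζ - 1`. -/
def FLTGen : Prop :=
  ∀ a b c : 𝓞 K, ∀ u : (𝓞 K)ˣ, c ≠ 0 → ¬ (hζ.toInteger - 1) ∣ a → ¬ (hζ.toInteger - 1) ∣ b →
    (hζ.toInteger - 1) ∣ c → IsCoprime a b → a ^ p + b ^ p ≠ u * c ^ p

variable [NumberField K] [IsCyclotomicExtension {p} ℚ K]

/-- For a rational integer `n`, `λ ∣ n` in `𝓞 K` iff `p ∣ n` in `ℤ`. -/
theorem lam_dvd_intCast_iff (hodd : p ≠ 2) (n : ℤ) :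
    (hζ.toInteger - 1) ∣ (n : 𝓞 K) ↔ (p : ℤ) ∣ n := by
  rw [← Ideal.norm_dvd_iff (hζ.prime_norm_toInteger_sub_one_of_prime_ne_two' hodd),
    hζ.norm_toInteger_sub_one_of_prime_ne_two' hodd]

/-- To prove `FermatLastTheoremFor p`, it is enough to prove the first case and `FLTGen`. -/
theorem fermatLastTheoremFor_of_FLTGen (hodd : p ≠ 2)
    (hcaseI : ∀ a b c : ℤ, ({a, b, c} : Finset ℤ).gcd id = 1 → a ^ p + b ^ p = c ^ p →
      (p : ℤ) ∣ a * b * c)
    (H : FLTGen hζ) : FermatLastTheoremFor p := by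
  have hodd' : Odd p := hp.out.odd_of_ne_two hodd
  refine fermatLastTheoremFor_of_p_dvd_only_c hp.out hodd' hcaseI
    (fun a b c hc ha hb hpc hcoprime h ↦ ?_)
  refine H a b c 1 (by simp [hc]) (fun hdvd ↦ ha ?_) (fun hdvd ↦ hb ?_) ?_ ?_ ?_
  · exact (lam_dvd_intCast_iff hζ hodd a).mp hdvd
  · exact (lam_dvd_intCast_iff hζ hodd b).mp hdvd
  · exact (lam_dvd_intCast_iff hζ hodd c).mpr hpc
  · exact IsCoprime.intCast hcoprime
  · simpa using mod_cast h

end cyclotomic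

section frey

/-- A Frey package contradicts Fermat's Last Theorem for its exponent. -/
theorem freyPackage_false (P : FreyPackage) (h : FermatLastTheoremFor P.p) : False :=
  (fermatLastTheoremFor_iff_int.mp h) P.a P.b P.c P.ha0 P.hb0 P.hc0 P.hFLT

end frey

end Fermat.Agent.Kummer.K0
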