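import Mathlib

/-!
# Case I of Fermat's Last Theorem for the exponents 5, 7, 11, 13 (Sophie Germain, Legendre)

If `q` is an auxiliary prime such that
* `x ^ p + y ^ p + z ^ p = 0` in `ZMod q` forces one of `x, y, z` to vanish, and
* `p` is not a `p`-th power in `ZMod q`,
then every pairwise coprime integer solution of `x ^ p + y ^ p + z ^ p = 0` has `p ∣ x * y * z`.
-/

namespace Fermat.Agent.Kummer

open Finset

/-- The cofactor of `y + z` in `y ^ p + z ^ p` (for odd `p`). -/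
def sgQ {R : Type*} [CommRing R] (p : ℕ) (y z : R) : R :=
  ∑ i ∈ range p, y ^ i * (-z) ^ (p - 1 - i)

theorem sgQ_map {R S : Type*} [CommRing R] [CommRing S] (f : R →+* S) (p : ℕ) (y z : R) :
    f (sgQ p y z) = sgQ p (f y) (f z) := by
  simp [sgQ, map_sum, map_mul, map_pow, map_neg]

theorem sgQ_mul {R : Type*} [CommRing R] {p : ℕ} (hp : Odd p) (y z : R) :
    sgQ p y z * (y + z) = y ^ p + z ^ p := by
  have h := geom_sum₂_mul y (-z) p
  rw [sub_neg_eq_add, hp.neg_pow, sub_neg_eq_add] at h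
  exact h

/-- If `y + z = 0` then the cofactor is `p * y ^ (p - 1)`. -/
theorem sgQ_of_add_eq_zero {R : Type*} [CommRing R] (p : ℕ) {y z : R} (h : y + z = 0) :
    sgQ p y z = p * y ^ (p - 1) := by
  have hz : -z = y := by linear_combination (-1 : R) * h
  rw [sgQ, hz]
  have : ∀ i ∈ range p, y ^ i * y ^ (p - 1 - i) = y ^ (p - 1) := by
    intro i hi
    rw [← pow_add]
    congr 1
    have := mem_range.mp hi
    omega
  rw [sum_congr rfl this, sum_const, card_range, nsmul_eq_mul]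

/-- If `x = 0` then the cofactor `sgQ p x y` is `y ^ (p - 1)` (for odd `p`). -/
theorem sgQ_zero_left {R : Type*} [CommRing R] {p : ℕ} (hp : Odd p) (y : R) :
    sgQ p (0 : R) y = y ^ (p - 1) := by
  obtain ⟨k, rfl⟩ := hp
  rw [sgQ, sum_range_succ']
  have : ∀ i ∈ range (2 * k), (0 : R) ^ (i + 1) * (-y) ^ (2 * k + 1 - 1 - (i + 1)) = 0 := by
    intro i _
    rw [pow_succ, mul_zero, zero_mul]
  rw [sum_congr rfl this, sum_const_zero, zero_add, pow_zero, one_mul]
  have h2 : 2 * k + 1 - 1 - 0 = 2 * k := by omega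
  have h3 : 2 * k + 1 - 1 = 2 * k := by omega
  rw [h2, h3, pow_mul, neg_sq, ← pow_mul]

/-- `sgQ p y z - p * y ^ (p - 1)` is a multiple of `y + z`. -/
theorem add_dvd_sgQ_sub {R : Type*} [CommRing R] (p : ℕ) (y z : R) :
    (y + z) ∣ sgQ p y z - p * y ^ (p - 1) := by
  have key : ∀ i ∈ range p, (y + z) ∣ y ^ i * (-z) ^ (p - 1 - i) - y ^ (p - 1) := by
    intro i hi
    have hi' := mem_range.mp hi
    have h1 : y ^ (p - 1) = y ^ i * y ^ (p - 1 - i) := by
      rw [← pow_add]; congr 1; omega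
    rw [h1, ← mul_sub]
    have h2 : (-z - y) ∣ (-z) ^ (p - 1 - i) - y ^ (p - 1 - i) := sub_dvd_pow_sub_pow _ _ _
    have h3 : (y + z) ∣ (-z - y) := ⟨-1, by ring⟩
    exact Dvd.dvd.mul_left (h3.trans h2) _
  have hsum : sgQ p y z - p * y ^ (p - 1)
      = ∑ i ∈ range p, (y ^ i * (-z) ^ (p - 1 - i) - y ^ (p - 1)) := by
    rw [sum_sub_distrib, sum_const, card_range, nsmul_eq_mul, sgQ]
  rw [hsum]
  exact dvd_sum key

/-- Coprimality of `y + z` and the cofactor, when `p` does not divide `y + z`. -/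
theorem isCoprime_add_sgQ {p : ℕ} (hp : p.Prime) {y z : ℤ} (hyz : IsCoprime y z)
    (hpd : ¬ (p : ℤ) ∣ y + z) : IsCoprime (y + z) (sgQ p y z) := by
  refine isCoprime_of_prime_dvd ?_ ?_
  · rintro ⟨h1, -⟩
    exact hpd (h1 ▸ dvd_zero _)
  · intro r hr hr1 hr2
    have h3 : r ∣ (p : ℤ) * y ^ (p - 1) := by
      have h4 : r ∣ sgQ p y z - p * y ^ (p - 1) := hr1.trans (add_dvd_sgQ_sub p y z)
      have := dvd_sub hr2 h4
      simpa using this
    rcases hr.dvd_or_dvd h3 with h5 | h5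
    · have hpp : Prime (p : ℤ) := Nat.prime_iff_prime_int.mp hp
      have hass : Associated r (p : ℤ) := hr.associated_of_dvd hpp h5
      exact hpd (hass.symm.dvd.trans hr1)
    · have hry : r ∣ y := hr.dvd_of_dvd_pow h5
      have hrz : r ∣ z := by
        have := dvd_sub hr1 hry
        simpa using this
      exact hr.not_isUnit (hyz.isUnit_of_dvd' hry hrz)

/-- For an odd prime `p` and coprime `y, z` with `y ^ p + z ^ p = w ^ p` and `p ∤ w`,
both `y + z` and the cofactor are `p`-th powers. -/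
theorem exists_pow_eq_of_add_pow {p : ℕ} (hp : p.Prime) (hodd : Odd p) {y z w : ℤ}
    (hyz : IsCoprime y z) (h : y ^ p + z ^ p = w ^ p) (hpw : ¬ (p : ℤ) ∣ w) :
    (∃ a : ℤ, y + z = a ^ p) ∧ ∃ α : ℤ, sgQ p y z = α ^ p := by
  have hmul : (y + z) * sgQ p y z = w ^ p := by rw [mul_comm, sgQ_mul hodd, h]
  have hpd : ¬ (p : ℤ) ∣ y + z := by
    intro hd
    have hpp : Prime (p : ℤ) := Nat.prime_iff_prime_int.mp hp
    have : (p : ℤ) ∣ w ^ p := hmul ▸ Dvd.dvd.mul_right hd _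
    exact hpw (hpp.dvd_of_dvd_pow this)
  have hcop := isCoprime_add_sgQ hp hyz hpd
  obtain ⟨⟨a, ha⟩, ⟨α, hα⟩⟩ := Int.eq_pow_of_mul_eq_pow_odd hcop hodd hmul
  exact ⟨⟨a, ha⟩, ⟨α, hα⟩⟩

/-- The core of Sophie Germain's argument: the auxiliary prime `q` cannot divide `x`. -/
theorem sg_core {p q : ℕ} (hp : p.Prime) (hodd : Odd p) (hq : q.Prime)
    (h1 : ∀ x y z : ZMod q, x ^ p + y ^ p + z ^ p = 0 → x = 0 ∨ y = 0 ∨ z = 0)
    (h2 : ∀ x : ZMod q, x ^ p ≠ (p : ZMod q))
    {x y z : ℤ} (hxyz : x ^ p + y ^ p + z ^ p = 0)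
    (hxy : IsCoprime x y) (hyz : IsCoprime y z) (hzx : IsCoprime z x)
    (hpx : ¬ (p : ℤ) ∣ x) (hpy : ¬ (p : ℤ) ∣ y) (hpz : ¬ (p : ℤ) ∣ z)
    (hqx : (q : ℤ) ∣ x) : False := by
  have : Fact q.Prime := ⟨hq⟩
  have hqp : Prime (q : ℤ) := Nat.prime_iff_prime_int.mp hq
  have hnx : ¬ (p : ℤ) ∣ -x := by rwa [dvd_neg]
  have hny : ¬ (p : ℤ) ∣ -y := by rwa [dvd_neg]
  have hnz : ¬ (p : ℤ) ∣ -z := by rwa [dvd_neg]
  -- the three factorisations
  obtain ⟨⟨a, ha⟩, ⟨α, hα⟩⟩ := exists_pow_eq_of_add_pow hp hodd hyz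
    (show y ^ p + z ^ p = (-x) ^ p by rw [hodd.neg_pow]; linear_combination hxyz) hnx
  obtain ⟨⟨b, hb⟩, -⟩ := exists_pow_eq_of_add_pow hp hodd hzx
    (show z ^ p + x ^ p = (-y) ^ p by rw [hodd.neg_pow]; linear_combination hxyz) hny
  obtain ⟨⟨c, hc⟩, ⟨γ, hγ⟩⟩ := exists_pow_eq_of_add_pow hp hodd hxy
    (show x ^ p + y ^ p = (-z) ^ p by rw [hodd.neg_pow]; linear_combination hxyz) hnz
  -- reduce modulo q
  have hx0 : ((x : ℤ) : ZMod q) = 0 := (ZMod.intCast_zmod_eq_zero_iff_dvd x q).mpr hqx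
  have hy0 : ((y : ℤ) : ZMod q) ≠ 0 := by
    intro h
    have hqy : (q : ℤ) ∣ y := (ZMod.intCast_zmod_eq_zero_iff_dvd y q).mp h
    exact hqp.not_isUnit (hxy.isUnit_of_dvd' hqx hqy)
  have hz0 : ((z : ℤ) : ZMod q) ≠ 0 := by
    intro h
    have hqz : (q : ℤ) ∣ z := (ZMod.intCast_zmod_eq_zero_iff_dvd z q).mp h
    exact hqp.not_isUnit (hzx.isUnit_of_dvd' hqz hqx)
  have habc : ((b : ℤ) : ZMod q) ^ p + ((c : ℤ) : ZMod q) ^ p + ((-a : ℤ) : ZMod q) ^ p = 0 := by
    have e : b ^ p + c ^ p + (-a) ^ p = 2 * x := by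
      rw [hodd.neg_pow, ← ha, ← hb, ← hc]; ring
    have := congrArg (Int.cast : ℤ → ZMod q) e
    push_cast at this
    rw [hx0, mul_zero] at this
    push_cast
    exact this
  rcases h1 _ _ _ habc with hb0 | hc0 | ha0
  · -- q ∣ b, so q ∣ z + x, so q ∣ z
    have := congrArg (Int.cast : ℤ → ZMod q) hb
    push_cast at this
    rw [hb0, hx0, add_zero, zero_pow hp.ne_zero] at this
    exact hz0 this
  · have := congrArg (Int.cast : ℤ → ZMod q) hc
    push_cast at this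
    rw [hc0, hx0, zero_add, zero_pow hp.ne_zero] at this
    exact hy0 this
  · have ha0' : ((a : ℤ) : ZMod q) = 0 := by
      have : ((-a : ℤ) : ZMod q) = -((a : ℤ) : ZMod q) := by push_cast; rfl
      rw [this, neg_eq_zero] at ha0
      exact ha0
    have hyz0 : ((y : ℤ) : ZMod q) + ((z : ℤ) : ZMod q) = 0 := by
      have := congrArg (Int.cast : ℤ → ZMod q) ha
      push_cast at this
      rw [ha0', zero_pow hp.ne_zero] at this
      exact this
    -- α ^ p = p * y ^ (p - 1), γ ^ p = y ^ (p - 1)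
    have hα' : ((α : ℤ) : ZMod q) ^ p = (p : ZMod q) * ((y : ℤ) : ZMod q) ^ (p - 1) := by
      have := congrArg (Int.castRingHom (ZMod q)) hα
      rw [sgQ_map, map_pow] at this
      simp only [eq_intCast] at this
      rw [← this, sgQ_of_add_eq_zero p hyz0]
    have hγ' : ((γ : ℤ) : ZMod q) ^ p = ((y : ℤ) : ZMod q) ^ (p - 1) := by
      have := congrArg (Int.castRingHom (ZMod q)) hγ
      rw [sgQ_map, map_pow] at this
      simp only [eq_intCast] at this
      rw [← this, hx0, sgQ_zero_left hodd]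
    have hγ0 : ((γ : ℤ) : ZMod q) ≠ 0 := by
      intro h
      rw [h, zero_pow hp.ne_zero] at hγ'
      exact hy0 (pow_eq_zero_iff (n := p - 1) (by
        have := hp.two_le; omega) |>.mp hγ'.symm)
    apply h2 (((α : ℤ) : ZMod q) * (((γ : ℤ) : ZMod q))⁻¹)
    rw [mul_pow, inv_pow, hα', hγ', mul_assoc, mul_inv_cancel₀, mul_one]
    rw [← hγ']
    exact pow_ne_zero _ hγ0

/-- **Sophie Germain's theorem** (in Legendre's form). -/
theorem sophie_germain {p q : ℕ} (hp : p.Prime) (hodd : Odd p) (hq : q.Prime)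
    (h1 : ∀ x y z : ZMod q, x ^ p + y ^ p + z ^ p = 0 → x = 0 ∨ y = 0 ∨ z = 0)
    (h2 : ∀ x : ZMod q, x ^ p ≠ (p : ZMod q))
    {x y z : ℤ} (hxyz : x ^ p + y ^ p + z ^ p = 0)
    (hxy : IsCoprime x y) (hyz : IsCoprime y z) (hzx : IsCoprime z x) :
    (p : ℤ) ∣ x * y * z := by
  have : Fact q.Prime := ⟨hq⟩
  have hpp : Prime (p : ℤ) := Nat.prime_iff_prime_int.mp hp
  by_contra hnd
  have hpx : ¬ (p : ℤ) ∣ x := fun h => hnd ((h.mul_right y).mul_right z)
  have hpy : ¬ (p : ℤ) ∣ y := fun h => hnd ((h.mul_left x).mul_right z)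
  have hpz : ¬ (p : ℤ) ∣ z := fun h => hnd (h.mul_left (x * y))
  have hmod : ((x : ℤ) : ZMod q) ^ p + ((y : ℤ) : ZMod q) ^ p + ((z : ℤ) : ZMod q) ^ p = 0 := by
    have := congrArg (Int.cast : ℤ → ZMod q) hxyz
    push_cast at this
    exact this
  rcases h1 _ _ _ hmod with h | h | h
  · exact sg_core hp hodd hq h1 h2 hxyz hxy hyz hzx hpx hpy hpz
      ((ZMod.intCast_zmod_eq_zero_iff_dvd x q).mp h)
  · exact sg_core hp hodd hq h1 h2 (x := y) (y := z) (z := x) (by linear_combination hxyz)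
      hyz hzx hxy hpy hpz hpx ((ZMod.intCast_zmod_eq_zero_iff_dvd y q).mp h)
  · exact sg_core hp hodd hq h1 h2 (x := z) (y := x) (z := y) (by linear_combination hxyz)
      hzx hxy hyz hpz hpx hpy ((ZMod.intCast_zmod_eq_zero_iff_dvd z q).mp h)

end Fermat.Agent.Kummer

namespace Fermat.Agent.Kummer

/-- The `p`-th powers in `ZMod q` lie in the finite set `S ∪ {0}`; `S` is sum-free in the sense
needed for Sophie Germain's first condition. -/
theorem sg_cond_one_of_finset {p q : ℕ} (S : Finset (ZMod q))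
    (hS : ∀ x : ZMod q, x ^ p = 0 ∨ x ^ p ∈ S)
    (hsum : ∀ s ∈ S, ∀ t ∈ S, ∀ u ∈ S, s + t + u ≠ 0)
    (hzero : ∀ x : ZMod q, x ^ p = 0 → x = 0) :
    ∀ x y z : ZMod q, x ^ p + y ^ p + z ^ p = 0 → x = 0 ∨ y = 0 ∨ z = 0 := by
  intro x y z h
  rcases hS x with hx | hx
  · exact Or.inl (hzero x hx)
  rcases hS y with hy | hy
  · exact Or.inr (Or.inl (hzero y hy))
  rcases hS z with hz | hz
  · exact Or.inr (Or.inr (hzero z hz))
  exact absurd h (hsum _ hx _ hy _ hz)

theorem sg_cond_two_of_finset {p q : ℕ} (S : Finset (ZMod q))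
    (hS : ∀ x : ZMod q, x ^ p = 0 ∨ x ^ p ∈ S)
    (hp0 : (p : ZMod q) ≠ 0) (hpS : (p : ZMod q) ∉ S) :
    ∀ x : ZMod q, x ^ p ≠ (p : ZMod q) := by
  intro x hx
  rcases hS x with h | h
  · exact hp0 (hx ▸ h)
  · exact hpS (hx ▸ h)

end Fermat.Agent.Kummer

namespace Fermat.Agent.Kummer

set_option maxRecDepth 100000 in
theorem sgS_five : ∀ x : ZMod 11, x ^ 5 = 0 ∨ x ^ 5 ∈ ({1, 10} : Finset (ZMod 11)) := by decide

set_option maxRecDepth 100000 in
theorem sgS_seven :
    ∀ x : ZMod 29, x ^ 7 = 0 ∨ x ^ 7 ∈ ({1, 12, 17, 28} : Finset (ZMod 29)) := by decide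

set_option maxRecDepth 100000 in
theorem sgS_eleven : ∀ x : ZMod 23, x ^ 11 = 0 ∨ x ^ 11 ∈ ({1, 22} : Finset (ZMod 23)) := by
  decide

set_option maxRecDepth 100000 in
theorem sgS_thirteen :
    ∀ x : ZMod 53, x ^ 13 = 0 ∨ x ^ 13 ∈ ({1, 23, 30, 52} : Finset (ZMod 53)) := by decide

theorem sg_zero_of_pow {p q : ℕ} [Fact q.Prime] (x : ZMod q) (h : x ^ p = 0) : x = 0 :=
  eq_zero_of_pow_eq_zero h

set_option maxRecDepth 100000 in
/-- Case I for pairwise coprime solutions of the symmetric equation, `p = 5`. -/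
theorem caseI_symm_five {x y z : ℤ} (h : x ^ 5 + y ^ 5 + z ^ 5 = 0)
    (hxy : IsCoprime x y) (hyz : IsCoprime y z) (hzx : IsCoprime z x) :
    ((5 : ℕ) : ℤ) ∣ x * y * z := by
  have : Fact (Nat.Prime 11) := ⟨by norm_num⟩
  refine sophie_germain (p := 5) (q := 11) (by norm_num) (by decide) (by norm_num)
    (sg_cond_one_of_finset {1, 10} sgS_five (by decide) (fun x hx => sg_zero_of_pow x hx))
    (sg_cond_two_of_finset {1, 10} sgS_five (by decide) (by decide)) h hxy hyz hzx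

set_option maxRecDepth 100000 in
/-- Case I for pairwise coprime solutions of the symmetric equation, `p = 7`. -/
theorem caseI_symm_seven {x y z : ℤ} (h : x ^ 7 + y ^ 7 + z ^ 7 = 0)
    (hxy : IsCoprime x y) (hyz : IsCoprime y z) (hzx : IsCoprime z x) :
    ((7 : ℕ) : ℤ) ∣ x * y * z := by
  have : Fact (Nat.Prime 29) := ⟨by norm_num⟩
  refine sophie_germain (p := 7) (q := 29) (by norm_num) (by decide) (by norm_num)
    (sg_cond_one_of_finset {1, 12, 17, 28} sgS_seven (by decide)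
      (fun x hx => sg_zero_of_pow x hx))
    (sg_cond_two_of_finset {1, 12, 17, 28} sgS_seven (by decide) (by decide)) h hxy hyz hzx

set_option maxRecDepth 100000 in
/-- Case I for pairwise coprime solutions of the symmetric equation, `p = 11`. -/
theorem caseI_symm_eleven {x y z : ℤ} (h : x ^ 11 + y ^ 11 + z ^ 11 = 0)
    (hxy : IsCoprime x y) (hyz : IsCoprime y z) (hzx : IsCoprime z x) :
    ((11 : ℕ) : ℤ) ∣ x * y * z := by
  have : Fact (Nat.Prime 23) := ⟨by norm_num⟩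
  refine sophie_germain (p := 11) (q := 23) (by norm_num) (by decide) (by norm_num)
    (sg_cond_one_of_finset {1, 22} sgS_eleven (by decide) (fun x hx => sg_zero_of_pow x hx))
    (sg_cond_two_of_finset {1, 22} sgS_eleven (by decide) (by decide)) h hxy hyz hzx

set_option maxRecDepth 100000 in
/-- Case I for pairwise coprime solutions of the symmetric equation, `p = 13`. -/
theorem caseI_symm_thirteen {x y z : ℤ} (h : x ^ 13 + y ^ 13 + z ^ 13 = 0)
    (hxy : IsCoprime x y) (hyz : IsCoprime y z) (hzx : IsCoprime z x) :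
    ((13 : ℕ) : ℤ) ∣ x * y * z := by
  have : Fact (Nat.Prime 53) := ⟨by norm_num⟩
  refine sophie_germain (p := 13) (q := 53) (by norm_num) (by decide) (by norm_num)
    (sg_cond_one_of_finset {1, 23, 30, 52} sgS_thirteen (by decide)
      (fun x hx => sg_zero_of_pow x hx))
    (sg_cond_two_of_finset {1, 23, 30, 52} sgS_thirteen (by decide) (by decide)) h hxy hyz hzx

/-- **Case I of Fermat's Last Theorem for `p ∈ {5, 7, 11, 13}`**, symmetric form:
a pairwise coprime solution of `x ^ p + y ^ p + z ^ p = 0` has `p ∣ x * y * z`. -/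
theorem caseI_symm (p : ℕ) (hp : p = 5 ∨ p = 7 ∨ p = 11 ∨ p = 13) {x y z : ℤ}
    (h : x ^ p + y ^ p + z ^ p = 0)
    (hxy : IsCoprime x y) (hyz : IsCoprime y z) (hzx : IsCoprime z x) :
    (p : ℤ) ∣ x * y * z := by
  rcases hp with rfl | rfl | rfl | rfl
  · exact caseI_symm_five h hxy hyz hzx
  · exact caseI_symm_seven h hxy hyz hzx
  · exact caseI_symm_eleven h hxy hyz hzx
  · exact caseI_symm_thirteen h hxy hyz hzx

theorem sg_gcd_eq {s t : Finset ℤ} (h1 : ∀ x ∈ s, t.gcd id ∣ x) (h2 : ∀ x ∈ t, s.gcd id ∣ x) :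
    s.gcd id = t.gcd id :=
  dvd_antisymm_of_normalize_eq Finset.normalize_gcd Finset.normalize_gcd
    (Finset.dvd_gcd_iff.mpr fun x hx => h2 x hx) (Finset.dvd_gcd_iff.mpr fun x hx => h1 x hx)

/-- **Case I of Fermat's Last Theorem for `p ∈ {5, 7, 11, 13}`**: a solution of
`a ^ p + b ^ p = c ^ p` with `gcd {a, b, c} = 1` has `p ∣ a * b * c`. -/
theorem caseI (p : ℕ) (hp : p = 5 ∨ p = 7 ∨ p = 11 ∨ p = 13) {a b c : ℤ}
    (h : a ^ p + b ^ p = c ^ p) (hgcd : ({a, b, c} : Finset ℤ).gcd id = 1) :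
    (p : ℤ) ∣ a * b * c := by
  have hodd : Odd p := by rcases hp with rfl | rfl | rfl | rfl <;> decide
  have hsym : a ^ p + b ^ p + (-c) ^ p = 0 := by rw [hodd.neg_pow]; linear_combination h
  have hgcd' : ({a, b, -c} : Finset ℤ).gcd id = 1 := by
    rw [← hgcd]
    refine sg_gcd_eq ?_ ?_
    · intro t ht
      simp only [Finset.mem_insert, Finset.mem_singleton] at ht
      rcases ht with rfl | rfl | rfl
      · exact Finset.gcd_dvd (f := id) (by simp)
      · exact Finset.gcd_dvd (f := id) (by simp)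
      · exact (dvd_neg).mpr (Finset.gcd_dvd (f := id) (by simp))
    · intro t ht
      simp only [Finset.mem_insert, Finset.mem_singleton] at ht
      rcases ht with rfl | rfl | rfl
      · exact Finset.gcd_dvd (f := id) (by simp)
      · exact Finset.gcd_dvd (f := id) (by simp)
      · exact (dvd_neg).mp (Finset.gcd_dvd (f := id) (b := -t) (by simp))
  have hab : IsCoprime a b := isCoprime_of_gcd_eq_one_of_FLT hgcd' hsym
  have hbc : IsCoprime b (-c) := by
    refine isCoprime_of_gcd_eq_one_of_FLT (a := b) (b := -c) (c := a) ?_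
      (by linear_combination hsym)
    rw [← hgcd']
    refine sg_gcd_eq ?_ ?_ <;>
    · intro t ht
      refine Finset.gcd_dvd (f := id) ?_
      simp only [Finset.mem_insert, Finset.mem_singleton] at ht ⊢
      tauto
  have hca : IsCoprime (-c) a := by
    refine isCoprime_of_gcd_eq_one_of_FLT (a := -c) (b := a) (c := b) ?_
      (by linear_combination hsym)
    rw [← hgcd']
    refine sg_gcd_eq ?_ ?_ <;>
    · intro t ht
      refine Finset.gcd_dvd (f := id) ?_
      simp only [Finset.mem_insert, Finset.mem_singleton] at ht ⊢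
      tauto
  have := caseI_symm p hp hsym hab hbc hca
  have e : a * b * -c = -(a * b * c) := by ring
  rwa [e, dvd_neg] at this

end Fermat.Agent.Kummer
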