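/-
Project K (helper16): assembly layer.  Fermat's Last Theorem for an exponent
`p ∈ {5, 7, 11, 13}` from the case II statement `K0.FLTGen` over any model `K` of the `p`-th
cyclotomic field (case I is `Fermat.Agent.Kummer.caseI`), and the resulting contradiction
for Frey packages.
-/
import Fermat.Agent.Kummer.K0_Reduction
import Fermat.Agent.Kummer.K2_SophieGermain

set_option autoImplicit false

namespace Fermat.Agent.Kummer.K0

open NumberField

/-- The exponents `5, 7, 11, 13` are prime. -/
theorem prime_of_small {p : ℕ} (hp : p = 5 ∨ p = 7 ∨ p = 11 ∨ p = 13) : p.Prime := by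
  rcases hp with rfl | rfl | rfl | rfl <;> norm_num

/-- The exponents `5, 7, 11, 13` are odd. -/
theorem ne_two_of_small {p : ℕ} (hp : p = 5 ∨ p = 7 ∨ p = 11 ∨ p = 13) : p ≠ 2 := by
  rcases hp with rfl | rfl | rfl | rfl <;> norm_num

/-- `CyclotomicField p ℚ` is a cyclotomic extension of `ℚ` with respect to the canonical
`ℚ`-algebra structure of a field of characteristic zero (the one used in all statements
about number fields). -/
theorem cyclotomicField_isCyclotomicExtension (p : ℕ) :
    IsCyclotomicExtension {p} ℚ (CyclotomicField p ℚ) :=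
  (inferInstance :
    @IsCyclotomicExtension {p} ℚ (CyclotomicField p ℚ) _ _ (CyclotomicField.algebra p ℚ))

/-- Fermat's Last Theorem for `p ∈ {5, 7, 11, 13}` from the case II statement `FLTGen`
over an arbitrary model `K` of the `p`-th cyclotomic field and an arbitrary primitive
root. -/
theorem flt_of_FLTGen (p : ℕ) (hp : p = 5 ∨ p = 7 ∨ p = 11 ∨ p = 13)
    [Fact p.Prime] {K : Type*} [Field K] [NumberField K] [IsCyclotomicExtension {p} ℚ K]
    {ζ : K} (hζ : IsPrimitiveRoot ζ p) (hgen : FLTGen hζ) :
    FermatLastTheoremFor p :=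
  fermatLastTheoremFor_of_FLTGen hζ (ne_two_of_small hp)
    (fun _ _ _ hg h => Fermat.Agent.Kummer.caseI p hp h hg) hgen

/-- Fermat's Last Theorem for `p ∈ {5, 7, 11, 13}` from the case II statement `FLTGen` for
all models of the `p`-th cyclotomic field (only `CyclotomicField p ℚ` is used). -/
theorem flt_of_forall_FLTGen (p : ℕ) (hp : p = 5 ∨ p = 7 ∨ p = 11 ∨ p = 13)
    [Fact p.Prime]
    (hgen : ∀ (K : Type) [Field K] [NumberField K] [IsCyclotomicExtension {p} ℚ K]
      (ζ : K) (hζ : IsPrimitiveRoot ζ p), FLTGen hζ) :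
    FermatLastTheoremFor p := by
  have h1 : IsCyclotomicExtension {p} ℚ (CyclotomicField p ℚ) :=
    cyclotomicField_isCyclotomicExtension p
  have h2 : IsPrimitiveRoot (IsCyclotomicExtension.zeta p ℚ (CyclotomicField p ℚ)) p :=
    IsCyclotomicExtension.zeta_spec p ℚ (CyclotomicField p ℚ)
  exact flt_of_FLTGen p hp h2 (hgen (CyclotomicField p ℚ) _ h2)

/-- There is no Frey package with `p ∈ {5, 7, 11, 13}` as soon as Fermat's Last Theorem
holds for these exponents. -/
theorem freyPackage_small_false (P : FreyPackage)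
    (hp : P.p = 5 ∨ P.p = 7 ∨ P.p = 11 ∨ P.p = 13)
    (H : ∀ p : ℕ, p = 5 ∨ p = 7 ∨ p = 11 ∨ p = 13 → FermatLastTheoremFor p) : False :=
  freyPackage_false P (H P.p hp)

end Fermat.Agent.Kummer.K0
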