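import Fermat.Agent.Kummer.K1_PIDPrime

/-!
# `ℤ[ζ₁₁]` is a principal ideal domain
-/

namespace Fermat.Agent.Kummer

open NumberField Ideal
open scoped Real Nat

theorem k1_minkowski_eleven :
    (4 / π) ^ ((11 - 1) / 2) *
      ((((11 - 1)! : ℕ) : ℝ) / ((11 - 1 : ℕ) : ℝ) ^ (11 - 1) * √((11 : ℝ) ^ (11 - 2))) <
        ((65 : ℕ) : ℝ) + 1 := by
  have h0 : (3.14 : ℝ) ≤ π := Real.pi_gt_d2.le
  have h1 : (4 / π) ^ 5 ≤ (4 / 3.14 : ℝ) ^ 5 := by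
    gcongr
  have h2 : √((11 : ℝ) ^ 9) ≤ 48559 := by
    rw [Real.sqrt_le_left (by norm_num)]
    norm_num
  have h3 : (((11 - 1)! : ℕ) : ℝ) = 3628800 := by
    norm_num [Nat.factorial]
  have h4 : ((11 - 1 : ℕ) : ℝ) = 10 := by norm_num
  rw [h3, h4]
  show (4 / π) ^ 5 * (3628800 / 10 ^ 10 * √((11 : ℝ) ^ 9)) < ((65 : ℕ) : ℝ) + 1
  calc (4 / π) ^ 5 * (3628800 / 10 ^ 10 * √((11 : ℝ) ^ 9))
      ≤ (4 / 3.14 : ℝ) ^ 5 * (3628800 / 10 ^ 10 * 48559) := by gcongr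
    _ < ((65 : ℕ) : ℝ) + 1 := by norm_num

/-- The ideal `(1 + ζ + ζ ^ 3)` of `ℤ[ζ₁₁]` is a prime above `23`. -/
theorem k1_principal_prime_23 (K : Type*) [Field K] [NumberField K]
    [IsCyclotomicExtension {11} ℚ K] :
    ∃ P ∈ primesOver (span {((23 : ℕ) : ℤ)}) (𝓞 K), Submodule.IsPrincipal P := by
  have hc : ∑ i ∈ Finset.range 11, ((4 : ℤ) : ZMod 23) ^ i = 0 := by decide
  have : Fact (Nat.Prime 11) := ⟨by norm_num⟩
  have hsum := k1Zeta_sum 11 K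
  simp only [Finset.sum_range_succ, Finset.sum_range_zero, zero_add, pow_zero, pow_one] at hsum
  set ζ := k1Zeta 11 K with hζ
  refine k1_exists_principal_of_root 11 K 23 (by norm_num) 4 hc
    (1 + ζ + ζ ^ 3)
    (-2 - 14 * ζ - 17 * ζ ^ 2 - 12 * ζ ^ 3 - 5 * ζ ^ 4 - 9 * ζ ^ 5 - 10 * ζ ^ 6 - 16 * ζ ^ 7
      - 6 * ζ ^ 8 - 15 * ζ ^ 9)
    (1 + 3 * ζ + 3 * ζ ^ 2 + 2 * ζ ^ 3 + ζ ^ 4 + 2 * ζ ^ 5 + 2 * ζ ^ 6 + 3 * ζ ^ 7 + ζ ^ 8
      + 3 * ζ ^ 9)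
    3 (17 + 4 * ζ + ζ ^ 2) ?_ ?_ ?_
  · push_cast
    linear_combination (-25 + 9 * ζ - 15 * ζ ^ 2) * hsum
  · push_cast
    linear_combination (5 - 2 * ζ + 3 * ζ ^ 2) * hsum
  · push_cast
    ring

/-- `ℤ[ζ₁₁]` is a PID. -/
theorem pid_eleven (K : Type*) [Field K] [NumberField K] [IsCyclotomicExtension {11} ℚ K] :
    IsPrincipalIdealRing (𝓞 K) := by
  have : Fact (Nat.Prime 11) := ⟨by norm_num⟩
  refine k1_pid_of_bound 11 K 65 k1_minkowski_eleven ?_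
  intro q hq hqprime hq11
  rw [Finset.mem_Icc] at hq
  obtain ⟨hq1, hq65⟩ := hq
  interval_cases q <;> first
    | (exfalso; norm_num at hqprime; done)
    | (exfalso; exact hq11 rfl)
    | (left; apply k1_lt_pow_orderOf 11 _ 65 2 10 <;> decide)
    | (left; apply k1_lt_pow_orderOf 11 _ 65 3 10 <;> decide)
    | (left; apply k1_lt_pow_orderOf 11 _ 65 4 10 <;> decide)
    | (left; apply k1_lt_pow_orderOf 11 _ 65 7 10 <;> decide)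
    | (right; exact k1_principal_prime_23 K)

end Fermat.Agent.Kummer
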