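import Fermat.Agent.Kummer.K1_PrincipalPrime

/-!
# Project K / K1: principal primes above 3, 53, 79, 131, 157 in `ℤ[ζ₁₃]`

For each of these `q` we exhibit an explicit generator `α` of a prime above `q`, with explicit
cofactors (found by computer, checked here by `linear_combination` against
`1 + ζ + ... + ζ¹² = 0`).
-/

namespace Fermat.Agent.Kummer.K1P

open Polynomial NumberField Ideal

section Thirteen

theorem irreducible_cubic_mod_three : Irreducible (X ^ 3 - X - 1 : (ZMod 3)[X]) := by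
  apply irreducible_of_degree_le_three_of_not_isRoot
  · have hd : (X ^ 3 - X - 1 : (ZMod 3)[X]).natDegree = 3 := by compute_degree!
    rw [hd]; decide
  · intro x
    rw [IsRoot.def]
    simp only [eval_sub, eval_pow, eval_X, eval_one]
    revert x
    decide

theorem cubic_dvd_cyclotomic_mod_three :
    (X ^ 3 - X - 1 : (ZMod 3)[X]) ∣ cyclotomic 13 (ZMod 3) := by
  have h13 : Fact (Nat.Prime 13) := ⟨by norm_num⟩
  have hmap : (X ^ 3 - X - 1 : ℤ[X]).map (Int.castRingHom (ZMod 3)) = X ^ 3 - X - 1 := by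
    simp
  have key : cyclotomic 13 ℤ = (X ^ 3 - X - 1)
        * (-1 - X ^ 2 - X ^ 3 + X ^ 5 - X ^ 7 + X ^ 8 + X ^ 9)
      + C (3 : ℤ) * (X ^ 5 + X ^ 6 + X ^ 9 + X ^ 10) := by
    rw [cyclotomic_prime]
    simp only [Finset.sum_range_succ, Finset.sum_range_zero, map_ofNat]
    ring
  have h3 : (Int.castRingHom (ZMod 3)) 3 = 0 := by
    rw [eq_intCast]
    exact (ZMod.intCast_zmod_eq_zero_iff_dvd 3 3).mpr (dvd_refl _)
  have := congrArg (Polynomial.map (Int.castRingHom (ZMod 3))) key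
  rw [map_cyclotomic, Polynomial.map_add, Polynomial.map_mul, Polynomial.map_mul, hmap,
    map_C, h3, C_0, zero_mul, add_zero] at this
  rw [this]
  exact Dvd.intro _ rfl

variable {K : Type*} [Field K] [NumberField K]

omit [NumberField K] in
theorem sum_pow_thirteen {ζ : K} (hζ : IsPrimitiveRoot ζ 13) :
    1 + hζ.toInteger + hζ.toInteger ^ 2 + hζ.toInteger ^ 3 + hζ.toInteger ^ 4
      + hζ.toInteger ^ 5 + hζ.toInteger ^ 6 + hζ.toInteger ^ 7 + hζ.toInteger ^ 8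
      + hζ.toInteger ^ 9 + hζ.toInteger ^ 10 + hζ.toInteger ^ 11 + hζ.toInteger ^ 12 = 0 := by
  have h := hζ.toInteger_isPrimitiveRoot.geom_sum_eq_zero (by norm_num)
  simpa [Finset.sum_range_succ] using h

variable [IsCyclotomicExtension {13} ℚ K]

/-- the prime above `3` (residue degree `3`, norm `27`) generated by `1 + ζ - ζ³`. -/
theorem exists_principal_over_13_3 :
    ∃ P ∈ primesOver (span {((3 : ℕ) : ℤ)}) (𝓞 K), Submodule.IsPrincipal P := by
  have hζ := IsCyclotomicExtension.zeta_spec 13 ℚ K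
  have hs := sum_pow_thirteen hζ
  set η := hζ.toInteger with hη
  have : Fact (Nat.Prime 3) := ⟨by norm_num⟩
  have hmap : (X ^ 3 - X - 1 : ℤ[X]).map (Int.castRingHom (ZMod 3)) = X ^ 3 - X - 1 := by
    simp
  have hev : aeval η (X ^ 3 - X - 1 : ℤ[X]) = η ^ 3 - η - 1 := by simp
  refine exists_principal_prime_over hζ 3 (X ^ 3 - X - 1) ?_ ?_ (1 + η - η ^ 3)
    (-1 - η ^ 2 - η ^ 3 - 2 * η ^ 5 - η ^ 7 - 2 * η ^ 8 + η ^ 9 - 3 * η ^ 10)
    (-1) 0 (-1) ?_ ?_ ?_
  · rw [hmap]; exact irreducible_cubic_mod_three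
  · rw [hmap]; exact cubic_dvd_cyclotomic_mod_three
  · push_cast
    linear_combination (-4 + 3 * η) * hs
  · rw [hev]; ring
  · rw [hev]; ring

theorem exists_principal_over_13_53 :
    ∃ P ∈ primesOver (span {((53 : ℕ) : ℤ)}) (𝓞 K), Submodule.IsPrincipal P := by
  have hζ := IsCyclotomicExtension.zeta_spec 13 ℚ K
  have hs := sum_pow_thirteen hζ
  set η := hζ.toInteger with hη
  have : Fact (Nat.Prime 53) := ⟨by norm_num⟩
  refine exists_principal_prime_over_of_root hζ (by norm_num) 53 (-17)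
    (by norm_num [Finset.sum_range_succ])
    (1 + η + η ^ 3)
    (1 - 24 * η - 35 * η ^ 2 - 25 * η ^ 3 - 10 * η ^ 4 - 14 * η ^ 5 - 20 * η ^ 6 - 29 * η ^ 7
      - 16 * η ^ 8 - 23 * η ^ 9 - 7 * η ^ 10 - 36 * η ^ 11)
    (1 - 7 * η - 11 * η ^ 2 - 8 * η ^ 3 - 3 * η ^ 4 - 4 * η ^ 5 - 6 * η ^ 6 - 9 * η ^ 7 - 5 * η ^ 8
      - 7 * η ^ 9 - 2 * η ^ 10 - 11 * η ^ 11)
    (-93)
    (290 - 17 * η + η ^ 2) ?_ ?_ ?_
  · push_cast
    linear_combination (-52 + 29 * η - 36 * η ^ 2) * hs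
  · push_cast
    linear_combination (-16 + 9 * η - 11 * η ^ 2) * hs
  · push_cast
    ring

theorem exists_principal_over_13_79 :
    ∃ P ∈ primesOver (span {((79 : ℕ) : ℤ)}) (𝓞 K), Submodule.IsPrincipal P := by
  have hζ := IsCyclotomicExtension.zeta_spec 13 ℚ K
  have hs := sum_pow_thirteen hζ
  set η := hζ.toInteger with hη
  have : Fact (Nat.Prime 79) := ⟨by norm_num⟩
  refine exists_principal_prime_over_of_root hζ (by norm_num) 79 (-15)
    (by norm_num [Finset.sum_range_succ])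
    (1 + η - η ^ 4)
    (24 - 25 * η - 27 * η ^ 2 + 10 * η ^ 3 - 3 * η ^ 4 - 39 * η ^ 5 - 5 * η ^ 6 - 2 * η ^ 7
      - 18 * η ^ 8 - 38 * η ^ 9 + 16 * η ^ 10 - 35 * η ^ 11)
    (5 - 4 * η - 5 * η ^ 2 + 2 * η ^ 3 - 7 * η ^ 5 - η ^ 6 - 3 * η ^ 8 - 7 * η ^ 9 + 3 * η ^ 10
      - 6 * η ^ 11)
    (-641)
    (3376 - 225 * η + 15 * η ^ 2 - η ^ 3) ?_ ?_ ?_
  · push_cast
    linear_combination (-55 + 54 * η - 51 * η ^ 2 + 35 * η ^ 3) * hs
  · push_cast
    linear_combination (-10 + 10 * η - 9 * η ^ 2 + 6 * η ^ 3) * hs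
  · push_cast
    ring

theorem exists_principal_over_13_131 :
    ∃ P ∈ primesOver (span {((131 : ℕ) : ℤ)}) (𝓞 K), Submodule.IsPrincipal P := by
  have hζ := IsCyclotomicExtension.zeta_spec 13 ℚ K
  have hs := sum_pow_thirteen hζ
  set η := hζ.toInteger with hη
  have : Fact (Nat.Prime 131) := ⟨by norm_num⟩
  refine exists_principal_prime_over_of_root hζ (by norm_num) 131 (-51)
    (by norm_num [Finset.sum_range_succ])
    (1 - η - η ^ 3)
    (111 + 78 * η + 17 * η ^ 2 + 67 * η ^ 3 + 84 * η ^ 4 + 40 * η ^ 5 + 46 * η ^ 6 + 69 * η ^ 7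
      + 48 * η ^ 8 + 33 * η ^ 9 + 41 * η ^ 10 + 28 * η ^ 11)
    (43 + 31 * η + 7 * η ^ 2 + 26 * η ^ 3 + 33 * η ^ 4 + 16 * η ^ 5 + 18 * η ^ 6 + 27 * η ^ 7
      + 19 * η ^ 8 + 13 * η ^ 9 + 16 * η ^ 10 + 11 * η ^ 11)
    (1013)
    (-2602 + 51 * η - η ^ 2) ?_ ?_ ?_
  · push_cast
    linear_combination (-20 - 13 * η - 28 * η ^ 2) * hs
  · push_cast
    linear_combination (-8 - 5 * η - 11 * η ^ 2) * hs
  · push_cast
    ring

theorem exists_principal_over_13_157 :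
    ∃ P ∈ primesOver (span {((157 : ℕ) : ℤ)}) (𝓞 K), Submodule.IsPrincipal P := by
  have hζ := IsCyclotomicExtension.zeta_spec 13 ℚ K
  have hs := sum_pow_thirteen hζ
  set η := hζ.toInteger with hη
  have : Fact (Nat.Prime 157) := ⟨by norm_num⟩
  refine exists_principal_prime_over_of_root hζ (by norm_num) 157 (75)
    (by norm_num [Finset.sum_range_succ])
    (1 - η + η ^ 2 + η ^ 4)
    (89 + 86 * η + 42 * η ^ 2 + 77 * η ^ 3 + 67 * η ^ 4 + 25 * η ^ 5 + 37 * η ^ 6 + 56 * η ^ 7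
      + 73 * η ^ 8 + 113 * η ^ 9 + 124 * η ^ 10 + 76 * η ^ 11)
    (-43 - 41 * η - 20 * η ^ 2 - 37 * η ^ 3 - 32 * η ^ 4 - 12 * η ^ 5 - 18 * η ^ 6 - 27 * η ^ 7
      - 35 * η ^ 8 - 54 * η ^ 9 - 59 * η ^ 10 - 36 * η ^ 11)
    (201568)
    (421949 + 5626 * η + 75 * η ^ 2 + η ^ 3) ?_ ?_ ?_
  · push_cast
    linear_combination (-68 + 65 * η + 48 * η ^ 2 + 76 * η ^ 3) * hs
  · push_cast
    linear_combination (32 - 31 * η - 23 * η ^ 2 - 36 * η ^ 3) * hs
  · push_cast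
    ring

/-- the hypothesis of the Minkowski skeleton for `p = 13`. -/
theorem exists_principal_over_13 (q : ℕ) (hq : q ∈ ({3, 53, 79, 131, 157} : Finset ℕ)) :
    ∃ P ∈ primesOver (span {((q : ℕ) : ℤ)}) (𝓞 K), Submodule.IsPrincipal P := by
  simp only [Finset.mem_insert, Finset.mem_singleton] at hq
  rcases hq with rfl | rfl | rfl | rfl | rfl
  · exact exists_principal_over_13_3
  · exact exists_principal_over_13_53
  · exact exists_principal_over_13_79
  · exact exists_principal_over_13_131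
  · exact exists_principal_over_13_157

end Thirteen

end Fermat.Agent.Kummer.K1P
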