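import Fermat.Agent.Kummer.K1_PID13_Skeleton
import Fermat.Agent.Kummer.K1_Primes13

/-!
# Project K / K1: the ring of integers of `ℚ(ζ₁₃)` is a PID
-/

namespace Fermat.Agent.Kummer

/-- **Class number one for `ℚ(ζ₁₃)`.** -/
theorem pid_thirteen (K : Type*) [Field K] [NumberField K] [IsCyclotomicExtension {13} ℚ K] :
    IsPrincipalIdealRing (NumberField.RingOfIntegers K) :=
  pid_thirteen_of_principal K (fun q hq => K1P.exists_principal_over_13 q hq)

end Fermat.Agent.Kummer
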