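import Fermat.Agent.Kummer.K1_PIDCommon

/-!
# `ℤ[ζ₇]` is a principal ideal domain
-/

namespace Fermat.Agent.Kummer

open NumberField Ideal
open scoped Real Nat

theorem k1_minkowski_seven :
    (4 / π) ^ ((7 - 1) / 2) *
      ((((7 - 1)! : ℕ) : ℝ) / ((7 - 1 : ℕ) : ℝ) ^ (7 - 1) * √((7 : ℝ) ^ (7 - 2))) <
        ((4 : ℕ) : ℝ) + 1 := by
  have h1 : (4 / π) ^ 3 ≤ (4 / 3 : ℝ) ^ 3 := by
    gcongr
    exact Real.pi_gt_three.le
  have h2 : √((7 : ℝ) ^ 5) ≤ 130 := by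
    rw [Real.sqrt_le_left (by norm_num)]
    norm_num
  have h3 : (((7 - 1)! : ℕ) : ℝ) = 720 := by
    norm_num [Nat.factorial]
  have h4 : ((7 - 1 : ℕ) : ℝ) = 6 := by norm_num
  rw [h3, h4]
  show (4 / π) ^ 3 * (720 / 6 ^ 6 * √((7 : ℝ) ^ 5)) < ((4 : ℕ) : ℝ) + 1
  calc (4 / π) ^ 3 * (720 / 6 ^ 6 * √((7 : ℝ) ^ 5))
      ≤ (4 / 3 : ℝ) ^ 3 * (720 / 6 ^ 6 * 130) := by gcongr
    _ < ((4 : ℕ) : ℝ) + 1 := by norm_num

/-- `ℤ[ζ₇]` is a PID. -/
theorem pid_seven (K : Type*) [Field K] [NumberField K] [IsCyclotomicExtension {7} ℚ K] :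
    IsPrincipalIdealRing (𝓞 K) := by
  have : Fact (Nat.Prime 7) := ⟨by norm_num⟩
  refine k1_pid_of_bound 7 K 4 k1_minkowski_seven ?_
  intro q hq hqprime hq7
  rw [Finset.mem_Icc] at hq
  obtain ⟨hq1, hq4⟩ := hq
  left
  interval_cases q
  · exact absurd hqprime (by norm_num)
  · exact k1_lt_pow_orderOf 7 2 4 3 6 (by norm_num) (by norm_num) (by decide) (by decide)
      (by norm_num)
  · exact k1_lt_pow_orderOf 7 3 4 2 6 (by norm_num) (by norm_num) (by decide) (by decide)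
      (by norm_num)
  · exact absurd hqprime (by norm_num)

end Fermat.Agent.Kummer
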