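import Mathlib

/-!
# Project K, WP-D: explicit level units in `ℤ[ζ_p]` for `p = 5, 7, 11, 13`

For `lam = ζ - 1` and every even `j` with `2 ≤ j ≤ p - 3` we exhibit a unit `u` (with explicit
inverse) and integers `n`, `c` prime to `p` such that `lam ^ (j + 1) ∣ u - n - c * lam ^ j`.
All identities are checked against the relation `1 + ζ + ... + ζ ^ (p - 1) = 0`.
-/

open NumberField

namespace Fermat.Agent.Kummer.K3D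

variable {K : Type*} [Field K]

/-- `u` has exact level `j` with respect to `lam = ζ - 1`. -/
def HasLevelUnit (p : ℕ) [NeZero p] {ζ : K} (hζ : IsPrimitiveRoot ζ p) (j : ℕ) : Prop :=
  ∃ (u : (𝓞 K)ˣ) (n c : ℤ), ¬ (p : ℤ) ∣ n ∧ ¬ (p : ℤ) ∣ c ∧
    (hζ.toInteger - 1) ^ (j + 1) ∣ (u : 𝓞 K) - n - c * (hζ.toInteger - 1) ^ j

theorem cyc_five {ζ : K} (hζ : IsPrimitiveRoot ζ 5) :
    1 + hζ.toInteger + hζ.toInteger ^ 2 + hζ.toInteger ^ 3 + hζ.toInteger ^ 4 = 0 := by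
  have h := hζ.toInteger_isPrimitiveRoot.geom_sum_eq_zero (by norm_num)
  simpa [Finset.sum_range_succ] using h

theorem levelUnit_five_2 {ζ : K} (hζ : IsPrimitiveRoot ζ 5) : HasLevelUnit 5 hζ 2 := by
  have hc := cyc_five hζ
  unfold HasLevelUnit
  generalize hζ.toInteger = η at hc ⊢
  refine ⟨⟨1 + 1 * η ^ 2 + 1 * η ^ 3,
      1 * η ^ 2 + 1 * η ^ 3, ?_, ?_⟩,
    -2, -1, by norm_num, by norm_num, ?_⟩
  · linear_combination ((-1) + 1 * η + 1 * η ^ 2) * hc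
  · linear_combination ((-1) + 1 * η + 1 * η ^ 2) * hc
  · refine ⟨(-1) + (-1) * η + (-1) * η ^ 2 + (-1) * η ^ 3, ?_⟩
    push_cast
    linear_combination (3 + (-3) * η + 1 * η ^ 2) * hc

theorem levelUnit_five {ζ : K} (hζ : IsPrimitiveRoot ζ 5) (j : ℕ) (hj : Even j) (h2 : 2 ≤ j)
    (hjp : j ≤ 5 - 3) : HasLevelUnit 5 hζ j := by
  have hjp' : j ≤ 2 := hjp
  interval_cases j
  · exact levelUnit_five_2 hζ

theorem cyc_seven {ζ : K} (hζ : IsPrimitiveRoot ζ 7) :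
    1 + hζ.toInteger + hζ.toInteger ^ 2 + hζ.toInteger ^ 3 + hζ.toInteger ^ 4 + hζ.toInteger ^ 5 + hζ.toInteger ^ 6 = 0 := by
  have h := hζ.toInteger_isPrimitiveRoot.geom_sum_eq_zero (by norm_num)
  simpa [Finset.sum_range_succ] using h

theorem levelUnit_seven_2 {ζ : K} (hζ : IsPrimitiveRoot ζ 7) : HasLevelUnit 7 hζ 2 := by
  have hc := cyc_seven hζ
  unfold HasLevelUnit
  generalize hζ.toInteger = η at hc ⊢
  refine ⟨⟨(-1) + (-1) * η ^ 2 + (-1) * η ^ 5,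
      1 * η ^ 3 + 1 * η ^ 4, ?_, ?_⟩,
    -3, 3, by norm_num, by norm_num, ?_⟩
  · linear_combination ((-1) + 1 * η + (-1) * η ^ 3) * hc
  · linear_combination ((-1) + 1 * η + (-1) * η ^ 3) * hc
  · refine ⟨3 + 2 * η + 1 * η ^ 2 + (-1) * η ^ 4 + (-1) * η ^ 5, ?_⟩
    push_cast
    linear_combination (2 + (-3) * η + 1 * η ^ 2) * hc

theorem levelUnit_seven_4 {ζ : K} (hζ : IsPrimitiveRoot ζ 7) : HasLevelUnit 7 hζ 4 := by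
  have hc := cyc_seven hζ
  unfold HasLevelUnit
  generalize hζ.toInteger = η at hc ⊢
  refine ⟨⟨(-3) + (-3) * η ^ 2 + (-1) * η ^ 3 + (-1) * η ^ 4 + (-3) * η ^ 5,
      1 + (-2) * η ^ 2 + (-3) * η ^ 3 + (-3) * η ^ 4 + (-2) * η ^ 5, ?_, ?_⟩,
    3, -2, by norm_num, by norm_num, ?_⟩
  · linear_combination ((-4) + 4 * η + 3 * η ^ 2 + 5 * η ^ 3 + 6 * η ^ 4) * hc
  · linear_combination ((-4) + 4 * η + 3 * η ^ 2 + 5 * η ^ 3 + 6 * η ^ 4) * hc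
  · refine ⟨(-2) + (-3) * η + (-4) * η ^ 2 + (-4) * η ^ 3 + (-3) * η ^ 4 + (-1) * η ^ 5, ?_⟩
    push_cast
    linear_combination ((-6) + 5 * η + 1 * η ^ 2 + (-3) * η ^ 3 + 1 * η ^ 4) * hc

theorem levelUnit_seven {ζ : K} (hζ : IsPrimitiveRoot ζ 7) (j : ℕ) (hj : Even j) (h2 : 2 ≤ j)
    (hjp : j ≤ 7 - 3) : HasLevelUnit 7 hζ j := by
  have hjp' : j ≤ 4 := hjp
  interval_cases j
  · exact levelUnit_seven_2 hζ
  · exact absurd hj (by decide)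
  · exact levelUnit_seven_4 hζ

theorem cyc_eleven {ζ : K} (hζ : IsPrimitiveRoot ζ 11) :
    1 + hζ.toInteger + hζ.toInteger ^ 2 + hζ.toInteger ^ 3 + hζ.toInteger ^ 4 + hζ.toInteger ^ 5 + hζ.toInteger ^ 6 + hζ.toInteger ^ 7 + hζ.toInteger ^ 8 + hζ.toInteger ^ 9 + hζ.toInteger ^ 10 = 0 := by
  have h := hζ.toInteger_isPrimitiveRoot.geom_sum_eq_zero (by norm_num)
  simpa [Finset.sum_range_succ] using h

theorem levelUnit_eleven_2 {ζ : K} (hζ : IsPrimitiveRoot ζ 11) : HasLevelUnit 11 hζ 2 := by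
  have hc := cyc_eleven hζ
  unfold HasLevelUnit
  generalize hζ.toInteger = η at hc ⊢
  refine ⟨⟨(-1) + (-1) * η ^ 2 + (-1) * η ^ 4 + (-1) * η ^ 7 + (-1) * η ^ 9,
      1 * η ^ 5 + 1 * η ^ 6, ?_, ?_⟩,
    -5, 2, by norm_num, by norm_num, ?_⟩
  · linear_combination ((-1) + 1 * η + (-1) * η ^ 5) * hc
  · linear_combination ((-1) + 1 * η + (-1) * η ^ 5) * hc
  · refine ⟨4 + 4 * η + 3 * η ^ 2 + 1 * η ^ 3 + (-1) * η ^ 4 + (-3) * η ^ 5 + (-5) * η ^ 6 + (-6) * η ^ 7 + (-6) * η ^ 8 + (-4) * η ^ 9, ?_⟩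
    push_cast
    linear_combination (6 + (-10) * η + 4 * η ^ 2) * hc

theorem levelUnit_eleven_4 {ζ : K} (hζ : IsPrimitiveRoot ζ 11) : HasLevelUnit 11 hζ 4 := by
  have hc := cyc_eleven hζ
  unfold HasLevelUnit
  generalize hζ.toInteger = η at hc ⊢
  refine ⟨⟨1 * η ^ 2 + (-1) * η ^ 3 + 1 * η ^ 4 + 1 * η ^ 7 + (-1) * η ^ 8 + 1 * η ^ 9,
      1 * η ^ 4 + 2 * η ^ 5 + 2 * η ^ 6 + 1 * η ^ 7, ?_, ?_⟩,
    2, 4, by norm_num, by norm_num, ?_⟩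
  · linear_combination ((-1) + 1 * η + 1 * η ^ 6) * hc
  · linear_combination ((-1) + 1 * η + 1 * η ^ 6) * hc
  · refine ⟨5 + 4 * η + 1 * η ^ 2 + (-3) * η ^ 3 + (-7) * η ^ 4 + (-10) * η ^ 5 + (-11) * η ^ 6 + (-10) * η ^ 7 + (-7) * η ^ 8 + (-3) * η ^ 9, ?_⟩
    push_cast
    linear_combination ((-1) + (-4) * η + 13 * η ^ 2 + (-11) * η ^ 3 + 3 * η ^ 4) * hc

theorem levelUnit_eleven_6 {ζ : K} (hζ : IsPrimitiveRoot ζ 11) : HasLevelUnit 11 hζ 6 := by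
  have hc := cyc_eleven hζ
  unfold HasLevelUnit
  generalize hζ.toInteger = η at hc ⊢
  refine ⟨⟨(-5) * η ^ 2 + (-5) * η ^ 3 + (-4) * η ^ 4 + (-1) * η ^ 5 + (-1) * η ^ 6 + (-4) * η ^ 7 + (-5) * η ^ 8 + (-5) * η ^ 9,
      8 + (-8) * η ^ 2 + 3 * η ^ 3 + 9 * η ^ 4 + (-6) * η ^ 5 + (-6) * η ^ 6 + 9 * η ^ 7 + 3 * η ^ 8 + (-8) * η ^ 9, ?_, ?_⟩,
    3, 5, by norm_num, by norm_num, ?_⟩
  · linear_combination ((-1) + 1 * η + (-40) * η ^ 2 + 48 * η ^ 4 + 9 * η ^ 5 + (-53) * η ^ 6 + (-15) * η ^ 7 + 40 * η ^ 8) * hc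
  · linear_combination ((-1) + 1 * η + (-40) * η ^ 2 + 48 * η ^ 4 + 9 * η ^ 5 + (-53) * η ^ 6 + (-15) * η ^ 7 + 40 * η ^ 8) * hc
  · refine ⟨2 + (-4) * η + (-11) * η ^ 2 + (-18) * η ^ 3 + (-24) * η ^ 4 + (-27) * η ^ 5 + (-25) * η ^ 6 + (-18) * η ^ 7 + (-9) * η ^ 8 + (-2) * η ^ 9, ?_⟩
    push_cast
    linear_combination ((-6) + 18 * η + (-33) * η ^ 2 + 21 * η ^ 3 + 2 * η ^ 4 + (-7) * η ^ 5 + 2 * η ^ 6) * hc

theorem levelUnit_eleven_8 {ζ : K} (hζ : IsPrimitiveRoot ζ 11) : HasLevelUnit 11 hζ 8 := by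
  have hc := cyc_eleven hζ
  unfold HasLevelUnit
  generalize hζ.toInteger = η at hc ⊢
  refine ⟨⟨147 + 104 * η ^ 2 + 61 * η ^ 3 + 58 * η ^ 4 + 73 * η ^ 5 + 73 * η ^ 6 + 58 * η ^ 7 + 61 * η ^ 8 + 104 * η ^ 9,
      7 * η ^ 2 + 26 * η ^ 3 + 46 * η ^ 4 + 56 * η ^ 5 + 56 * η ^ 6 + 46 * η ^ 7 + 26 * η ^ 8 + 7 * η ^ 9, ?_, ?_⟩,
    2, -4, by norm_num, by norm_num, ?_⟩
  · linear_combination ((-1) + 1 * η + 1029 * η ^ 2 + 2793 * η ^ 3 + 3668 * η ^ 4 + 3873 * η ^ 5 + 3645 * η ^ 6 + 2403 * η ^ 7 + 728 * η ^ 8) * hc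
  · linear_combination ((-1) + 1 * η + 1029 * η ^ 2 + 2793 * η ^ 3 + 3668 * η ^ 4 + 3873 * η ^ 5 + 3645 * η ^ 6 + 2403 * η ^ 7 + 728 * η ^ 8) * hc
  · refine ⟨(-27) + (-61) * η + (-95) * η ^ 2 + (-118) * η ^ 3 + (-123) * η ^ 4 + (-108) * η ^ 5 + (-77) * η ^ 6 + (-41) * η ^ 7 + (-10) * η ^ 8 + 5 * η ^ 9, ?_⟩
    push_cast
    linear_combination (122 + 28 * η + (-452) * η ^ 2 + 948 * η ^ 3 + (-1067) * η ^ 4 + 717 * η ^ 5 + (-284) * η ^ 6 + 60 * η ^ 7 + (-5) * η ^ 8) * hc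

theorem levelUnit_eleven {ζ : K} (hζ : IsPrimitiveRoot ζ 11) (j : ℕ) (hj : Even j) (h2 : 2 ≤ j)
    (hjp : j ≤ 11 - 3) : HasLevelUnit 11 hζ j := by
  have hjp' : j ≤ 8 := hjp
  interval_cases j
  · exact levelUnit_eleven_2 hζ
  · exact absurd hj (by decide)
  · exact levelUnit_eleven_4 hζ
  · exact absurd hj (by decide)
  · exact levelUnit_eleven_6 hζ
  · exact absurd hj (by decide)
  · exact levelUnit_eleven_8 hζ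

theorem cyc_thirteen {ζ : K} (hζ : IsPrimitiveRoot ζ 13) :
    1 + hζ.toInteger + hζ.toInteger ^ 2 + hζ.toInteger ^ 3 + hζ.toInteger ^ 4 + hζ.toInteger ^ 5 + hζ.toInteger ^ 6 + hζ.toInteger ^ 7 + hζ.toInteger ^ 8 + hζ.toInteger ^ 9 + hζ.toInteger ^ 10 + hζ.toInteger ^ 11 + hζ.toInteger ^ 12 = 0 := by
  have h := hζ.toInteger_isPrimitiveRoot.geom_sum_eq_zero (by norm_num)
  simpa [Finset.sum_range_succ] using h

theorem levelUnit_thirteen_2 {ζ : K} (hζ : IsPrimitiveRoot ζ 13) : HasLevelUnit 13 hζ 2 := by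
  have hc := cyc_thirteen hζ
  unfold HasLevelUnit
  generalize hζ.toInteger = η at hc ⊢
  refine ⟨⟨1 + 1 * η ^ 2 + 1 * η ^ 4 + 1 * η ^ 6 + 1 * η ^ 7 + 1 * η ^ 9 + 1 * η ^ 11,
      1 * η ^ 6 + 1 * η ^ 7, ?_, ?_⟩,
    -6, 4, by norm_num, by norm_num, ?_⟩
  · linear_combination ((-1) + 1 * η + 1 * η ^ 6) * hc
  · linear_combination ((-1) + 1 * η + 1 * η ^ 6) * hc
  · refine ⟨7 + 8 * η + 7 * η ^ 2 + 5 * η ^ 3 + 2 * η ^ 4 + (-1) * η ^ 5 + (-4) * η ^ 6 + (-7) * η ^ 7 + (-9) * η ^ 8 + (-10) * η ^ 9 + (-9) * η ^ 10 + (-6) * η ^ 11, ?_⟩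
    push_cast
    linear_combination (10 + (-15) * η + 6 * η ^ 2) * hc

theorem levelUnit_thirteen_4 {ζ : K} (hζ : IsPrimitiveRoot ζ 13) : HasLevelUnit 13 hζ 4 := by
  have hc := cyc_thirteen hζ
  unfold HasLevelUnit
  generalize hζ.toInteger = η at hc ⊢
  refine ⟨⟨(-1) + (-1) * η ^ 2 + (-1) * η ^ 3 + (-1) * η ^ 4 + (-1) * η ^ 6 + (-1) * η ^ 7 + (-1) * η ^ 9 + (-1) * η ^ 10 + (-1) * η ^ 11,
      1 + (-1) * η ^ 4 + (-1) * η ^ 6 + (-1) * η ^ 7 + (-1) * η ^ 9, ?_, ?_⟩,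
    4, -2, by norm_num, by norm_num, ?_⟩
  · linear_combination ((-2) + 2 * η + (-1) * η ^ 2 + 1 * η ^ 4 + 1 * η ^ 6 + 1 * η ^ 8) * hc
  · linear_combination ((-2) + 2 * η + (-1) * η ^ 2 + 1 * η ^ 4 + 1 * η ^ 6 + 1 * η ^ 8) * hc
  · refine ⟨4 + 5 * η + 1 * η ^ 2 + (-7) * η ^ 3 + (-17) * η ^ 4 + (-27) * η ^ 5 + (-35) * η ^ 6 + (-39) * η ^ 7 + (-38) * η ^ 8 + (-32) * η ^ 9 + (-22) * η ^ 10 + (-10) * η ^ 11, ?_⟩
    push_cast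
    linear_combination (1 + (-24) * η + 50 * η ^ 2 + (-38) * η ^ 3 + 10 * η ^ 4) * hc

theorem levelUnit_thirteen_6 {ζ : K} (hζ : IsPrimitiveRoot ζ 13) : HasLevelUnit 13 hζ 6 := by
  have hc := cyc_thirteen hζ
  unfold HasLevelUnit
  generalize hζ.toInteger = η at hc ⊢
  refine ⟨⟨2 + 1 * η ^ 2 + 1 * η ^ 5 + 1 * η ^ 6 + 1 * η ^ 7 + 1 * η ^ 8 + 1 * η ^ 11,
      (-1) + 1 * η ^ 2 + 1 * η ^ 5 + 1 * η ^ 6 + 1 * η ^ 7 + 1 * η ^ 8 + 1 * η ^ 11, ?_, ?_⟩,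
    -5, 4, by norm_num, by norm_num, ?_⟩
  · linear_combination ((-3) + 3 * η + 1 * η ^ 2 + (-1) * η ^ 3 + 1 * η ^ 4 + 2 * η ^ 7 + (-1) * η ^ 9 + 1 * η ^ 10) * hc
  · linear_combination ((-3) + 3 * η + 1 * η ^ 2 + (-1) * η ^ 3 + 1 * η ^ 4 + 2 * η ^ 7 + (-1) * η ^ 9 + 1 * η ^ 10) * hc
  · refine ⟨9 + (-14) * η + (-59) * η ^ 2 + (-116) * η ^ 3 + (-173) * η ^ 4 + (-218) * η ^ 5 + (-241) * η ^ 6 + (-236) * η ^ 7 + (-203) * η ^ 8 + (-149) * η ^ 9 + (-87) * η ^ 10 + (-33) * η ^ 11, ?_⟩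
    push_cast
    linear_combination (12 + (-65) * η + 222 * η ^ 2 + (-401) * η ^ 3 + 377 * η ^ 4 + (-177) * η ^ 5 + 33 * η ^ 6) * hc

theorem levelUnit_thirteen_8 {ζ : K} (hζ : IsPrimitiveRoot ζ 13) : HasLevelUnit 13 hζ 8 := by
  have hc := cyc_thirteen hζ
  unfold HasLevelUnit
  generalize hζ.toInteger = η at hc ⊢
  refine ⟨⟨(-20) + (-6) * η ^ 2 + (-6) * η ^ 3 + 15 * η ^ 4 + 15 * η ^ 6 + 15 * η ^ 7 + 15 * η ^ 9 + (-6) * η ^ 10 + (-6) * η ^ 11,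
      13 + (-21) * η ^ 2 + (-21) * η ^ 3 + (-6) * η ^ 4 + (-6) * η ^ 6 + (-6) * η ^ 7 + (-6) * η ^ 9 + (-21) * η ^ 10 + (-21) * η ^ 11, ?_, ?_⟩,
    3, 6, by norm_num, by norm_num, ?_⟩
  · linear_combination ((-261) + 261 * η + 342 * η ^ 2 + 99 * η ^ 4 + (-189) * η ^ 5 + (-90) * η ^ 6 + (-126) * η ^ 7 + (-405) * η ^ 8 + 126 * η ^ 9 + 126 * η ^ 10) * hc
  · linear_combination ((-261) + 261 * η + 342 * η ^ 2 + 99 * η ^ 4 + (-189) * η ^ 5 + (-90) * η ^ 6 + (-126) * η ^ 7 + (-405) * η ^ 8 + 126 * η ^ 9 + 126 * η ^ 10) * hc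
  · refine ⟨(-1402) + (-4372) * η + (-8224) * η ^ 2 + (-12076) * η ^ 3 + (-15046) * η ^ 4 + (-16454) * η ^ 5 + (-15977) * η ^ 6 + (-13724) * η ^ 7 + (-10211) * η ^ 8 + (-6243) * η ^ 9 + (-2730) * η ^ 10 + (-477) * η ^ 11, ?_⟩
    push_cast
    linear_combination ((-1431) + 9725 * η + (-27816) * η ^ 2 + 42168 * η ^ 3 + (-34881) * η ^ 4 + 13391 * η ^ 5 + 408 * η ^ 6 + (-2040) * η ^ 7 + 477 * η ^ 8) * hc

theorem levelUnit_thirteen_10 {ζ : K} (hζ : IsPrimitiveRoot ζ 13) : HasLevelUnit 13 hζ 10 := by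
  have hc := cyc_thirteen hζ
  unfold HasLevelUnit
  generalize hζ.toInteger = η at hc ⊢
  refine ⟨⟨62 + (-105) * η ^ 2 + (-46) * η ^ 3 + 60 * η ^ 4 + 31 * η ^ 5 + (-81) * η ^ 6 + (-81) * η ^ 7 + 31 * η ^ 8 + 60 * η ^ 9 + (-46) * η ^ 10 + (-105) * η ^ 11,
      31 + (-77) * η ^ 2 + (-136) * η ^ 3 + (-112) * η ^ 4 + (-31) * η ^ 5 + 29 * η ^ 6 + 29 * η ^ 7 + (-31) * η ^ 8 + (-112) * η ^ 9 + (-136) * η ^ 10 + (-77) * η ^ 11, ?_, ?_⟩,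
    1, -5, by norm_num, by norm_num, ?_⟩
  · linear_combination (1921 + (-1921) * η + (-8029) * η ^ 2 + (-1829) * η ^ 3 + 12859 * η ^ 4 + 13860 * η ^ 5 + (-4178) * η ^ 6 + (-15536) * η ^ 7 + (-4426) * η ^ 8 + 9737 * η ^ 9 + 8085 * η ^ 10) * hc
  · linear_combination (1921 + (-1921) * η + (-8029) * η ^ 2 + (-1829) * η ^ 3 + 12859 * η ^ 4 + 13860 * η ^ 5 + (-4178) * η ^ 6 + (-15536) * η ^ 7 + (-4426) * η ^ 8 + 9737 * η ^ 9 + 8085 * η ^ 10) * hc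
  · refine ⟨190 + 435 * η + 680 * η ^ 2 + 875 * η ^ 3 + 971 * η ^ 4 + 939 * η ^ 5 + 789 * η ^ 6 + 563 * η ^ 7 + 312 * η ^ 8 + 86 * η ^ 9 + (-64) * η ^ 10 + (-96) * η ^ 11, ?_⟩
    push_cast
    linear_combination (256 + (-1961) * η + 8170 * η ^ 2 + (-21141) * η ^ 3 + 35457 * η ^ 4 + (-40057) * η ^ 5 + 30945 * η ^ 6 + (-16176) * η ^ 7 + 5482 * η ^ 8 + (-1088) * η ^ 9 + 96 * η ^ 10) * hc

theorem levelUnit_thirteen {ζ : K} (hζ : IsPrimitiveRoot ζ 13) (j : ℕ) (hj : Even j) (h2 : 2 ≤ j)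
    (hjp : j ≤ 13 - 3) : HasLevelUnit 13 hζ j := by
  have hjp' : j ≤ 10 := hjp
  interval_cases j
  · exact levelUnit_thirteen_2 hζ
  · exact absurd hj (by decide)
  · exact levelUnit_thirteen_4 hζ
  · exact absurd hj (by decide)
  · exact levelUnit_thirteen_6 hζ
  · exact absurd hj (by decide)
  · exact levelUnit_thirteen_8 hζ
  · exact absurd hj (by decide)
  · exact levelUnit_thirteen_10 hζ

end Fermat.Agent.Kummer.K3D
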