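import Mathlib

/-!
# Project K (Kummer), package K5: basic facts on the `p`-th cyclotomic ring of integers

Owner: helper15.  Generic in the odd prime `p`.
Notation: `η = hζ.toInteger`, `λ = hζ.toInteger - 1`.
-/

set_option autoImplicit false
set_option linter.style.haveILetI false
set_option linter.unusedSectionVars false

namespace Fermat.Agent.Kummer.K5

open NumberField Polynomial Finset

variable {p : ℕ} [hp : Fact p.Prime] {K : Type*} [Field K] [NumberField K]
  [IsCyclotomicExtension {p} ℚ K] {ζ : K} (hζ : IsPrimitiveRoot ζ p)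

/-- every element of `𝓞 K` is a polynomial in `η` with integer coefficients. -/
theorem exists_eq_aeval_zeta (x : 𝓞 K) : ∃ f : ℤ[X], x = aeval hζ.toInteger f := by
  obtain ⟨f, hf⟩ := hζ.integralPowerBasis.exists_eq_aeval' x
  rw [hζ.integralPowerBasis_gen] at hf
  exact ⟨f, hf⟩

/-- (a) every element of `𝓞 K` is congruent to a rational integer modulo `λ`. -/
theorem exists_int_sub_dvd_lambda (x : 𝓞 K) : ∃ n : ℤ, hζ.toInteger - 1 ∣ x - n := by
  obtain ⟨f, rfl⟩ := exists_eq_aeval_zeta hζ x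
  refine ⟨f.eval 1, ?_⟩
  have h1 : (X - 1 : ℤ[X]) ∣ f - C (f.eval 1) := by
    have := Polynomial.X_sub_C_dvd_sub_C_eval (a := (1 : ℤ)) (p := f)
    simpa using this
  obtain ⟨g, hg⟩ := h1
  refine ⟨aeval hζ.toInteger g, ?_⟩
  have := congrArg (aeval hζ.toInteger) hg
  simpa using this

/-- `p` is not a unit of `𝓞 K`. -/
theorem prime_mem_nonunits : (p : 𝓞 K) ∈ nonunits (𝓞 K) := by
  have hζ := IsCyclotomicExtension.zeta_spec p ℚ K
  intro hu
  exact hζ.zeta_sub_one_prime'.not_isUnit (isUnit_of_dvd_unit hζ.toInteger_sub_one_dvd_prime' hu)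

/-- (e) `x ^ p` is congruent to a rational integer modulo `p`. -/
theorem pow_prime_congr_int (x : 𝓞 K) : ∃ n : ℤ, (p : 𝓞 K) ∣ x ^ p - n := by
  have hζ := IsCyclotomicExtension.zeta_spec p ℚ K
  obtain ⟨f, rfl⟩ := exists_eq_aeval_zeta hζ x
  haveI : CharP (𝓞 K ⧸ Ideal.span {(p : 𝓞 K)}) p :=
    CharP.quotient (𝓞 K) p prime_mem_nonunits
  refine ⟨∑ i ∈ range (f.natDegree + 1), f.coeff i ^ p, ?_⟩
  rw [← Ideal.mem_span_singleton, ← Ideal.Quotient.eq_zero_iff_mem, map_sub, map_pow,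
    sub_eq_zero, aeval_eq_sum_range, map_sum, sum_pow_char, map_intCast, Int.cast_sum]
  refine Finset.sum_congr rfl fun i _ => ?_
  rw [← map_pow, zsmul_eq_mul, mul_pow, ← pow_mul, mul_comm i p, pow_mul,
    hζ.toInteger_isPrimitiveRoot.pow_eq_one, one_pow, mul_one]
  simp

omit [NumberField K] [IsCyclotomicExtension {p} ℚ K] in
/-- the `p`-th roots of unity in `𝓞 K` are the powers `η ^ i`, `i < p`. -/
theorem nthRootsFinset_eq_image [DecidableEq (𝓞 K)] :
    nthRootsFinset p (1 : 𝓞 K) = (range p).image (fun i => hζ.toInteger ^ i) := by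
  have hη := hζ.toInteger_isPrimitiveRoot
  symm
  apply Finset.eq_of_subset_of_card_le
  · intro x hx
    rw [Finset.mem_image] at hx
    obtain ⟨i, -, rfl⟩ := hx
    rw [Polynomial.mem_nthRootsFinset hp.out.pos, ← pow_mul, mul_comm, pow_mul, hη.pow_eq_one,
      one_pow]
  · rw [hη.card_nthRootsFinset, Finset.card_image_of_injOn, Finset.card_range]
    intro i hi j hj hij
    exact hη.pow_inj (Finset.mem_range.1 hi) (Finset.mem_range.1 hj) hij

omit [NumberField K] [IsCyclotomicExtension {p} ℚ K] in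
/-- (f) `x ^ p + y ^ p = ∏ i < p, (x + η ^ i * y)` for `p` odd. -/
theorem pow_add_pow_eq_prod (hodd : p ≠ 2) (x y : 𝓞 K) :
    x ^ p + y ^ p = ∏ i ∈ range p, (x + hζ.toInteger ^ i * y) := by
  classical
  have hη := hζ.toInteger_isPrimitiveRoot
  rw [hη.pow_add_pow_eq_prod_add_mul x y (hp.out.odd_of_ne_two hodd),
    nthRootsFinset_eq_image hζ, Finset.prod_image]
  intro i hi j hj hij
  exact hη.pow_inj (Finset.mem_range.1 hi) (Finset.mem_range.1 hj) hij

/-- (b) `λ ∣ n ↔ p ∣ n` for rational integers `n` (Mathlib, restated). -/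
theorem lambda_dvd_intCast_iff {n : ℤ} : hζ.toInteger - 1 ∣ (n : 𝓞 K) ↔ (p : ℤ) ∣ n :=
  IsCyclotomicExtension.Rat.zeta_sub_one_dvd_intCast_iff' p hζ

omit [NumberField K] [IsCyclotomicExtension {p} ℚ K] in
/-- (c) `p` is associated to `λ ^ (p - 1)` (Mathlib, restated). -/
theorem associated_prime_lambda_pow :
    Associated (p : 𝓞 K) ((hζ.toInteger - 1) ^ (p - 1)) :=
  (IsCyclotomicExtension.Rat.associated_zeta_sub_one_pow_prime p hζ).symm

omit [NumberField K] [IsCyclotomicExtension {p} ℚ K] in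
/-- (d) `η ^ i - 1` is associated to `λ` when `p ∤ i`. -/
theorem associated_zeta_pow_sub_one {i : ℕ} (hi : ¬ p ∣ i) :
    Associated (hζ.toInteger ^ i - 1) (hζ.toInteger - 1) :=
  (hζ.toInteger_isPrimitiveRoot.associated_sub_one_pow_sub_one_of_coprime
    ((Nat.Prime.coprime_iff_not_dvd hp.out).2 hi).symm).symm

omit [NumberField K] [IsCyclotomicExtension {p} ℚ K] in
/-- `λ ∣ η ^ i - 1`. -/
theorem lambda_dvd_zeta_pow_sub_one (i : ℕ) : hζ.toInteger - 1 ∣ hζ.toInteger ^ i - 1 := by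
  simpa using sub_dvd_pow_sub_pow hζ.toInteger 1 i

omit [NumberField K] [IsCyclotomicExtension {p} ℚ K] in
/-- `λ ^ 2 ∣ η ^ i - 1 - i * λ`. -/
theorem lambda_sq_dvd_zeta_pow_sub_one_sub (i : ℕ) :
    (hζ.toInteger - 1) ^ 2 ∣ hζ.toInteger ^ i - 1 - i * (hζ.toInteger - 1) := by
  induction i with
  | zero => simp
  | succ i ih =>
    obtain ⟨c, hc⟩ := ih
    refine ⟨hζ.toInteger * c + i, ?_⟩
    push_cast
    linear_combination hζ.toInteger * hc

end Fermat.Agent.Kummer.K5
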