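import Mathlib
import Fermat.Agent.Kummer.K5_Basics
import Fermat.Agent.Kummer.K3D_LevelUnits

/-!
# Project K, package K3-L: the level argument

Notation: `η = hζ.toInteger`, `lam = η - 1`.  If for every even `j` with `2 ≤ j ≤ p - 3` there is
a unit of exact level `j` (`K3D.HasLevelUnit`), then the `(p - 1) / 2` units
`η, u_2, u_4, ..., u_(p-3)` are independent modulo `p`-th powers in the strong sense that a
product of powers congruent to a rational integer modulo `p` has all exponents divisible by `p`.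
-/

set_option autoImplicit false
set_option linter.unusedSectionVars false
set_option linter.unusedVariables false

namespace Fermat.Agent.Kummer.K3L

open NumberField Finset

section Ring

variable {R : Type*} [CommRing R] (l : R)

/-- `x ≡ a + b * l ^ j` modulo `l ^ (j + 1)`, with `a b` rational integers. -/
def Lev (j : ℕ) (x : R) (a b : ℤ) : Prop := l ^ (j + 1) ∣ x - a - b * l ^ j

variable {l}

theorem Lev.one (j : ℕ) : Lev l j (1 : R) 1 0 := by
  unfold Lev
  simp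

theorem Lev.of_dvd {j : ℕ} {x : R} {a : ℤ} (h : l ^ (j + 1) ∣ x - a) : Lev l j x a 0 := by
  unfold Lev
  simpa using h

theorem Lev.mul {j : ℕ} (hj : 1 ≤ j) {x y : R} {a b a' b' : ℤ} (hx : Lev l j x a b)
    (hy : Lev l j y a' b') : Lev l j (x * y) (a * a') (a * b' + a' * b) := by
  obtain ⟨j', rfl⟩ : ∃ j', j = j' + 1 := ⟨j - 1, by omega⟩
  obtain ⟨s, hs⟩ := hx
  obtain ⟨t, ht⟩ := hy
  refine ⟨(b : R) * b' * l ^ j' + s * y + (a + b * l ^ (j' + 1)) * t, ?_⟩
  push_cast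
  linear_combination y * hs + ((a : R) + b * l ^ (j' + 1)) * ht

theorem Lev.pow {j : ℕ} (hj : 1 ≤ j) {x : R} {a b : ℤ} (hx : Lev l j x a b) (e : ℕ) :
    Lev l j (x ^ e) (a ^ e) (e * a ^ (e - 1) * b) := by
  induction e with
  | zero => simpa using Lev.one (l := l) j
  | succ e ih =>
    have h := Lev.mul hj ih hx
    rw [pow_succ, pow_succ]
    have hb : a ^ e * b + a * ((e : ℤ) * a ^ (e - 1) * b) =
        ((e + 1 : ℕ) : ℤ) * a ^ (e + 1 - 1) * b := by
      rcases e with _ | e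
      · simp
      · simp only [Nat.add_sub_cancel]
        push_cast
        ring
    rw [← hb]
    exact h

theorem Lev.prod_zero {ι : Type*} {j : ℕ} (hj : 1 ≤ j) (s : Finset ι) (f : ι → R)
    (h : ∀ i ∈ s, ∃ a : ℤ, Lev l j (f i) a 0) : ∃ A : ℤ, Lev l j (∏ i ∈ s, f i) A 0 := by
  classical
  induction s using Finset.induction_on with
  | empty => exact ⟨1, by simpa using Lev.one (l := l) j⟩
  | insert i s hi ih =>
    obtain ⟨A, hA⟩ := ih fun k hk => h k (Finset.mem_insert_of_mem hk)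
    obtain ⟨a, ha⟩ := h i (Finset.mem_insert_self i s)
    refine ⟨a * A, ?_⟩
    rw [Finset.prod_insert hi]
    have := Lev.mul hj ha hA
    simpa using this

end Ring

section Cyclo

variable {p : ℕ} [hp : Fact p.Prime] {K : Type*} [Field K] [NumberField K]
  [IsCyclotomicExtension {p} ℚ K] {ζ : K} (hζ : IsPrimitiveRoot ζ p)

include hζ

theorem lam_pow_dvd_prime {m : ℕ} (hm : m ≤ p - 1) :
    (hζ.toInteger - 1) ^ m ∣ (p : 𝓞 K) :=
  (pow_dvd_pow _ hm).trans (K5.associated_prime_lambda_pow hζ).symm.dvd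

theorem lam_ne_zero : hζ.toInteger - 1 ≠ 0 :=
  hζ.zeta_sub_one_prime'.ne_zero

theorem not_dvd_of_isUnit {x : 𝓞 K} (hx : IsUnit x) {a : ℤ}
    (h : hζ.toInteger - 1 ∣ x - a) : ¬ (p : ℤ) ∣ a := by
  intro hpa
  have h1 : hζ.toInteger - 1 ∣ (a : 𝓞 K) := (K5.lambda_dvd_intCast_iff hζ).2 hpa
  have h2 : hζ.toInteger - 1 ∣ x := by
    have := dvd_add h h1
    simpa using this
  exact hζ.zeta_sub_one_prime'.not_isUnit (isUnit_of_dvd_unit h2 hx)

/-- the key step: an element of level data `(a, b)` at level `j` which is congruent to a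
rational integer modulo `p` has `p ∣ b`. -/
theorem Lev.dvd_of_congr {j : ℕ} (hj : 1 ≤ j) (hjp : j + 1 ≤ p - 1) {x : 𝓞 K} {a b n : ℤ}
    (hx : Lev (hζ.toInteger - 1) j x a b) (hn : (p : 𝓞 K) ∣ x - n) : (p : ℤ) ∣ b := by
  have hlp := lam_pow_dvd_prime hζ hjp
  have h1 : (hζ.toInteger - 1) ^ (j + 1) ∣ x - n := hlp.trans hn
  have h2 : (hζ.toInteger - 1) ^ (j + 1) ∣ ((a - n : ℤ) : 𝓞 K) + b * (hζ.toInteger - 1) ^ j := by
    have := dvd_sub h1 hx
    have e : x - n - (x - a - b * (hζ.toInteger - 1) ^ j) =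
        ((a - n : ℤ) : 𝓞 K) + b * (hζ.toInteger - 1) ^ j := by
      push_cast; ring
    rwa [e] at this
  have h3 : hζ.toInteger - 1 ∣ ((a - n : ℤ) : 𝓞 K) := by
    have hl1 : hζ.toInteger - 1 ∣ (hζ.toInteger - 1) ^ (j + 1) := dvd_pow_self _ (by omega)
    have hl2 : hζ.toInteger - 1 ∣ (b : 𝓞 K) * (hζ.toInteger - 1) ^ j :=
      Dvd.dvd.mul_left (dvd_pow_self _ (by omega)) _
    have := dvd_sub (hl1.trans h2) hl2
    simpa using this
  have h4 : (p : ℤ) ∣ a - n := (K5.lambda_dvd_intCast_iff hζ).1 h3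
  have h5 : (hζ.toInteger - 1) ^ (j + 1) ∣ ((a - n : ℤ) : 𝓞 K) := by
    obtain ⟨k, hk⟩ := h4
    refine hlp.trans ⟨(k : 𝓞 K), ?_⟩
    rw [hk]; push_cast; ring
  have h6 : (hζ.toInteger - 1) ^ j * (hζ.toInteger - 1) ∣ (hζ.toInteger - 1) ^ j * (b : 𝓞 K) := by
    have := dvd_sub h2 h5
    rw [add_sub_cancel_left] at this
    rwa [pow_succ, mul_comm (b : 𝓞 K)] at this
  have h7 : hζ.toInteger - 1 ∣ (b : 𝓞 K) :=
    (mul_dvd_mul_iff_left (pow_ne_zero j (lam_ne_zero hζ))).1 h6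
  exact (K5.lambda_dvd_intCast_iff hζ).1 h7

/-- the level function: `0 ↦ 1`, `i ↦ 2 * i` for `i ≥ 1`. -/
def lvl (i : ℕ) : ℕ := if i = 0 then 1 else 2 * i

omit hζ in
theorem lvl_pos (i : ℕ) : 1 ≤ lvl i := by
  unfold lvl; split_ifs <;> omega

omit hζ in
theorem lvl_strictMono {i i' : ℕ} (h : i < i') : lvl i < lvl i' := by
  unfold lvl; split_ifs <;> omega

omit hζ in
theorem lvl_le (hp2 : p ≠ 2) {i : ℕ} (hi : i < (p - 1) / 2) : lvl i + 1 ≤ p - 1 := by
  have h3 : 3 ≤ p := by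
    have := hp.out.two_le
    omega
  unfold lvl; split_ifs <;> omega

/-- The main theorem of the level route: from level units of all even levels `2 ≤ j ≤ p - 3`
we get `(p - 1) / 2` units which are independent modulo `p` in the sense required by
`kummerLemma_of_indep`. -/
theorem exists_indep_of_levelUnits (hp2 : p ≠ 2)
    (hlev : ∀ j, Even j → 2 ≤ j → j ≤ p - 3 → K3D.HasLevelUnit p hζ j) :
    ∃ w : Fin ((p - 1) / 2) → (𝓞 K)ˣ, ∀ (e : Fin ((p - 1) / 2) → ℕ) (n : ℤ),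
      (p : 𝓞 K) ∣ ((∏ i, w i ^ e i : (𝓞 K)ˣ) : 𝓞 K) - n → ∀ i, p ∣ e i := by
  classical
  have h3 : 3 ≤ p := by
    have := hp.out.two_le
    omega
  -- the units with their level data
  have hex : ∀ i : Fin ((p - 1) / 2), ∃ (u : (𝓞 K)ˣ) (n c : ℤ), ¬ (p : ℤ) ∣ n ∧ ¬ (p : ℤ) ∣ c ∧
      Lev (hζ.toInteger - 1) (lvl i.val) (u : 𝓞 K) n c := by
    intro i
    by_cases hi : i.val = 0
    · refine ⟨(hζ.toInteger_isPrimitiveRoot.isUnit (NeZero.ne p)).unit, 1, 1, ?_, ?_, ?_⟩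
      · intro h
        have := Int.le_of_dvd one_pos h
        omega
      · intro h
        have := Int.le_of_dvd one_pos h
        omega
      · unfold Lev lvl
        rw [if_pos hi]
        simp
    · have hi2 := i.isLt
      obtain ⟨u, n, c, hn, hc, hu⟩ := hlev (2 * i.val) (even_two_mul _) (by omega) (by omega)
      refine ⟨u, n, c, hn, hc, ?_⟩
      unfold Lev lvl
      rw [if_neg hi]
      exact hu
  choose w nn cc hnn hcc hw using hex
  refine ⟨w, fun e n hdiv => ?_⟩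
  by_contra hcon
  push Not at hcon
  -- minimal index with exponent not divisible by `p`
  obtain ⟨i₀, hi₀, hmin⟩ : ∃ i₀ : Fin ((p - 1) / 2), ¬ p ∣ e i₀ ∧ ∀ i, i < i₀ → p ∣ e i := by
    obtain ⟨i, hi⟩ := hcon
    let s : Finset (Fin ((p - 1) / 2)) := Finset.univ.filter fun i => ¬ p ∣ e i
    have hs : s.Nonempty := ⟨i, by simp [s, hi]⟩
    refine ⟨s.min' hs, ?_, fun k hk => ?_⟩
    · have := Finset.min'_mem s hs
      simpa [s] using this
    · by_contra hk'
      have hks : k ∈ s := by simp [s, hk']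
      exact absurd (Finset.min'_le s k hks) (not_le.2 hk)
  set j := lvl i₀.val with hj
  have hj1 : 1 ≤ j := lvl_pos _
  have hjp : j + 1 ≤ p - 1 := lvl_le hp2 i₀.isLt
  -- the other factors are integers modulo `lam ^ (j + 1)`
  have hother : ∀ i ∈ Finset.univ.erase i₀, ∃ a : ℤ,
      Lev (hζ.toInteger - 1) j (((w i : 𝓞 K)) ^ e i) a 0 := by
    intro i hi
    have hne : i ≠ i₀ := Finset.ne_of_mem_erase hi
    rcases lt_or_gt_of_ne hne with hlt | hgt
    · obtain ⟨f, hf⟩ := hmin i hlt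
      obtain ⟨a, ha⟩ := K5.pow_prime_congr_int (p := p) (((w i : 𝓞 K)) ^ f)
      refine ⟨a, Lev.of_dvd ?_⟩
      rw [hf, mul_comm, pow_mul]
      exact (lam_pow_dvd_prime hζ hjp).trans ha
    · have hlv : j + 1 ≤ lvl i.val := lvl_strictMono (Fin.lt_def.1 hgt)
      have hwi := hw i
      have h1 : (hζ.toInteger - 1) ^ (lvl i.val) ∣ (w i : 𝓞 K) - nn i := by
        have ha : (hζ.toInteger - 1) ^ (lvl i.val) ∣ (w i : 𝓞 K) - nn i -
            cc i * (hζ.toInteger - 1) ^ (lvl i.val) :=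
          (pow_dvd_pow _ (Nat.le_succ _)).trans hwi
        have hb : (hζ.toInteger - 1) ^ (lvl i.val) ∣
            (cc i : 𝓞 K) * (hζ.toInteger - 1) ^ (lvl i.val) := Dvd.intro_left _ rfl
        have := dvd_add ha hb
        simpa using this
      have h2 : Lev (hζ.toInteger - 1) j (w i : 𝓞 K) (nn i) 0 :=
        Lev.of_dvd ((pow_dvd_pow _ hlv).trans h1)
      have h3 := Lev.pow hj1 h2 (e i)
      refine ⟨nn i ^ e i, ?_⟩
      simpa using h3
  obtain ⟨A, hA⟩ := Lev.prod_zero hj1 (Finset.univ.erase i₀)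
    (fun i => ((w i : 𝓞 K)) ^ e i) hother
  -- `A` is prime to `p` since the product is a unit
  have hAu : IsUnit (∏ i ∈ Finset.univ.erase i₀, ((w i : 𝓞 K)) ^ e i) := by
    refine ⟨∏ i ∈ Finset.univ.erase i₀, w i ^ e i, ?_⟩
    push_cast
    rfl
  have hA' : ¬ (p : ℤ) ∣ A := by
    refine not_dvd_of_isUnit hζ hAu (a := A) ?_
    have : (hζ.toInteger - 1) ^ (j + 1) ∣
        (∏ i ∈ Finset.univ.erase i₀, ((w i : 𝓞 K)) ^ e i) - A := by
      have := hA
      unfold Lev at this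
      simpa using this
    exact (dvd_pow_self _ (by omega)).trans this
  -- the distinguished factor
  have h0 := Lev.pow hj1 (hw i₀) (e i₀)
  have hprod := Lev.mul hj1 h0 hA
  have heq : ((w i₀ : 𝓞 K)) ^ e i₀ * ∏ i ∈ Finset.univ.erase i₀, ((w i : 𝓞 K)) ^ e i =
      ((∏ i, w i ^ e i : (𝓞 K)ˣ) : 𝓞 K) := by
    rw [Finset.mul_prod_erase Finset.univ (fun i => ((w i : 𝓞 K)) ^ e i) (Finset.mem_univ i₀)]
    push_cast
    rfl
  rw [heq] at hprod
  have hfin := Lev.dvd_of_congr hζ hj1 hjp hprod hdiv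
  -- `p` divides `A * (e * n ^ (e - 1) * c)`: contradiction
  have hpZ : Prime (p : ℤ) := Nat.prime_iff_prime_int.1 hp.out
  simp only [mul_zero, zero_add] at hfin
  rcases hpZ.dvd_or_dvd hfin with h | h
  · exact hA' h
  · rcases hpZ.dvd_or_dvd h with h | h
    · rcases hpZ.dvd_or_dvd h with h | h
      · exact hi₀ (Int.natCast_dvd_natCast.1 h)
      · exact hnn i₀ (hpZ.dvd_of_dvd_pow h)
    · exact hcc i₀ h

end Cyclo

end Fermat.Agent.Kummer.K3L
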