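import Mathlib
import Fermat.Agent.Kummer.K3L_Level

/-!
# Project K, package K3-L: independent units for `p = 5, 7, 11, 13`

Instantiation of `K3L.exists_indep_of_levelUnits` with the explicit level units of
`K3D_LevelUnits`.
-/

set_option autoImplicit false
set_option linter.unusedSectionVars false

namespace Fermat.Agent.Kummer.K3L

open NumberField Finset

/-- For `p = 5, 7, 11, 13` and any `p`-th cyclotomic field `K` there are `(p - 1) / 2` units of
`𝓞 K` such that a product of powers of them which is congruent to a rational integer modulo `p`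
has all exponents divisible by `p`. -/
theorem exists_indep_small (p : ℕ) [hp : Fact p.Prime] (h : p = 5 ∨ p = 7 ∨ p = 11 ∨ p = 13)
    (K : Type*) [Field K] [NumberField K] [IsCyclotomicExtension {p} ℚ K] :
    ∃ w : Fin ((p - 1) / 2) → (𝓞 K)ˣ, ∀ (e : Fin ((p - 1) / 2) → ℕ) (n : ℤ),
      (p : 𝓞 K) ∣ ((∏ i, w i ^ e i : (𝓞 K)ˣ) : 𝓞 K) - n → ∀ i, p ∣ e i := by
  have hζ := IsCyclotomicExtension.zeta_spec p ℚ K
  refine exists_indep_of_levelUnits hζ ?_ ?_
  · rcases h with rfl | rfl | rfl | rfl <;> norm_num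
  · rcases h with rfl | rfl | rfl | rfl
    · exact fun j hj h2 hjp => K3D.levelUnit_five hζ j hj h2 hjp
    · exact fun j hj h2 hjp => K3D.levelUnit_seven hζ j hj h2 hjp
    · exact fun j hj h2 hjp => K3D.levelUnit_eleven hζ j hj h2 hjp
    · exact fun j hj h2 hjp => K3D.levelUnit_thirteen hζ j hj h2 hjp

end Fermat.Agent.Kummer.K3L
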