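import Mathlib

/-!
# Project K, work package K3b: Dirichlet's unit theorem input and the abstract Kummer argument

* `K3B.exists_generators`: for an odd prime `p` and a `p`-th cyclotomic field `K`, the unit group
  of `𝓞 K` is generated by `(p - 1) / 2` elements (a generator of the torsion subgroup together
  with a fundamental system of units; the unit rank is `(p - 3) / 2`).
* `K3B.abstract_kummer`: if a commutative group `E` is generated by `k` elements and
  `L : E →* Multiplicative B` is a homomorphism to a `ZMod p`-vector space whose image contains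
  `k` linearly independent elements, then the kernel of `L` consists of `p`-th powers.
-/

namespace Fermat.Agent.Kummer.K3B

open NumberField NumberField.Units Module

section generators

/-- The unit rank of the `p`-th cyclotomic field is `(p - 3) / 2`, in the form
`rank K + 1 = (p - 1) / 2`. -/
theorem rank_add_one (p : ℕ) [Fact p.Prime] (hp : p ≠ 2) (K : Type*) [Field K] [NumberField K]
    [IsCyclotomicExtension {p} ℚ K] : rank K + 1 = (p - 1) / 2 := by
  have hpp : p.Prime := Fact.out
  have h2 : 2 < p := lt_of_le_of_ne hpp.two_le (Ne.symm hp)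
  have h1 : Fintype.card (InfinitePlace K) = (p - 1) / 2 := by
    rw [InfinitePlace.card_eq_nrRealPlaces_add_nrComplexPlaces,
      IsCyclotomicExtension.Rat.nrRealPlaces_eq_zero K h2,
      IsCyclotomicExtension.Rat.nrComplexPlaces_eq_totient_div_two p K,
      Nat.totient_prime hpp, zero_add]
  have h3 : 0 < Fintype.card (InfinitePlace K) := Fintype.card_pos
  rw [rank]
  omega

/-- Auxiliary form of `exists_generators` with the index type `Fin (rank K + 1)`. -/
theorem exists_generators_aux (K : Type*) [Field K] [NumberField K] (n : ℕ)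
    (hn : rank K + 1 = n) :
    ∃ g : Fin n → (𝓞 K)ˣ, ∀ u : (𝓞 K)ˣ, ∃ e : Fin n → ℤ, u = ∏ i, g i ^ e i := by
  subst hn
  obtain ⟨t, ht⟩ := IsCyclic.exists_zpow_surjective (G := torsion K)
  refine ⟨Fin.cons (t : (𝓞 K)ˣ) (fundSystem K), fun u => ?_⟩
  obtain ⟨⟨s, f⟩, hs, -⟩ := exist_unique_eq_mul_prod K u
  obtain ⟨m, hm⟩ := ht s
  refine ⟨Fin.cons m f, ?_⟩
  rw [Fin.prod_univ_succ]
  simp only [Fin.cons_zero, Fin.cons_succ]
  rw [hs]
  congr 1
  simp only at hm ⊢
  rw [← hm]
  simp

/-- **Dirichlet's unit theorem for the `p`-th cyclotomic field** (`p` an odd prime): the unit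
group of `𝓞 K` is generated by `(p - 1) / 2` elements. -/
theorem exists_generators (p : ℕ) [Fact p.Prime] (hp : p ≠ 2) (K : Type*) [Field K]
    [NumberField K] [IsCyclotomicExtension {p} ℚ K] :
    ∃ g : Fin ((p - 1) / 2) → (𝓞 K)ˣ, ∀ u : (𝓞 K)ˣ,
      ∃ e : Fin ((p - 1) / 2) → ℤ, u = ∏ i, g i ^ e i :=
  exists_generators_aux K _ (rank_add_one p hp K)

end generators

section abstract

variable {p : ℕ} [Fact p.Prime] {E B : Type*} [CommGroup E] [AddCommGroup B] [Module (ZMod p) B]
  {k : ℕ}

/-- The image under `L` of a product of powers of the generators, in additive notation. -/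
theorem toAdd_map_prod_zpow (L : E →* Multiplicative B) (g : Fin k → E) (e : Fin k → ℤ) :
    Multiplicative.toAdd (L (∏ i, g i ^ e i)) =
      ∑ i, ((e i : ℤ) : ZMod p) • Multiplicative.toAdd (L (g i)) := by
  rw [map_prod, toAdd_prod]
  refine Finset.sum_congr rfl fun i _ => ?_
  rw [map_zpow, toAdd_zpow, Int.cast_smul_eq_zsmul]

/-- **Abstract Kummer lemma.** Let `E` be a commutative group generated by `k` elements and let
`L` be a homomorphism from `E` to (the multiplicative version of) a `ZMod p`-vector space. If
the image of `L` contains `k` linearly independent vectors, then every element of the kernel of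
`L` is a `p`-th power. -/
theorem abstract_kummer (L : E →* Multiplicative B) (g : Fin k → E)
    (hg : ∀ u : E, ∃ e : Fin k → ℤ, u = ∏ i, g i ^ e i) (U : Fin k → E)
    (hU : LinearIndependent (ZMod p) (fun i => Multiplicative.toAdd (L (U i)))) (u : E)
    (hu : L u = 1) : ∃ v : E, u = v ^ p := by
  classical
  set b : Fin k → B := fun i => Multiplicative.toAdd (L (g i)) with hb
  -- the images of the `U i` lie in the span of the images of the generators
  have hmem : ∀ i, Multiplicative.toAdd (L (U i)) ∈ Submodule.span (ZMod p) (Set.range b) := by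
    intro i
    obtain ⟨e, he⟩ := hg (U i)
    rw [he, toAdd_map_prod_zpow (p := p)]
    exact Submodule.sum_mem _ fun j _ =>
      Submodule.smul_mem _ _ (Submodule.subset_span (Set.mem_range_self j))
  have hle : Submodule.span (ZMod p) (Set.range fun i => Multiplicative.toAdd (L (U i))) ≤
      Submodule.span (ZMod p) (Set.range b) := by
    rw [Submodule.span_le]
    rintro _ ⟨i, rfl⟩
    exact hmem i
  -- hence the images of the generators are linearly independent
  have hfin : FiniteDimensional (ZMod p) (Submodule.span (ZMod p) (Set.range b)) :=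
    FiniteDimensional.span_of_finite _ (Set.finite_range b)
  have h1 : finrank (ZMod p)
      (Submodule.span (ZMod p) (Set.range fun i => Multiplicative.toAdd (L (U i)))) = k := by
    rw [finrank_span_eq_card hU, Fintype.card_fin]
  have h2 : finrank (ZMod p) (Submodule.span (ZMod p) (Set.range b)) ≤ k := by
    have := finrank_range_le_card (R := ZMod p) b
    rwa [Fintype.card_fin] at this
  have h3 : k ≤ finrank (ZMod p) (Submodule.span (ZMod p) (Set.range b)) :=
    h1.symm.le.trans (Submodule.finrank_mono hle)
  have hbind : LinearIndependent (ZMod p) b := by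
    rw [linearIndependent_iff_card_eq_finrank_span, Fintype.card_fin, Set.finrank]
    omega
  -- conclude
  obtain ⟨e, he⟩ := hg u
  have hsum : ∑ i, ((e i : ℤ) : ZMod p) • b i = 0 := by
    rw [← toAdd_map_prod_zpow (p := p), ← he, hu]
    rfl
  have hzero : ∀ i, ((e i : ℤ) : ZMod p) = 0 := by
    intro i
    exact (Fintype.linearIndependent_iff.mp hbind) (fun i => ((e i : ℤ) : ZMod p)) hsum i
  have hdvd : ∀ i, (p : ℤ) ∣ e i := fun i =>
    (ZMod.intCast_zmod_eq_zero_iff_dvd (e i) p).mp (hzero i)
  choose f hf using hdvd
  refine ⟨∏ i, g i ^ f i, ?_⟩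
  rw [he, ← Finset.prod_pow]
  refine Finset.prod_congr rfl fun i _ => ?_
  rw [hf i, mul_comm, zpow_mul, zpow_natCast]

end abstract

end Fermat.Agent.Kummer.K3B
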