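import Mathlib
import Fermat.Agent.Kummer.Defs
import Fermat.Agent.Kummer.K5_Basics
import Fermat.Agent.Kummer.K3_Dirichlet
import Fermat.Agent.Kummer.K3L_Small

/-!
# Project K, package K3-L: Kummer's lemma for `p = 5, 7, 11, 13` (level route)

* `K3L.kummerLemma_of_indep`: Kummer's lemma for the `p`-th cyclotomic field follows from the
  existence of `(p - 1) / 2` units which are independent modulo `p` (Dirichlet's unit theorem
  `K3B.exists_generators` + the abstract linear algebra `K3B.abstract_kummer`).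
* `K3L.kummerLemma_small`: Kummer's lemma for `p = 5, 7, 11, 13`.
-/

set_option autoImplicit false
set_option linter.unusedSectionVars false
set_option linter.style.haveILetI false

namespace Fermat.Agent.Kummer.K3L

open NumberField Finset

section abstract

variable {p : ℕ} [hp : Fact p.Prime] {E : Type*} [CommGroup E] {k : ℕ}

/-- Abstract form: `E` generated by `k` elements, `H` a subgroup containing all `p`-th powers,
`w` a family of `k` elements independent modulo `H`. Then `H` consists of `p`-th powers. -/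
theorem exists_pow_eq_of_mem (H : Subgroup E) (hH : ∀ u : E, u ^ p ∈ H) (g : Fin k → E)
    (hg : ∀ u : E, ∃ e : Fin k → ℤ, u = ∏ i, g i ^ e i) (w : Fin k → E)
    (hw : ∀ e : Fin k → ℕ, (∏ i, w i ^ e i) ∈ H → ∀ i, p ∣ e i) (u : E) (hu : u ∈ H) :
    ∃ v : E, u = v ^ p := by
  classical
  have hkill : ∀ x : Additive (E ⧸ H), p • x = 0 := by
    intro x
    induction x using Additive.rec with
    | ofMul x =>
      induction x using QuotientGroup.induction_on with
      | H v =>
        rw [← ofMul_pow, ← QuotientGroup.mk_pow, (QuotientGroup.eq_one_iff (v ^ p)).2 (hH v)]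
        rfl
  letI : Module (ZMod p) (Additive (E ⧸ H)) :=
    AddCommGroup.zmodModule (n := p) (G := Additive (E ⧸ H)) hkill
  let L : E →* Multiplicative (Additive (E ⧸ H)) :=
    (MulEquiv.multiplicativeAdditive (E ⧸ H)).symm.toMonoidHom.comp (QuotientGroup.mk' H)
  have hL : ∀ v : E, Multiplicative.toAdd (L v) = Additive.ofMul (QuotientGroup.mk v : E ⧸ H) :=
    fun v => rfl
  have hU : LinearIndependent (ZMod p) (fun i => Multiplicative.toAdd (L (w i))) := by
    rw [Fintype.linearIndependent_iff]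
    intro c hc i
    have hcv : ∀ i, c i = (((c i).val : ℕ) : ZMod p) := fun i =>
      (ZMod.natCast_zmod_val (c i)).symm
    have hsum : ∑ i, (c i).val • Additive.ofMul (QuotientGroup.mk (w i) : E ⧸ H) = 0 := by
      rw [← hc]
      refine Finset.sum_congr rfl fun i _ => ?_
      rw [hL]
      conv_rhs => rw [hcv i]
      rw [Nat.cast_smul_eq_nsmul]
    have hprod : (∏ i, w i ^ (c i).val) ∈ H := by
      rw [← QuotientGroup.eq_one_iff]
      have : Additive.ofMul ((QuotientGroup.mk (∏ i, w i ^ (c i).val) : E ⧸ H)) = 0 := by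
        rw [← hsum, QuotientGroup.mk_prod, ofMul_prod]
        refine Finset.sum_congr rfl fun i _ => ?_
        rw [QuotientGroup.mk_pow, ofMul_pow]
      exact this
    have hdvd := hw (fun i => (c i).val) hprod i
    have hlt : (c i).val < p := ZMod.val_lt (c i)
    have h0 : (c i).val = 0 := Nat.eq_zero_of_dvd_of_lt hdvd hlt
    rw [hcv i, h0, Nat.cast_zero]
  have huL : L u = 1 := by
    have : (QuotientGroup.mk u : E ⧸ H) = 1 := (QuotientGroup.eq_one_iff u).2 hu
    show (MulEquiv.multiplicativeAdditive (E ⧸ H)).symm (QuotientGroup.mk u) = 1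
    rw [this, map_one]
  exact K3B.abstract_kummer (p := p) L g hg w hU u huL

end abstract

/-- The subgroup of the units of `𝓞 K` which are congruent to a rational integer modulo `p`. -/
def intUnits (p : ℕ) [hp : Fact p.Prime] (K : Type*) [Field K] [NumberField K]
    [IsCyclotomicExtension {p} ℚ K] : Subgroup (𝓞 K)ˣ where
  carrier := {u | ∃ n : ℤ, (p : 𝓞 K) ∣ (u : 𝓞 K) - n}
  one_mem' := ⟨1, by simp⟩
  mul_mem' := by
    rintro u v ⟨a, s, hs⟩ ⟨b, t, ht⟩
    refine ⟨a * b, s * v + a * t, ?_⟩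
    push_cast
    linear_combination (v : 𝓞 K) * hs + (a : 𝓞 K) * ht
  inv_mem' := by
    rintro u ⟨a, s, hs⟩
    have hpa : ¬ (p : ℤ) ∣ a := by
      rintro ⟨k, hk⟩
      have hdvd : (p : 𝓞 K) ∣ (u : 𝓞 K) := by
        refine ⟨s + k, ?_⟩
        have hk' : (a : 𝓞 K) = (p : 𝓞 K) * k := by rw [hk]; push_cast; ring
        linear_combination hs + hk'
      exact K5.prime_mem_nonunits (p := p) (K := K) (isUnit_of_dvd_unit hdvd u.isUnit)
    have hcop : IsCoprime a (p : ℤ) := by
      have hpZ : Prime (p : ℤ) := Nat.prime_iff_prime_int.1 hp.out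
      exact (hpZ.coprime_iff_not_dvd.2 hpa).symm
    obtain ⟨a', k, hak⟩ := hcop
    refine ⟨a', ((u⁻¹ : (𝓞 K)ˣ) : 𝓞 K) * ((k : 𝓞 K) - a' * s), ?_⟩
    have h1 : ((u⁻¹ : (𝓞 K)ˣ) : 𝓞 K) * (u : 𝓞 K) = 1 := by simp
    have h2 : ((a' : 𝓞 K)) * a + k * p = 1 := by exact_mod_cast hak
    linear_combination (-(a' : 𝓞 K) * ((u⁻¹ : (𝓞 K)ˣ) : 𝓞 K)) * hs
      + (a' : 𝓞 K) * h1 - ((u⁻¹ : (𝓞 K)ˣ) : 𝓞 K) * h2

variable {p : ℕ} [hp : Fact p.Prime] {K : Type*} [Field K] [NumberField K]
  [IsCyclotomicExtension {p} ℚ K]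

theorem mem_intUnits {u : (𝓞 K)ˣ} :
    u ∈ intUnits p K ↔ ∃ n : ℤ, (p : 𝓞 K) ∣ (u : 𝓞 K) - n := Iff.rfl

theorem pow_mem_intUnits (u : (𝓞 K)ˣ) : u ^ p ∈ intUnits p K := by
  obtain ⟨n, hn⟩ := K5.pow_prime_congr_int (p := p) (u : 𝓞 K)
  exact ⟨n, by simpa using hn⟩

/-- **Kummer's lemma from independent units.** -/
theorem kummerLemma_of_indep (hp2 : p ≠ 2) (w : Fin ((p - 1) / 2) → (𝓞 K)ˣ)
    (hw : ∀ (e : Fin ((p - 1) / 2) → ℕ) (n : ℤ),
      (p : 𝓞 K) ∣ ((∏ i, w i ^ e i : (𝓞 K)ˣ) : 𝓞 K) - n → ∀ i, p ∣ e i) :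
    KummerLemma p K := by
  intro u hu
  obtain ⟨g, hg⟩ := K3B.exists_generators p hp2 K
  refine exists_pow_eq_of_mem (p := p) (intUnits p K) pow_mem_intUnits g hg w ?_ u hu
  rintro e ⟨n, hn⟩
  exact hw e n hn

/-- **Kummer's lemma for `p = 5, 7, 11, 13`**: a unit of the ring of integers of the `p`-th
cyclotomic field which is congruent to a rational integer modulo `p` is a `p`-th power. -/
theorem kummerLemma_small (p : ℕ) [Fact p.Prime] (h : p = 5 ∨ p = 7 ∨ p = 11 ∨ p = 13)
    (K : Type*) [Field K] [NumberField K] [IsCyclotomicExtension {p} ℚ K] :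
    KummerLemma p K := by
  obtain ⟨w, hw⟩ := exists_indep_small p h K
  refine kummerLemma_of_indep ?_ w hw
  rcases h with rfl | rfl | rfl | rfl <;> norm_num

end Fermat.Agent.Kummer.K3L
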