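import Mathlib
import Fermat.Agent.Kummer.K5_Basics

/-!
# Project K (Kummer), package K5: local analysis at `λ` of the factors `x + η ^ i * y`

Owner: helper15.  Generic in the odd prime `p`.
Notation: `η = hζ.toInteger`, `λ = hζ.toInteger - 1`.
-/

set_option autoImplicit false
set_option linter.style.haveILetI false
set_option linter.unusedSectionVars false

namespace Fermat.Agent.Kummer.K5

open NumberField Polynomial Finset

variable {p : ℕ} [hp : Fact p.Prime] {K : Type*} [Field K] [NumberField K]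
  [IsCyclotomicExtension {p} ℚ K] {ζ : K} (hζ : IsPrimitiveRoot ζ p)

omit [NumberField K] [IsCyclotomicExtension {p} ℚ K] in
/-- all the factors `x + η ^ i * y` are congruent modulo `λ`. -/
theorem lambda_dvd_factor_sub (x y : 𝓞 K) (i j : ℕ) :
    hζ.toInteger - 1 ∣ (x + hζ.toInteger ^ i * y) - (x + hζ.toInteger ^ j * y) := by
  have h1 := lambda_dvd_zeta_pow_sub_one hζ i
  have h2 := lambda_dvd_zeta_pow_sub_one hζ j
  have : (x + hζ.toInteger ^ i * y) - (x + hζ.toInteger ^ j * y) =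
      ((hζ.toInteger ^ i - 1) - (hζ.toInteger ^ j - 1)) * y := by ring
  rw [this]
  exact Dvd.dvd.mul_right (dvd_sub h1 h2) y

omit [NumberField K] [IsCyclotomicExtension {p} ℚ K] in
theorem lambda_dvd_factor_iff (x y : 𝓞 K) (i j : ℕ) :
    hζ.toInteger - 1 ∣ x + hζ.toInteger ^ i * y ↔ hζ.toInteger - 1 ∣ x + hζ.toInteger ^ j * y := by
  constructor
  · intro h
    have := dvd_sub h (lambda_dvd_factor_sub hζ x y i j)
    rwa [sub_sub_cancel] at this
  · intro h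
    have := dvd_sub h (lambda_dvd_factor_sub hζ x y j i)
    rwa [sub_sub_cancel] at this

/-- (g) if `λ ∣ x ^ p + y ^ p` then `λ` divides every factor `x + η ^ i * y`. -/
theorem lambda_dvd_factor_of_dvd_pow_add_pow (hodd : p ≠ 2) {x y : 𝓞 K}
    (h : hζ.toInteger - 1 ∣ x ^ p + y ^ p) (i : ℕ) :
    hζ.toInteger - 1 ∣ x + hζ.toInteger ^ i * y := by
  rw [pow_add_pow_eq_prod hζ hodd] at h
  obtain ⟨j, -, hj⟩ := (Prime.dvd_finsetProd_iff hζ.zeta_sub_one_prime' _).1 h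
  exact (lambda_dvd_factor_iff hζ x y i j).2 hj

/-- if `λ ∣ x ^ p + y ^ p` then `λ ∣ x + y`. -/
theorem lambda_dvd_add_of_dvd_pow_add_pow (hodd : p ≠ 2) {x y : 𝓞 K}
    (h : hζ.toInteger - 1 ∣ x ^ p + y ^ p) : hζ.toInteger - 1 ∣ x + y := by
  simpa using lambda_dvd_factor_of_dvd_pow_add_pow hζ hodd h 0

/-- the key congruence: if `x + y = λ * t`, `t ≡ a`, `y ≡ b` modulo `λ` (`a b : ℤ`), then
`λ ^ 2 ∣ x + η ^ i * y ↔ p ∣ a + i * b`. -/
theorem lambda_sq_dvd_factor_iff {x y t : 𝓞 K} {a b : ℤ}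
    (ht : x + y = (hζ.toInteger - 1) * t) (ha : hζ.toInteger - 1 ∣ t - a)
    (hb : hζ.toInteger - 1 ∣ y - b) (i : ℕ) :
    (hζ.toInteger - 1) ^ 2 ∣ x + hζ.toInteger ^ i * y ↔ (p : ℤ) ∣ a + i * b := by
  have hlam := hζ.zeta_sub_one_prime'
  obtain ⟨c, hc⟩ := lambda_sq_dvd_zeta_pow_sub_one_sub hζ i
  obtain ⟨a', ha'⟩ := ha
  obtain ⟨b', hb'⟩ := hb
  have key : x + hζ.toInteger ^ i * y =
      (hζ.toInteger - 1) * ((a + i * b : ℤ) : 𝓞 K) +
        (hζ.toInteger - 1) ^ 2 * (a' + i * b' + c * y) := by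
    push_cast
    linear_combination ht + y * hc + (hζ.toInteger - 1) * ha' +
      (hζ.toInteger - 1) * (i : 𝓞 K) * hb'
  rw [key, ← lambda_dvd_intCast_iff hζ]
  constructor
  · intro h
    have h1 : (hζ.toInteger - 1) ^ 2 ∣ (hζ.toInteger - 1) * ((a + i * b : ℤ) : 𝓞 K) := by
      have := dvd_sub h (Dvd.intro _ rfl :
        (hζ.toInteger - 1) ^ 2 ∣ (hζ.toInteger - 1) ^ 2 * (a' + i * b' + c * y))
      simpa using this
    rw [pow_two] at h1
    exact (mul_dvd_mul_iff_left hlam.ne_zero).1 h1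
  · intro h
    refine dvd_add ?_ (Dvd.intro _ rfl)
    rw [pow_two]
    exact mul_dvd_mul_left _ h

/-- (h) if `λ ∣ x + y` and `λ ∤ y`, exactly one of the factors `x + η ^ i * y`, `i < p`, is
divisible by `λ ^ 2`. -/
theorem existsUnique_lambda_sq_dvd_factor {x y : 𝓞 K} (hxy : hζ.toInteger - 1 ∣ x + y)
    (hy : ¬ hζ.toInteger - 1 ∣ y) :
    ∃! i, i < p ∧ (hζ.toInteger - 1) ^ 2 ∣ x + hζ.toInteger ^ i * y := by
  obtain ⟨t, ht⟩ := hxy
  obtain ⟨a, ha⟩ := exists_int_sub_dvd_lambda hζ t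
  obtain ⟨b, hb⟩ := exists_int_sub_dvd_lambda hζ y
  have hpb : ¬ (p : ℤ) ∣ b := by
    intro h
    apply hy
    have h1 := (lambda_dvd_intCast_iff hζ).2 h
    have := dvd_add hb h1
    simpa using this
  have hb0 : (b : ZMod p) ≠ 0 := by
    rwa [Ne, ZMod.intCast_zmod_eq_zero_iff_dvd]
  have hiff := lambda_sq_dvd_factor_iff hζ ht ha hb
  have hz : ∀ i : ℕ, (p : ℤ) ∣ a + i * b ↔ ((i : ZMod p) = -(a : ZMod p) * (b : ZMod p)⁻¹) := by
    intro i
    rw [← ZMod.intCast_zmod_eq_zero_iff_dvd]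
    push_cast
    constructor
    · intro h
      field_simp
      linear_combination h
    · intro h
      rw [h]
      field_simp
      ring
  refine ⟨(-(a : ZMod p) * (b : ZMod p)⁻¹).val, ⟨ZMod.val_lt _, ?_⟩, ?_⟩
  · rw [hiff, hz, ZMod.natCast_zmod_val]
  · rintro j ⟨hj, hj2⟩
    rw [hiff, hz] at hj2
    rw [← hj2, ZMod.val_natCast, Nat.mod_eq_of_lt hj]

omit [NumberField K] [IsCyclotomicExtension {p} ℚ K] in
/-- (i) a common divisor of two distinct factors divides `λ`, if `x` and `y` are coprime. -/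
theorem dvd_lambda_of_dvd_factors {x y : 𝓞 K} (hxy : IsCoprime x y) {i j : ℕ} (hi : i < p)
    (hj : j < p) (hij : i ≠ j) {d : 𝓞 K} (h1 : d ∣ x + hζ.toInteger ^ i * y)
    (h2 : d ∣ x + hζ.toInteger ^ j * y) : d ∣ hζ.toInteger - 1 := by
  have hη := hζ.toInteger_isPrimitiveRoot
  have hne : hζ.toInteger ^ i ≠ hζ.toInteger ^ j := fun h => hij (hη.pow_inj hi hj h)
  have hmem : ∀ k : ℕ, hζ.toInteger ^ k ∈ nthRootsFinset p (1 : 𝓞 K) := by
    intro k
    rw [Polynomial.mem_nthRootsFinset hp.out.pos, ← pow_mul, mul_comm, pow_mul, hη.pow_eq_one,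
      one_pow]
  have hass := hη.nthRootsFinset_pairwise_associated_sub_one_sub_of_prime hp.out
    (hmem i) (hmem j) hne
  refine (hass.symm.dvd_iff_dvd_right).1 ?_
  obtain ⟨a, b, hab⟩ := hxy
  have e : hζ.toInteger ^ i - hζ.toInteger ^ j =
      (b - a * hζ.toInteger ^ j) * (x + hζ.toInteger ^ i * y) +
        (a * hζ.toInteger ^ i - b) * (x + hζ.toInteger ^ j * y) := by
    linear_combination (hζ.toInteger ^ i - hζ.toInteger ^ j) * hab.symm
  rw [e]
  exact dvd_add (Dvd.dvd.mul_left h1 _) (Dvd.dvd.mul_left h2 _)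

end Fermat.Agent.Kummer.K5
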