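import Mathlib
import Fermat.Agent.Kummer.K5_Local
import Fermat.Agent.Kummer.K0_Reduction

/-!
# Project K (Kummer), package K4: the descent (second case)

Owner: helper15.  Generic in the odd prime `p`.  Under the hypotheses that `𝓞 K` is a principal
ideal ring and that Kummer's lemma holds, we prove `K0.FLTGen hζ`.

Notation: `𝔷 = hζ.toInteger`, `𝔩 = hζ.toInteger - 1`.
-/

set_option autoImplicit false
set_option linter.style.haveILetI false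
set_option linter.unusedSectionVars false
set_option linter.unusedVariables false

namespace Fermat.Agent.Kummer.K4

open NumberField Polynomial Finset Fermat.Agent.Kummer.K5

variable {p : ℕ} [hp : Fact p.Prime] {K : Type*} [Field K] [NumberField K]
  [IsCyclotomicExtension {p} ℚ K] {ζ : K} (hζ : IsPrimitiveRoot ζ p)

local notation3 "𝔩" => hζ.toInteger - 1
local notation3 "𝔷" => hζ.toInteger

/-- A solution of the generalised Fermat equation of level `m`. -/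
def IsSol (m : ℕ) (x y z : 𝓞 K) (ε : (𝓞 K)ˣ) : Prop :=
  IsCoprime x y ∧ ¬ 𝔩 ∣ y ∧ ¬ 𝔩 ∣ z ∧ x ^ p + y ^ p = ε * (𝔩 ^ m * z) ^ p

theorem zeta_isUnit : IsUnit 𝔷 :=
  hζ.toInteger_isPrimitiveRoot.isUnit hp.out.ne_zero

theorem one_add_zeta_isUnit (hodd : p ≠ 2) : IsUnit (1 + 𝔷) := by
  have h2 : Nat.Coprime 2 p := by
    rw [Nat.coprime_comm, Nat.Prime.coprime_iff_not_dvd hp.out]
    intro h
    exact hodd ((Nat.prime_dvd_prime_iff_eq hp.out Nat.prime_two).1 h)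
  have := hζ.toInteger_isPrimitiveRoot.geom_sum_isUnit (j := 2) hp.out.two_le h2
  simpa [Finset.sum_range_succ] using this

theorem zeta_pow_prime : 𝔷 ^ p = 1 := hζ.toInteger_isPrimitiveRoot.pow_eq_one

theorem lambda_ne_zero : 𝔩 ≠ 0 := hζ.zeta_sub_one_prime'.ne_zero

/-- comparing the `𝔩`-parts of two factorisations. -/
theorem pow_mul_eq_pow_mul {a b : ℕ} {A B : 𝓞 K} (hA : ¬ 𝔩 ∣ A) (hB : ¬ 𝔩 ∣ B)
    (h : 𝔩 ^ a * A = 𝔩 ^ b * B) : a = b ∧ A = B := by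
  have h0 := lambda_ne_zero hζ
  rcases lt_trichotomy a b with hab | hab | hab
  · exfalso
    apply hA
    obtain ⟨c, rfl⟩ := Nat.exists_eq_add_of_lt hab
    have : 𝔩 ^ a * A = 𝔩 ^ a * (𝔩 ^ (c + 1) * B) := by rw [h]; ring
    have h2 := mul_left_cancel₀ (pow_ne_zero a h0) this
    rw [h2, pow_succ]
    exact ⟨𝔩 ^ c * B, by ring⟩
  · subst hab
    exact ⟨rfl, mul_left_cancel₀ (pow_ne_zero a h0) h⟩
  · exfalso
    apply hB
    obtain ⟨c, rfl⟩ := Nat.exists_eq_add_of_lt hab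
    have : 𝔩 ^ b * B = 𝔩 ^ b * (𝔩 ^ (c + 1) * A) := by rw [← h]; ring
    have h2 := mul_left_cancel₀ (pow_ne_zero b h0) this
    rw [h2, pow_succ]
    exact ⟨𝔩 ^ c * A, by ring⟩

/-- Step A: normalisation, `𝔩 ^ 2 ∣ x + y`. -/
theorem exists_normalized (hodd : p ≠ 2) {m : ℕ} (hm : 1 ≤ m) {x y z : 𝓞 K} {ε : (𝓞 K)ˣ}
    (h : IsSol hζ m x y z ε) : ∃ y', IsSol hζ m x y' z ε ∧ 𝔩 ^ 2 ∣ x + y' := by
  obtain ⟨hcop, hy, hz, heq⟩ := h
  have hdvd : 𝔩 ∣ x ^ p + y ^ p := by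
    rw [heq]
    refine Dvd.dvd.mul_left ?_ _
    refine dvd_pow (Dvd.dvd.mul_right (dvd_pow_self _ (by omega)) _) hp.out.ne_zero
  have hxy := lambda_dvd_add_of_dvd_pow_add_pow hζ hodd hdvd
  obtain ⟨i, ⟨hi, hi2⟩, -⟩ := existsUnique_lambda_sq_dvd_factor hζ hxy hy
  have hu : IsUnit (𝔷 ^ i) := (zeta_isUnit hζ).pow i
  refine ⟨𝔷 ^ i * y, ⟨?_, ?_, hz, ?_⟩, hi2⟩
  · exact (isCoprime_mul_unit_left_right hu x y).2 hcop
  · rwa [IsUnit.dvd_mul_left hu]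
  · rw [mul_pow, ← pow_mul, mul_comm i p, pow_mul, zeta_pow_prime hζ, one_pow, one_mul, heq]

/-- Step B: the other factors are exactly divisible by `𝔩`. -/
theorem not_lambda_sq_dvd_factor {x y : 𝓞 K} (hxy2 : 𝔩 ^ 2 ∣ x + y) (hy : ¬ 𝔩 ∣ y) {i : ℕ}
    (hi0 : 0 < i) (hi : i < p) : ¬ 𝔩 ^ 2 ∣ x + 𝔷 ^ i * y := by
  intro h
  have hxy : 𝔩 ∣ x + y := dvd_trans (dvd_pow_self _ two_ne_zero) hxy2
  obtain ⟨j, -, huniq⟩ := existsUnique_lambda_sq_dvd_factor hζ hxy hy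
  have h0 := huniq 0 ⟨hp.out.pos, by simpa using hxy2⟩
  have h1 := huniq i ⟨hi, h⟩
  omega

/-- Step C: the cofactors `w i` of the factors `x + 𝔷 ^ i * y`, and `2 ≤ m`. -/
theorem exists_cofactors (hodd : p ≠ 2) {m : ℕ} (hm : 1 ≤ m) {x y z : 𝓞 K} {ε : (𝓞 K)ˣ}
    (h : IsSol hζ m x y z ε) (hxy2 : 𝔩 ^ 2 ∣ x + y) :
    2 ≤ m ∧ ∃ w : ℕ → 𝓞 K, x + y = 𝔩 ^ ((m - 1) * p + 1) * w 0 ∧
      (∀ i, 0 < i → i < p → x + 𝔷 ^ i * y = 𝔩 * w i) ∧ (∀ i, i < p → ¬ 𝔩 ∣ w i) ∧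
      ∏ i ∈ range p, w i = ε * z ^ p := by
  obtain ⟨hcop, hy, hz, heq⟩ := h
  have hlam := hζ.zeta_sub_one_prime'
  have h0 := lambda_ne_zero hζ
  have hz0 : z ≠ 0 := fun h => hz (h ▸ dvd_zero _)
  have hdvd : 𝔩 ∣ x ^ p + y ^ p := by
    rw [heq]
    refine Dvd.dvd.mul_left ?_ _
    refine dvd_pow (Dvd.dvd.mul_right (dvd_pow_self _ (by omega)) _) hp.out.ne_zero
  have hprod := pow_add_pow_eq_prod hζ hodd x y
  have hxy0 : x + y ≠ 0 := by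
    intro h1
    have : x ^ p + y ^ p = 0 := by
      rw [hprod]
      exact Finset.prod_eq_zero (Finset.mem_range.2 hp.out.pos) (by simpa using h1)
    rw [heq] at this
    have h2 : (𝔩 ^ m * z) ^ p = 0 := by
      rcases mul_eq_zero.1 this with h3 | h3
      · exact absurd h3 ε.ne_zero
      · exact h3
    have h3 := (pow_eq_zero_iff hp.out.ne_zero).1 h2
    rcases mul_eq_zero.1 h3 with h4 | h4
    · exact pow_ne_zero m h0 h4
    · exact hz0 h4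
  have hfin : FiniteMultiplicity 𝔩 (x + y) := FiniteMultiplicity.of_not_isUnit hlam.not_isUnit hxy0
  obtain ⟨w0, hw0, hw0nd⟩ := hfin.exists_eq_pow_mul_and_not_dvd
  have hk2 : 2 ≤ multiplicity 𝔩 (x + y) := hfin.le_multiplicity_of_pow_dvd hxy2
  generalize multiplicity 𝔩 (x + y) = k at hw0 hk2
  have hfac : ∀ i, ∃ wi, (0 < i → i < p → x + 𝔷 ^ i * y = 𝔩 * wi ∧ ¬ 𝔩 ∣ wi) := by
    intro i
    by_cases hi : 0 < i ∧ i < p
    · obtain ⟨wi, hwi⟩ := lambda_dvd_factor_of_dvd_pow_add_pow hζ hodd hdvd i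
      refine ⟨wi, fun _ _ => ⟨hwi, fun hd => ?_⟩⟩
      apply not_lambda_sq_dvd_factor hζ hxy2 hy hi.1 hi.2
      rw [hwi, pow_two]
      exact mul_dvd_mul_left _ hd
    · exact ⟨0, fun h1 h2 => absurd ⟨h1, h2⟩ hi⟩
  choose w' hw' using hfac
  let w : ℕ → 𝓞 K := fun i => if i = 0 then w0 else w' i
  have hw_zero : w 0 = w0 := if_pos rfl
  have hw_pos : ∀ i, 0 < i → w i = w' i := fun i hi => if_neg (by omega)
  have hwnd : ∀ i, i < p → ¬ 𝔩 ∣ w i := by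
    intro i hi
    rcases Nat.eq_zero_or_pos i with rfl | hi0
    · rw [hw_zero]; exact hw0nd
    · rw [hw_pos i hi0]; exact (hw' i hi0 hi).2
  have hmem0 : 0 ∈ range p := Finset.mem_range.2 hp.out.pos
  have hP : ∏ i ∈ range p, (x + 𝔷 ^ i * y) = 𝔩 ^ (k + (p - 1)) * ∏ i ∈ range p, w i := by
    rw [← Finset.mul_prod_erase (range p) _ hmem0, ← Finset.mul_prod_erase (range p) w hmem0]
    have e1 : ∀ i ∈ (range p).erase 0, x + 𝔷 ^ i * y = 𝔩 * w i := by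
      intro i hi
      rw [Finset.mem_erase, Finset.mem_range] at hi
      have hi0 : 0 < i := Nat.pos_of_ne_zero hi.1
      rw [hw_pos i hi0]
      exact (hw' i hi0 hi.2).1
    rw [Finset.prod_congr rfl e1, Finset.prod_mul_distrib, Finset.prod_const,
      Finset.card_erase_of_mem hmem0, Finset.card_range, pow_zero, one_mul, hw0, hw_zero]
    ring
  have hcmp : 𝔩 ^ (k + (p - 1)) * ∏ i ∈ range p, w i = 𝔩 ^ (m * p) * (ε * z ^ p) := by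
    rw [← hP, ← hprod, heq]; ring
  have hWnd : ¬ 𝔩 ∣ ∏ i ∈ range p, w i := by
    rw [Prime.dvd_finsetProd_iff hlam]
    rintro ⟨i, hi, hd⟩
    exact hwnd i (mem_range.1 hi) hd
  have hZnd : ¬ 𝔩 ∣ ε * z ^ p := by
    intro hd
    rw [Units.dvd_mul_left] at hd
    exact hz (hlam.dvd_of_dvd_pow hd)
  obtain ⟨e1, e2⟩ := pow_mul_eq_pow_mul hζ hWnd hZnd hcmp
  have hp1 := hp.out.one_lt
  have hk' : k = (m - 1) * p + 1 := by
    obtain ⟨m', rfl⟩ : ∃ m', m = m' + 1 := ⟨m - 1, by omega⟩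
    simp only [Nat.add_sub_cancel]
    have : (m' + 1) * p = m' * p + p := by ring
    omega
  have hm2 : 2 ≤ m := by
    by_contra hlt
    have : m = 1 := by omega
    subst this
    simp at hk'
    omega
  refine ⟨hm2, w, ?_, ?_, hwnd, e2⟩
  · rw [hw_zero, ← hk', hw0]
  · intro i hi0 hi
    rw [hw_pos i hi0]
    exact (hw' i hi0 hi).1

/-- Step D: the cofactors are pairwise coprime. -/
theorem cofactors_isCoprime [IsPrincipalIdealRing (𝓞 K)] {x y : 𝓞 K} (hcop : IsCoprime x y)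
    {k : ℕ} {w : ℕ → 𝓞 K} (hw0 : x + y = 𝔩 ^ k * w 0)
    (hwi : ∀ i, 0 < i → i < p → x + 𝔷 ^ i * y = 𝔩 * w i)
    (hwnd : ∀ i, i < p → ¬ 𝔩 ∣ w i) {i j : ℕ} (hi : i < p) (hj : j < p) (hij : i ≠ j) :
    IsCoprime (w i) (w j) := by
  have hlam := hζ.zeta_sub_one_prime'
  have hdvd : ∀ i, i < p → w i ∣ x + 𝔷 ^ i * y := by
    intro i hi
    rcases Nat.eq_zero_or_pos i with rfl | hi0
    · rw [pow_zero, one_mul, hw0]; exact Dvd.intro_left _ rfl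
    · rw [hwi i hi0 hi]; exact Dvd.intro_left _ rfl
  refine isCoprime_of_prime_dvd ?_ ?_
  · rintro ⟨h1, -⟩
    exact hwnd i hi (h1 ▸ dvd_zero _)
  · intro q hq hqi hqj
    have h1 := dvd_lambda_of_dvd_factors hζ hcop hi hj hij (hqi.trans (hdvd i hi))
      (hqj.trans (hdvd j hj))
    have h2 : Associated q 𝔩 := (hq.dvd_prime_iff_associated hlam).1 h1
    exact hwnd i hi (h2.symm.dvd.trans hqi)

omit [NumberField K] [IsCyclotomicExtension {p} ℚ K] in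
/-- Step E: pairwise coprime elements whose product is a unit times a `p`-th power are units
times `p`-th powers. -/
theorem exists_unit_mul_pow [IsPrincipalIdealRing (𝓞 K)] {w : ℕ → 𝓞 K} {z : 𝓞 K}
    {ε : (𝓞 K)ˣ} (hcop : ∀ i j, i < p → j < p → i ≠ j → IsCoprime (w i) (w j))
    (hprod : ∏ i ∈ range p, w i = ε * z ^ p) {i : ℕ} (hi : i < p) :
    ∃ (u : (𝓞 K)ˣ) (ρ : 𝓞 K), w i = u * ρ ^ p := by
  have hmem : i ∈ range p := mem_range.2 hi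
  have h1 : IsCoprime (w i) (∏ j ∈ (range p).erase i, w j) :=
    IsCoprime.prod_right fun j hj => by
      rw [mem_erase, mem_range] at hj
      exact hcop i j hi hj.2 (Ne.symm hj.1)
  have h2 : (((ε⁻¹ : (𝓞 K)ˣ) : 𝓞 K) * w i) * (∏ j ∈ (range p).erase i, w j) = z ^ p := by
    rw [mul_assoc, Finset.mul_prod_erase _ _ hmem, hprod, ← mul_assoc, Units.inv_mul, one_mul]
  have h3 : IsCoprime (((ε⁻¹ : (𝓞 K)ˣ) : 𝓞 K) * w i) (∏ j ∈ (range p).erase i, w j) :=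
    (isCoprime_mul_unit_left_left (ε⁻¹).isUnit _ _).2 h1
  obtain ⟨d, u, hu⟩ := exists_associated_pow_of_mul_eq_pow' h3 h2
  refine ⟨ε * u, d, ?_⟩
  have : w i = ε * (((ε⁻¹ : (𝓞 K)ˣ) : 𝓞 K) * w i) := by
    rw [← mul_assoc, Units.mul_inv, one_mul]
  rw [this, ← hu]
  push_cast
  ring

/-- Step F: **the descent step**. -/
theorem descent_step (hodd : p ≠ 2) [IsPrincipalIdealRing (𝓞 K)]
    (hK : ∀ u : (𝓞 K)ˣ, (∃ n : ℤ, (p : 𝓞 K) ∣ (u : 𝓞 K) - n) → ∃ v : (𝓞 K)ˣ, u = v ^ p)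
    {m : ℕ} (hm : 1 ≤ m) {x y z : 𝓞 K} {ε : (𝓞 K)ˣ} (h : IsSol hζ m x y z ε) :
    2 ≤ m ∧ ∃ x₁ y₁ z₁ ε₁, IsSol hζ (m - 1) x₁ y₁ z₁ ε₁ := by
  obtain ⟨y', h', hxy2⟩ := exists_normalized hζ hodd hm h
  obtain ⟨hm2, w, hw0, hwi, hwnd, hprod⟩ := exists_cofactors hζ hodd hm h' hxy2
  refine ⟨hm2, ?_⟩
  have hlam := hζ.zeta_sub_one_prime'
  have h0 := lambda_ne_zero hζ
  have hp2 := hp.out.two_le
  have hp3 : 3 ≤ p := by omega
  have hppos : 0 < p := by omega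
  have hcop := fun i j (hi : i < p) (hj : j < p) (hij : i ≠ j) =>
    cofactors_isCoprime hζ h'.1 hw0 hwi hwnd hi hj hij
  obtain ⟨u0, ρ0, hρ0⟩ := exists_unit_mul_pow (p := p) hcop hprod (i := 0) (by omega)
  obtain ⟨u1, ρ1, hρ1⟩ := exists_unit_mul_pow (p := p) hcop hprod (i := 1) (by omega)
  obtain ⟨u2, ρ2, hρ2⟩ := exists_unit_mul_pow (p := p) hcop hprod (i := p - 1) (by omega)
  have hnd0 : ¬ 𝔩 ∣ ρ0 := fun hd => hwnd 0 (by omega)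
    (by rw [hρ0]; exact Dvd.dvd.mul_left (dvd_pow hd hp.out.ne_zero) _)
  have hnd2 : ¬ 𝔩 ∣ ρ2 := fun hd => hwnd (p - 1) (by omega)
    (by rw [hρ2]; exact Dvd.dvd.mul_left (dvd_pow hd hp.out.ne_zero) _)
  have e0 : x + y' = 𝔩 ^ ((m - 1) * p + 1) * (u0 * ρ0 ^ p) := by rw [← hρ0]; exact hw0
  have e1 : x + 𝔷 * y' = 𝔩 * (u1 * ρ1 ^ p) := by
    have := hwi 1 (by omega) (by omega)
    rw [pow_one] at this
    rw [← hρ1]; exact this
  have e2 : x + 𝔷 ^ (p - 1) * y' = 𝔩 * (u2 * ρ2 ^ p) := by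
    rw [← hρ2]; exact hwi (p - 1) (by omega) (by omega)
  have hzz : 𝔷 * 𝔷 ^ (p - 1) = 1 := by
    rw [← pow_succ', Nat.sub_add_cancel hp.out.one_le, zeta_pow_prime]
  have rel : 𝔷 * (x + 𝔷 ^ (p - 1) * y') + (x + 𝔷 * y') = (1 + 𝔷) * (x + y') := by
    linear_combination y' * hzz
  rw [e0, e1, e2] at rel
  have rel2 : 𝔷 * (u2 * ρ2 ^ p) + u1 * ρ1 ^ p =
      (1 + 𝔷) * (u0 * (𝔩 ^ (m - 1) * ρ0) ^ p) := by
    apply mul_left_cancel₀ h0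
    rw [mul_pow, ← pow_mul]
    linear_combination rel
  -- the units
  have hinv : ((u1⁻¹ : (𝓞 K)ˣ) : 𝓞 K) * u1 = 1 := Units.inv_mul u1
  obtain ⟨U1, hU1⟩ : ∃ U1 : (𝓞 K)ˣ, (U1 : 𝓞 K) = 𝔷 * u2 * ((u1⁻¹ : (𝓞 K)ˣ) : 𝓞 K) :=
    ⟨(zeta_isUnit hζ).unit * u2 * u1⁻¹, by push_cast; rw [IsUnit.unit_spec]⟩
  obtain ⟨U2, hU2⟩ : ∃ U2 : (𝓞 K)ˣ, (U2 : 𝓞 K) = (1 + 𝔷) * u0 * ((u1⁻¹ : (𝓞 K)ˣ) : 𝓞 K) :=
    ⟨(one_add_zeta_isUnit hζ hodd).unit * u0 * u1⁻¹, by push_cast; rw [IsUnit.unit_spec]⟩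
  have key : ρ1 ^ p + (U1 : 𝓞 K) * ρ2 ^ p = (U2 : 𝓞 K) * (𝔩 ^ (m - 1) * ρ0) ^ p := by
    rw [hU1, hU2]
    linear_combination ((u1⁻¹ : (𝓞 K)ˣ) : 𝓞 K) * rel2 - ρ1 ^ p * hinv
  -- `p` divides the right hand side
  have hpdiv : (p : 𝓞 K) ∣ ρ1 ^ p + (U1 : 𝓞 K) * ρ2 ^ p := by
    rw [key]
    refine Dvd.dvd.mul_left ?_ _
    have h1 : (p : 𝓞 K) ∣ 𝔩 ^ (p - 1) := (associated_prime_lambda_pow hζ).dvd
    refine h1.trans ?_
    rw [mul_pow, ← pow_mul]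
    refine Dvd.dvd.mul_right (pow_dvd_pow _ ?_) _
    have : 1 * p ≤ (m - 1) * p := Nat.mul_le_mul_right p (by omega)
    omega
  obtain ⟨M, hM⟩ := hpdiv
  obtain ⟨a, A, hA⟩ := pow_prime_congr_int (p := p) ρ1
  obtain ⟨b, B, hB⟩ := pow_prime_congr_int (p := p) ρ2
  have hpb : ¬ (p : ℤ) ∣ b := by
    intro hd
    apply hnd2
    have h1 : 𝔩 ∣ (b : 𝓞 K) := (lambda_dvd_intCast_iff hζ).2 hd
    have h2 : 𝔩 ∣ (p : 𝓞 K) := hζ.toInteger_sub_one_dvd_prime'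
    have h3 : 𝔩 ∣ ρ2 ^ p := by
      have : ρ2 ^ p = (b : 𝓞 K) + (p : 𝓞 K) * B := by linear_combination hB
      rw [this]
      exact dvd_add h1 (Dvd.dvd.mul_right h2 _)
    exact hlam.dvd_of_dvd_pow h3
  have hbez : IsCoprime (p : ℤ) b :=
    ((Nat.prime_iff_prime_int.1 hp.out).coprime_iff_not_dvd).2 hpb
  obtain ⟨c', b', hbez⟩ := hbez
  have hbez' : (c' : 𝓞 K) * (p : 𝓞 K) + (b' : 𝓞 K) * (b : 𝓞 K) = 1 := by
    have := congrArg (fun t : ℤ => (t : 𝓞 K)) hbez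
    simpa using this
  obtain ⟨v, hv⟩ := hK U1 ⟨-a * b', by
    refine ⟨(U1 : 𝓞 K) * c' + b' * M - b' * A - (U1 : 𝓞 K) * b' * B, ?_⟩
    push_cast
    linear_combination (-(U1 : 𝓞 K)) * hbez' + (b' : 𝓞 K) * hM -
      (b' : 𝓞 K) * hA - (U1 : 𝓞 K) * b' * hB⟩
  refine ⟨ρ1, v * ρ2, ρ0, U2, ?_, ?_, hnd0, ?_⟩
  · have h1 := hcop 1 (p - 1) (by omega) (by omega) (by omega)
    rw [hρ1, hρ2] at h1
    have h2 : IsCoprime (ρ1 ^ p) (ρ2 ^ p) :=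
      (isCoprime_mul_unit_left_left u1.isUnit _ _).1
        ((isCoprime_mul_unit_left_right u2.isUnit _ _).1 h1)
    have h3 : IsCoprime ρ1 ρ2 := (IsCoprime.pow_iff hppos hppos).1 h2
    exact (isCoprime_mul_unit_left_right v.isUnit _ _).2 h3
  · rwa [IsUnit.dvd_mul_left v.isUnit]
  · rw [mul_pow, ← key, hv]
    push_cast
    ring

/-- Step G: there is no solution of any level `m ≥ 1`. -/
theorem not_isSol (hodd : p ≠ 2) [IsPrincipalIdealRing (𝓞 K)]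
    (hK : ∀ u : (𝓞 K)ˣ, (∃ n : ℤ, (p : 𝓞 K) ∣ (u : 𝓞 K) - n) → ∃ v : (𝓞 K)ˣ, u = v ^ p) :
    ∀ m : ℕ, 1 ≤ m → ∀ (x y z : 𝓞 K) (ε : (𝓞 K)ˣ), ¬ IsSol hζ m x y z ε := by
  intro m
  induction m with
  | zero => intro h; omega
  | succ n ih =>
    intro _ x y z ε h
    obtain ⟨h2, x₁, y₁, z₁, ε₁, h1⟩ := descent_step hζ hodd hK (m := n + 1) (by omega) h
    exact ih (by omega) x₁ y₁ z₁ ε₁ (by simpa using h1)

/-- **Second case of Fermat's Last Theorem for the exponent `p`**, in the generalised form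
over the cyclotomic integers, assuming that `𝓞 K` is a PID and Kummer's lemma. -/
theorem fltGen_of_pid_of_kummer (hodd : p ≠ 2) [IsPrincipalIdealRing (𝓞 K)]
    (hK : ∀ u : (𝓞 K)ˣ, (∃ n : ℤ, (p : 𝓞 K) ∣ (u : 𝓞 K) - n) → ∃ v : (𝓞 K)ˣ, u = v ^ p) :
    K0.FLTGen hζ := by
  intro a b c u hc ha hb hlc hab heq
  have hlam := hζ.zeta_sub_one_prime'
  have hfin : FiniteMultiplicity 𝔩 c := FiniteMultiplicity.of_not_isUnit hlam.not_isUnit hc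
  obtain ⟨z, hz, hznd⟩ := hfin.exists_eq_pow_mul_and_not_dvd
  have hm : 1 ≤ multiplicity 𝔩 c := hfin.le_multiplicity_of_pow_dvd (by simpa using hlc)
  refine not_isSol hζ hodd hK (multiplicity 𝔩 c) hm a b z u ⟨hab, hb, hznd, ?_⟩
  rw [heq, ← hz]

end Fermat.Agent.Kummer.K4
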