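import Mathlib
import Fermat.Agent.Kummer.K0_Assembly
import Fermat.Agent.Kummer.K1_PID7
import Fermat.Agent.Kummer.K1_PID11
import Fermat.Agent.Kummer.K1_PID13
import Fermat.Agent.Kummer.K3L_Kummer
import Fermat.Agent.Kummer.K4cd_Descent

/-!
# Project K: Fermat's Last Theorem for the exponents `5, 7, 11, 13` (final assembly, helper6)
-/

set_option autoImplicit false
set_option linter.style.haveILetI false

namespace Fermat.Agent.Kummer.H6

open NumberField

/-- The ring of integers of the `p`-th cyclotomic field is a PID for `p = 5, 7, 11, 13`. -/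
theorem pid_small (p : ℕ) (hp : p = 5 ∨ p = 7 ∨ p = 11 ∨ p = 13) (K : Type*) [Field K]
    [NumberField K] [IsCyclotomicExtension {p} ℚ K] : IsPrincipalIdealRing (𝓞 K) := by
  rcases hp with rfl | rfl | rfl | rfl
  · exact IsCyclotomicExtension.Rat.five_pid K
  · exact pid_seven K
  · exact pid_eleven K
  · exact pid_thirteen K

/-- **Fermat's Last Theorem for the exponents `5, 7, 11, 13`** (Kummer). -/
theorem flt_small (p : ℕ) (hp : p = 5 ∨ p = 7 ∨ p = 11 ∨ p = 13) : FermatLastTheoremFor p := by
  haveI : Fact p.Prime := ⟨K0.prime_of_small hp⟩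
  refine K0.flt_of_forall_FLTGen p hp fun K _ _ _ ζ hζ => ?_
  haveI : IsPrincipalIdealRing (𝓞 K) := pid_small p hp K
  exact K4.fltGen_of_pid_of_kummer hζ (K0.ne_two_of_small hp) (K3L.kummerLemma_small p hp K)

/-- There is no Frey package with `p ∈ {5, 7, 11, 13}`. -/
theorem freyPackage_small_false (P : FreyPackage)
    (hp : P.p = 5 ∨ P.p = 7 ∨ P.p = 11 ∨ P.p = 13) : False :=
  K0.freyPackage_small_false P hp flt_small

end Fermat.Agent.Kummer.H6
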