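import Mathlib.NumberTheory.NumberField.Cyclotomic.PID
import Mathlib.NumberTheory.NumberField.Cyclotomic.Ideal
import Mathlib.Analysis.Real.Pi.Bounds
import Mathlib.Tactic

/-!
# Class number one for the 13-th cyclotomic field: the Minkowski skeleton

We reduce `IsPrincipalIdealRing (𝓞 K)` for `K = ℚ(ζ₁₃)` to the existence of a principal prime
above each of `3, 53, 79, 131, 157`.
-/

namespace Fermat.Agent.Kummer

namespace PID13

open NumberField Module InfinitePlace Nat Real Ideal

section generic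

/-- A lower bound for the order of an element from non-triviality of small powers. -/
theorem k1_le_orderOf {G : Type*} [Monoid G] (x : G) (k : ℕ) (hfin : 0 < orderOf x)
    (h : ∀ j, 0 < j → j < k → x ^ j ≠ 1) : k ≤ orderOf x := by
  by_contra hlt
  rw [not_le] at hlt
  exact h _ hfin hlt (pow_orderOf_eq_one x)

end generic

section thirteen

variable (K : Type*) [Field K] [NumberField K] [IsCyclotomicExtension {13} ℚ K]

/-- The Minkowski bound of the `13`-th cyclotomic field is `< 307`. -/
theorem k1_minkowski_thirteen :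
    (4 / π) ^ nrComplexPlaces K *
      ((finrank ℚ K)! / (finrank ℚ K) ^ (finrank ℚ K) * √|discr K|) < 307 := by
  have h13 : Fact (Nat.Prime 13) := ⟨by norm_num⟩
  rw [IsCyclotomicExtension.Rat.discr_prime 13 K, IsCyclotomicExtension.finrank (n := 13) K
    (Polynomial.cyclotomic.irreducible_rat (by simp)),
    IsCyclotomicExtension.Rat.nrComplexPlaces_eq_totient_div_two 13,
    totient_prime h13.out]
  have hfact : (12 : ℕ)! = 479001600 := by decide
  have hd : ((-1 : ℤ) ^ ((13 - 1) / 2) * ((13 : ℕ) : ℤ) ^ (13 - 2)) = 1792160394037 := by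
    norm_num
  rw [hd]
  have e1 : (13 - 1) / 2 = 6 := by norm_num
  have e2 : 13 - 1 = 12 := by norm_num
  rw [e1, e2, hfact]
  have habs : |((1792160394037 : ℤ) : ℝ)| = 1792160394037 := by
    rw [abs_of_pos (by norm_num)]; norm_num
  rw [habs]
  have hsq : √(1792160394037 : ℝ) < 1338716 := by
    rw [Real.sqrt_lt' (by norm_num)]
    norm_num
  have hpi : (4 / π) ^ 6 ≤ (4 / 3.1415) ^ 6 := by
    have := Real.pi_gt_d4
    gcongr
  have hpos : (0 : ℝ) ≤ (4 / π) ^ 6 := by positivity
  calc (4 / π) ^ 6 * (((479001600 : ℕ) : ℝ) / ((12 : ℕ) : ℝ) ^ 12 * √(1792160394037 : ℝ))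
      ≤ (4 / π) ^ 6 * (((479001600 : ℕ) : ℝ) / ((12 : ℕ) : ℝ) ^ 12 * 1338716) := by
        gcongr
    _ ≤ (4 / 3.1415) ^ 6 * (((479001600 : ℕ) : ℝ) / ((12 : ℕ) : ℝ) ^ 12 * 1338716) := by
        gcongr
    _ < 307 := by norm_num

/-- The floor of the Minkowski bound of the `13`-th cyclotomic field is at most `306`. -/
theorem k1_floor_minkowski_thirteen :
    ⌊(4 / π) ^ nrComplexPlaces K *
      ((finrank ℚ K)! / (finrank ℚ K) ^ (finrank ℚ K) * √|discr K|)⌋₊ ≤ 306 := by
  have h := k1_minkowski_thirteen K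
  have h2 : ⌊(4 / π) ^ nrComplexPlaces K *
      ((finrank ℚ K)! / (finrank ℚ K) ^ (finrank ℚ K) * √|discr K|)⌋₊ < 307 := by
    rw [Nat.floor_lt (by positivity)]
    exact_mod_cast h
  omega

omit K in
/-- A nonzero residue modulo `13` has positive order. -/
theorem k1_orderOf_pos_thirteen (p : ℕ) (hp : ¬ 13 ∣ p) : 0 < orderOf (p : ZMod 13) := by
  have h13 : Fact (Nat.Prime 13) := ⟨by norm_num⟩
  rw [orderOf_pos_iff, isOfFinOrder_iff_pow_eq_one]
  refine ⟨12, by norm_num, ?_⟩
  have hne : (p : ZMod 13) ≠ 0 := by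
    rwa [Ne, ZMod.natCast_eq_zero_iff]
  exact ZMod.pow_card_sub_one_eq_one hne

omit K in
/-- For a prime `p ≤ 306` other than `3, 13, 53, 79, 131, 157`, the power `p ^ f`, with `f` the
order of `p` modulo `13`, exceeds `306`. -/
theorem k1_lt_pow_orderOf_thirteen (p : ℕ) (hp : p.Prime) (h13 : p ≠ 13)
    (hS : p ∉ ({3, 53, 79, 131, 157} : Finset ℕ)) : 306 < p ^ orderOf (p : ZMod 13) := by
  have hnd : ¬ 13 ∣ p := by
    intro h
    exact h13 ((Nat.prime_dvd_prime_iff_eq (by norm_num) hp).mp h).symm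
  have hpos := k1_orderOf_pos_thirteen p hnd
  simp only [Finset.mem_insert, Finset.mem_singleton, not_or] at hS
  obtain ⟨h3, h53, h79, h131, h157⟩ := hS
  -- helper: from a lower bound on the order
  have key : ∀ k : ℕ, (∀ j, 0 < j → j < k → (p : ZMod 13) ^ j ≠ 1) → 306 < p ^ k →
      306 < p ^ orderOf (p : ZMod 13) := by
    intro k hk hlt
    exact lt_of_lt_of_le hlt (Nat.pow_le_pow_right hp.pos (k1_le_orderOf _ k hpos hk))
  rcases Nat.lt_or_ge p 18 with hlt | hge
  · -- small primes
    interval_cases p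
    all_goals first
      | (exfalso; revert hp; norm_num; done)
      | exact absurd rfl h3
      | exact absurd rfl h13
      | (refine key 9 ?_ (by norm_num)
         intro j hj0 hj9
         interval_cases j <;> decide)
      | (refine key 4 ?_ (by norm_num)
         intro j hj0 hj9
         interval_cases j <;> decide)
  · rcases Nat.lt_or_ge 306 p with hbig | hle
    · calc 306 < p := hbig
        _ = p ^ 1 := (pow_one p).symm
        _ ≤ p ^ orderOf (p : ZMod 13) := Nat.pow_le_pow_right hp.pos hpos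
    · -- 18 ≤ p ≤ 306 : it suffices that p is not 1 mod 13
      refine key 2 ?_ (by nlinarith)
      intro j hj0 hj2
      have hj : j = 1 := by omega
      subst hj
      rw [pow_one]
      intro hone
      have hmod : p % 13 = 1 := by
        have h1 : ((p : ℕ) : ZMod 13) = ((1 : ℕ) : ZMod 13) := by simpa using hone
        rw [ZMod.natCast_eq_natCast_iff'] at h1
        simpa using h1
      -- p = 13 * k + 1 with k ≤ 23
      obtain ⟨k, hk⟩ : ∃ k, p = 13 * k + 1 := ⟨p / 13, by omega⟩
      have hk23 : k ≤ 23 := by omega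
      have hk2 : 2 ≤ k := by omega
      subst hk
      interval_cases k
      all_goals first
        | (exfalso; revert hp; norm_num; done)
        | exact absurd rfl h53
        | exact absurd rfl h79
        | exact absurd rfl h131
        | exact absurd rfl h157

end thirteen

end PID13

open NumberField Module InfinitePlace Nat Real Ideal PID13

section thirteen

variable (K : Type*) [Field K] [NumberField K] [IsCyclotomicExtension {13} ℚ K]

/-- **Skeleton for class number one of `ℚ(ζ₁₃)`**: the ring of integers of the `13`-th cyclotomic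
field is a PID as soon as there is a principal prime above each of `3, 53, 79, 131, 157`. -/
theorem pid_thirteen_of_principal
    (h : ∀ q ∈ ({3, 53, 79, 131, 157} : Finset ℕ),
      ∃ P ∈ Ideal.primesOver (Ideal.span {(q : ℤ)}) (𝓞 K), Submodule.IsPrincipal P) :
    IsPrincipalIdealRing (𝓞 K) := by
  have h13 : Fact (Nat.Prime 13) := ⟨by norm_num⟩
  have : IsGalois ℚ K := IsCyclotomicExtension.isGalois {13} ℚ K
  apply RingOfIntegers.isPrincipalIdealRing_of_isPrincipal_of_lt_or_isPrincipal_of_mem_primesOver_of_mem_Icc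
  intro p _ hprime
  have hfl := k1_floor_minkowski_thirteen K
  by_cases hp13 : p = 13
  · subst hp13
    let hζ := IsCyclotomicExtension.zeta_spec 13 ℚ K
    refine ⟨Ideal.span {hζ.toInteger - 1}, ⟨?_, ?_⟩, Or.inr ⟨⟨_, rfl⟩⟩⟩
    · exact IsCyclotomicExtension.Rat.isPrime_span_zeta_sub_one' 13 hζ
    · have := IsCyclotomicExtension.Rat.liesOver_span_zeta_sub_one 13 0 (K := K)
        (ζ := IsCyclotomicExtension.zeta 13 ℚ K) (by simp [hζ])
      simpa using this
  by_cases hS : p ∈ ({3, 53, 79, 131, 157} : Finset ℕ)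
  · obtain ⟨P, hP, hPp⟩ := h p hS
    exact ⟨P, hP, Or.inr hPp⟩
  · have : Fact p.Prime := ⟨hprime⟩
    obtain ⟨⟨P, hP1, hP2⟩⟩ := (Ideal.span {(p : ℤ)}).nonempty_primesOver (S := 𝓞 K)
    refine ⟨P, ⟨hP1, hP2⟩, Or.inl ?_⟩
    have hnd : ¬ p ∣ 13 := by
      intro hd
      exact hp13 ((Nat.prime_dvd_prime_iff_eq hprime (by norm_num)).mp hd)
    rw [IsCyclotomicExtension.Rat.inertiaDeg_eq_of_not_dvd p K P hnd]
    exact lt_of_le_of_lt hfl (k1_lt_pow_orderOf_thirteen p hprime hp13 hS)

end thirteen

end Fermat.Agent.Kummer
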