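import Mathlib.NumberTheory.NumberField.Cyclotomic.PID
import Mathlib.NumberTheory.NumberField.Cyclotomic.Ideal
import Mathlib.NumberTheory.NumberField.ClassNumber
import Mathlib.Tactic.NormNum.Prime

/-!
# Common tools for proving that `ℤ[ζ_p]` is a PID for small primes `p`

We use the Minkowski bound criterion of Mathlib in the Galois case.
-/

namespace Fermat.Agent.Kummer

open NumberField Ideal Module InfinitePlace Polynomial
open scoped Real Nat

section common

variable (p : ℕ) [hp : Fact p.Prime] (K : Type*) [Field K] [NumberField K]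
  [hK : IsCyclotomicExtension {p} ℚ K]

/-- For a prime `q ≠ p` and a bound `B < q ^ f` where `f` is the order of `q` mod `p`,
every prime of `ℤ[ζ_p]` over `q` has norm bigger than `B`. -/
theorem k1_exists_prime_of_lt (q : ℕ) (hq : q.Prime) (hqp : q ≠ p) (B : ℕ)
    (hB : B < q ^ orderOf (q : ZMod p)) :
    ∃ P ∈ primesOver (span {(q : ℤ)}) (𝓞 K),
      B < q ^ P.inertiaDeg ℤ ∨ Submodule.IsPrincipal P := by
  have : Fact q.Prime := ⟨hq⟩
  have : NeZero p := ⟨hp.out.ne_zero⟩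
  have hmax : (span {(q : ℤ)}).IsMaximal :=
    (isPrime_of_prime (prime_span_singleton_iff.mpr (Nat.prime_iff_prime_int.mp hq))).isMaximal
      (by simp [hq.ne_zero])
  obtain ⟨⟨P, hP1, hP2⟩⟩ := (span {(q : ℤ)}).nonempty_primesOver (S := 𝓞 K)
  refine ⟨P, ⟨hP1, hP2⟩, Or.inl ?_⟩
  have hndvd : ¬ q ∣ p := by
    intro h
    rcases (Nat.dvd_prime hp.out).1 h with h1 | h1
    · exact hq.one_lt.ne' h1
    · exact hqp h1
  rw [IsCyclotomicExtension.Rat.inertiaDeg_eq_of_not_dvd q K P hndvd]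
  exact hB

/-- The prime over `p` is principal. -/
theorem k1_exists_prime_over_self :
    ∃ P ∈ primesOver (span {(p : ℤ)}) (𝓞 K),
      Submodule.IsPrincipal P := by
  have hmax : (span {(p : ℤ)}).IsMaximal :=
    (isPrime_of_prime (prime_span_singleton_iff.mpr
      (Nat.prime_iff_prime_int.mp hp.out))).isMaximal (by simp [hp.out.ne_zero])
  obtain ⟨⟨P, hP1, hP2⟩⟩ := (span {(p : ℤ)}).nonempty_primesOver (S := 𝓞 K)
  refine ⟨P, ⟨hP1, hP2⟩, ?_⟩
  rw [IsCyclotomicExtension.Rat.eq_span_zeta_sub_one_of_liesOver' p K hK.zeta_spec P]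
  exact ⟨⟨_, rfl⟩⟩

/-- The Minkowski bound of the `p`-th cyclotomic field, made explicit. -/
theorem k1_minkowski_eq :
    (4 / π) ^ nrComplexPlaces K *
      (((finrank ℚ K)! : ℝ) / (finrank ℚ K : ℝ) ^ (finrank ℚ K) * √|(discr K : ℝ)|) =
    (4 / π) ^ ((p - 1) / 2) *
      ((((p - 1)! : ℕ) : ℝ) / ((p - 1 : ℕ) : ℝ) ^ (p - 1) * √((p : ℝ) ^ (p - 2))) := by
  have : NeZero p := ⟨hp.out.ne_zero⟩
  rw [IsCyclotomicExtension.Rat.discr_prime p K, IsCyclotomicExtension.finrank (n := p) K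
    (cyclotomic.irreducible_rat hp.out.pos),
    IsCyclotomicExtension.Rat.nrComplexPlaces_eq_totient_div_two p,
    Nat.totient_prime hp.out]
  congr 3
  push_cast
  rw [abs_mul, abs_pow, abs_pow, abs_neg, abs_one, one_pow, one_mul, Nat.abs_cast]

/-- PID criterion for `ℤ[ζ_p]`: it is enough to bound the Minkowski constant by `B + 1` and,
for each prime `q ≤ B` different from `p`, either check `B < q ^ f` with `f` the order of `q`
modulo `p`, or exhibit a principal prime above `q`. -/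
theorem k1_pid_of_bound (B : ℕ)
    (hM : (4 / π) ^ ((p - 1) / 2) *
      ((((p - 1)! : ℕ) : ℝ) / ((p - 1 : ℕ) : ℝ) ^ (p - 1) * √((p : ℝ) ^ (p - 2))) < B + 1)
    (h : ∀ q ∈ Finset.Icc 1 B, q.Prime → q ≠ p →
      B < q ^ orderOf (q : ZMod p) ∨
        ∃ P ∈ primesOver (span {(q : ℤ)}) (𝓞 K), Submodule.IsPrincipal P) :
    IsPrincipalIdealRing (𝓞 K) := by
  have : IsGalois ℚ K := IsCyclotomicExtension.isGalois {p} ℚ K
  have hfloor : ⌊(4 / π) ^ nrComplexPlaces K *
      (((finrank ℚ K)! : ℝ) / (finrank ℚ K : ℝ) ^ (finrank ℚ K) * √|(discr K : ℝ)|)⌋₊ ≤ B := by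
    rw [k1_minkowski_eq p K]
    refine Nat.lt_succ_iff.mp ((Nat.floor_lt (by positivity)).mpr ?_)
    push_cast
    exact hM
  refine RingOfIntegers.isPrincipalIdealRing_of_isPrincipal_of_lt_or_isPrincipal_of_mem_primesOver_of_mem_Icc
    (fun q hq hqprime ↦ ?_)
  have hqB : q ∈ Finset.Icc 1 B := by
    rw [Finset.mem_Icc] at hq ⊢
    exact ⟨hq.1, hq.2.trans hfloor⟩
  by_cases hqp : q = p
  · subst hqp
    obtain ⟨P, hP, hPp⟩ := k1_exists_prime_over_self q K
    exact ⟨P, hP, Or.inr hPp⟩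
  rcases h q hqB hqprime hqp with hlt | ⟨P, hP, hPp⟩
  · obtain ⟨P, hP, hP'⟩ := k1_exists_prime_of_lt p K q hqprime hqp B hlt
    refine ⟨P, hP, ?_⟩
    rcases hP' with h1 | h1
    · exact Or.inl (lt_of_le_of_lt hfloor h1)
    · exact Or.inr h1
  · exact ⟨P, hP, Or.inr hPp⟩

end common

end Fermat.Agent.Kummer

namespace Fermat.Agent.Kummer

/-- Lower bound for `q ^ orderOf q` in `ZMod p`, from the non-triviality of small powers.
All hypotheses are closed decidable statements for concrete `p`, `q`, `k`, `n`. -/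
theorem k1_lt_pow_orderOf (p q B k n : ℕ) (hq : 0 < q) (hn : 0 < n)
    (hone : ((q : ℕ) : ZMod p) ^ n = 1)
    (hk : ∀ m < k, 0 < m → ((q : ℕ) : ZMod p) ^ m ≠ 1) (hB : B < q ^ k) :
    B < q ^ orderOf ((q : ℕ) : ZMod p) := by
  have hfin : IsOfFinOrder ((q : ℕ) : ZMod p) :=
    isOfFinOrder_iff_pow_eq_one.mpr ⟨n, hn, hone⟩
  have hpos : 0 < orderOf ((q : ℕ) : ZMod p) := orderOf_pos_iff.mpr hfin
  have hle : k ≤ orderOf ((q : ℕ) : ZMod p) := by
    by_contra hlt
    exact hk _ (not_le.mp hlt) hpos (pow_orderOf_eq_one _)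
  exact lt_of_lt_of_le hB (Nat.pow_le_pow_right hq hle)

end Fermat.Agent.Kummer
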