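import Fermat.Agent.Kummer.K1_PIDCommon

/-!
# Principal primes of residue degree one in `ℤ[ζ_p]`, from explicit cofactors
-/

namespace Fermat.Agent.Kummer

open NumberField Ideal Polynomial RingOfIntegers NumberField.Ideal IsCyclotomicExtension

section

variable (p : ℕ) [hp : Fact p.Prime] (K : Type*) [Field K] [NumberField K]
  [hK : IsCyclotomicExtension {p} ℚ K]

/-- The `p`-th root of unity of `𝓞 K` used throughout. -/
noncomputable abbrev k1Zeta : 𝓞 K := (zeta_spec p ℚ K).toInteger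

theorem k1Zeta_isPrimitiveRoot : IsPrimitiveRoot (k1Zeta p K) p :=
  (zeta_spec p ℚ K).toInteger_isPrimitiveRoot

/-- `1 + ζ + ⋯ + ζ ^ (p - 1) = 0`. -/
theorem k1Zeta_sum : ∑ i ∈ Finset.range p, k1Zeta p K ^ i = 0 := by
  have h := (k1Zeta_isPrimitiveRoot p K).isRoot_cyclotomic hp.out.pos
  rw [cyclotomic_prime, IsRoot.def, eval_finsetSum] at h
  simpa using h

theorem k1Zeta_pow : k1Zeta p K ^ p = 1 := (k1Zeta_isPrimitiveRoot p K).pow_eq_one

/-- Kummer–Dedekind for a monic factor of the cyclotomic polynomial modulo `q`: the ideal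
`(q, Q(ζ))` is a prime above `q`. -/
theorem k1_span_pair_mem_primesOver (q : ℕ) [hq : Fact q.Prime] (Q : ℤ[X])
    (hirr : Irreducible (Q.map (Int.castRingHom (ZMod q))))
    (hmonic : (Q.map (Int.castRingHom (ZMod q))).Monic)
    (hdvd : Q.map (Int.castRingHom (ZMod q)) ∣ cyclotomic p (ZMod q)) :
    span {(q : 𝓞 K), aeval (k1Zeta p K) Q} ∈ primesOver (span {(q : ℤ)}) (𝓞 K) := by
  have : NeZero p := ⟨hp.out.ne_zero⟩
  have h₁ : ¬ q ∣ exponent (k1Zeta p K) := by
    rw [exponent_eq_one_iff.mpr <| Rat.adjoin_singleton_eq_top (zeta_spec p ℚ K)]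
    exact hq.out.not_dvd_one
  have hQ : Q.map (Int.castRingHom (ZMod q)) ∈ monicFactorsMod (k1Zeta p K) q := by
    rw [Multiset.mem_toFinset, Polynomial.mem_normalizedFactors_iff
      (map_monic_ne_zero (minpoly.monic (k1Zeta p K).isIntegral))]
    refine ⟨hirr, hmonic, ?_⟩
    refine dvd_trans hdvd ?_
    rw [← map_cyclotomic_int, cyclotomic_eq_minpoly (zeta_spec p ℚ K) (NeZero.pos _),
      ← (zeta_spec p ℚ K).coe_toInteger, ← RingOfIntegers.minpoly_coe (k1Zeta p K)]
    exact dvd_rfl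
  rw [← primesOverSpanEquivMonicFactorsMod_symm_apply_eq_span h₁ hQ]
  exact ((primesOverSpanEquivMonicFactorsMod h₁).symm ⟨_, hQ⟩).prop

/-- A principal prime above `q` from an explicit generator `α` of `(q, Q(ζ))`. -/
theorem k1_exists_principal_of_factor (q : ℕ) [hq : Fact q.Prime] (Q : ℤ[X])
    (hirr : Irreducible (Q.map (Int.castRingHom (ZMod q))))
    (hmonic : (Q.map (Int.castRingHom (ZMod q))).Monic)
    (hdvd : Q.map (Int.castRingHom (ZMod q)) ∣ cyclotomic p (ZMod q))
    (α β γ u v : 𝓞 K) (h1 : α * β = q) (h2 : α * γ = aeval (k1Zeta p K) Q)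
    (h3 : α = q * u + aeval (k1Zeta p K) Q * v) :
    ∃ P ∈ primesOver (span {(q : ℤ)}) (𝓞 K), Submodule.IsPrincipal P := by
  refine ⟨_, k1_span_pair_mem_primesOver p K q Q hirr hmonic hdvd, ⟨α, ?_⟩⟩
  apply le_antisymm
  · rw [Ideal.span_le]
    intro x hx
    rcases hx with rfl | hx
    · exact Ideal.mem_span_singleton.mpr ⟨β, h1.symm⟩
    · rw [Set.mem_singleton_iff] at hx
      subst hx
      exact Ideal.mem_span_singleton.mpr ⟨γ, h2.symm⟩
  · change Ideal.span {α} ≤ _
    rw [Ideal.span_singleton_le_iff_mem, h3]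
    refine Ideal.add_mem _ (Ideal.mul_mem_right _ _ (Ideal.subset_span (by simp)))
      (Ideal.mul_mem_right _ _ (Ideal.subset_span (by simp)))

/-- A principal prime above `q` of residue degree one: `c` is a root of the `p`-th cyclotomic
polynomial modulo `q` and `α` generates `(q, ζ - c)`. The hypothesis `hc` is a closed decidable
statement for concrete `p`, `q`, `c`. -/
theorem k1_exists_principal_of_root (q : ℕ) (hq : q.Prime) (c : ℤ)
    (hc : ∑ i ∈ Finset.range p, (c : ZMod q) ^ i = 0)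
    (α β γ u v : 𝓞 K) (h1 : α * β = q) (h2 : α * γ = k1Zeta p K - c)
    (h3 : α = q * u + (k1Zeta p K - c) * v) :
    ∃ P ∈ primesOver (span {(q : ℤ)}) (𝓞 K), Submodule.IsPrincipal P := by
  have : Fact q.Prime := ⟨hq⟩
  have hmap : (X - C c : ℤ[X]).map (Int.castRingHom (ZMod q)) = X - C (c : ZMod q) := by
    simp
  have hev : aeval (k1Zeta p K) (X - C c : ℤ[X]) = k1Zeta p K - c := by
    simp
  refine k1_exists_principal_of_factor p K q (X - C c) ?_ ?_ ?_ α β γ u v h1 (by rw [hev, h2])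
    (by rw [hev]; exact h3)
  · rw [hmap]; exact irreducible_X_sub_C _
  · rw [hmap]; exact monic_X_sub_C _
  · rw [hmap, dvd_iff_isRoot, cyclotomic_prime, IsRoot.def, eval_finsetSum]
    simpa using hc

end

end Fermat.Agent.Kummer
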