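import Mathlib

/-!
# Project K / K1: a principal prime above `q` in a cyclotomic ring of integers

Generic lemma: let `K` be the `n`-th cyclotomic field, `ζ` a primitive `n`-th root of unity,
`q` a prime and `g : ℤ[X]` a polynomial whose reduction mod `q` is irreducible and divides
`Φ_n` mod `q`.  If `α ∈ 𝓞 K` divides both `q` and `g(ζ)` and is an `𝓞 K`-combination of them,
then `span {α}` is a prime ideal above `q` (it is the kernel of `𝓞 K → 𝔽_q[X]/(ḡ)`).
No norm computation is needed.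
-/

namespace Fermat.Agent.Kummer.K1P

open Polynomial NumberField Ideal

theorem aeval_root_int {q : ℕ} (gbar : (ZMod q)[X]) (f : ℤ[X]) :
    aeval (AdjoinRoot.root gbar) f
      = AdjoinRoot.mk gbar (f.map (Int.castRingHom (ZMod q))) := by
  rw [← AdjoinRoot.aeval_eq, ← algebraMap_int_eq, aeval_map_algebraMap]

variable {n : ℕ} [NeZero n] {K : Type*} [Field K] [NumberField K]
  [IsCyclotomicExtension {n} ℚ K] {ζ : K}

omit [IsCyclotomicExtension {n} ℚ K] in
theorem minpoly_toInteger (hζ : IsPrimitiveRoot ζ n) :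
    minpoly ℤ hζ.toInteger = cyclotomic n ℤ := by
  rw [cyclotomic_eq_minpoly hζ (NeZero.pos n)]
  exact (minpoly.algebraMap_eq (RingOfIntegers.coe_injective) hζ.toInteger).symm

/-- the residue ring hom `𝓞 K → 𝔽_q[X]/(ḡ)`, `ζ ↦ root`. -/
noncomputable def resHom (hζ : IsPrimitiveRoot ζ n) {q : ℕ} (gbar : (ZMod q)[X])
    (hdvd : gbar ∣ cyclotomic n (ZMod q)) : 𝓞 K →ₐ[ℤ] AdjoinRoot gbar :=
  hζ.integralPowerBasis.lift (AdjoinRoot.root gbar) (by
    rw [IsPrimitiveRoot.integralPowerBasis_gen, minpoly_toInteger hζ, aeval_root_int,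
      map_cyclotomic, AdjoinRoot.mk_eq_zero]
    exact hdvd)

theorem resHom_toInteger (hζ : IsPrimitiveRoot ζ n) {q : ℕ} (gbar : (ZMod q)[X])
    (hdvd : gbar ∣ cyclotomic n (ZMod q)) :
    resHom hζ gbar hdvd hζ.toInteger = AdjoinRoot.root gbar := by
  calc resHom hζ gbar hdvd hζ.toInteger
      = resHom hζ gbar hdvd hζ.integralPowerBasis.gen := by
        rw [IsPrimitiveRoot.integralPowerBasis_gen]
    _ = AdjoinRoot.root gbar := hζ.integralPowerBasis.lift_gen _ _

theorem resHom_aeval (hζ : IsPrimitiveRoot ζ n) {q : ℕ} (gbar : (ZMod q)[X])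
    (hdvd : gbar ∣ cyclotomic n (ZMod q)) (f : ℤ[X]) :
    resHom hζ gbar hdvd (aeval hζ.toInteger f)
      = AdjoinRoot.mk gbar (f.map (Int.castRingHom (ZMod q))) := by
  rw [← aeval_algHom_apply, resHom_toInteger, aeval_root_int]

theorem exists_eq_aeval (hζ : IsPrimitiveRoot ζ n) (x : 𝓞 K) :
    ∃ f : ℤ[X], x = aeval hζ.toInteger f := by
  obtain ⟨f, hf⟩ := hζ.integralPowerBasis.exists_eq_aeval' x
  rw [IsPrimitiveRoot.integralPowerBasis_gen] at hf
  exact ⟨f, hf⟩

/-- lifting a divisibility mod `q` to `ℤ[X]`. -/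
theorem exists_lift_of_dvd_map {q : ℕ} (g f : ℤ[X])
    (h : g.map (Int.castRingHom (ZMod q)) ∣ f.map (Int.castRingHom (ZMod q))) :
    ∃ s r : ℤ[X], f = g * s + C (q : ℤ) * r := by
  obtain ⟨hbar, hh⟩ := h
  obtain ⟨s, rfl⟩ := Polynomial.map_surjective (Int.castRingHom (ZMod q))
    (ZMod.intCast_surjective) hbar
  have h0 : (f - g * s).map (Int.castRingHom (ZMod q)) = 0 := by
    rw [Polynomial.map_sub, Polynomial.map_mul, hh, sub_self]
  have hdvd : C (q : ℤ) ∣ f - g * s := by
    rw [C_dvd_iff_dvd_coeff]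
    intro i
    have := congrArg (fun t => t.coeff i) h0
    simp only [coeff_map, coeff_zero, eq_intCast] at this
    exact (ZMod.intCast_zmod_eq_zero_iff_dvd _ _).mp this
  obtain ⟨r, hr⟩ := hdvd
  exact ⟨s, r, by rw [← hr]; ring⟩

/-- **Generic principal-prime lemma.** -/
theorem exists_principal_prime_over (hζ : IsPrimitiveRoot ζ n) (q : ℕ) [Fact q.Prime]
    (g : ℤ[X]) (hirr : Irreducible (g.map (Int.castRingHom (ZMod q))))
    (hdvd : g.map (Int.castRingHom (ZMod q)) ∣ cyclotomic n (ZMod q))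
    (α β γ u v : 𝓞 K) (h1 : α * β = (q : 𝓞 K)) (h2 : α * γ = aeval hζ.toInteger g)
    (h3 : α = (q : 𝓞 K) * u + aeval hζ.toInteger g * v) :
    ∃ P ∈ primesOver (span {((q : ℕ) : ℤ)}) (𝓞 K), Submodule.IsPrincipal P := by
  have : Fact (Irreducible (g.map (Int.castRingHom (ZMod q)))) := ⟨hirr⟩
  set φ := resHom hζ (g.map (Int.castRingHom (ZMod q))) hdvd with hφ
  have hφq : φ (q : 𝓞 K) = 0 := by
    have : (q : 𝓞 K) = aeval hζ.toInteger (C (q : ℤ)) := by simp
    rw [this, hφ, resHom_aeval]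
    simp
  have hφg : φ (aeval hζ.toInteger g) = 0 := by
    rw [hφ, resHom_aeval, AdjoinRoot.mk_self]
  have hker : RingHom.ker φ = span {α} := by
    apply le_antisymm
    · intro x hx
      rw [RingHom.mem_ker] at hx
      obtain ⟨f, rfl⟩ := exists_eq_aeval hζ x
      have hx' : AdjoinRoot.mk (g.map (Int.castRingHom (ZMod q)))
          (f.map (Int.castRingHom (ZMod q))) = 0 := by
        rw [← resHom_aeval hζ _ hdvd]; exact hx
      rw [AdjoinRoot.mk_eq_zero] at hx'
      obtain ⟨s, r, rfl⟩ := exists_lift_of_dvd_map g f hx'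
      rw [mem_span_singleton]
      refine ⟨γ * aeval hζ.toInteger s + β * aeval hζ.toInteger r, ?_⟩
      simp only [map_add, map_mul, map_natCast]
      linear_combination (-(aeval hζ.toInteger s)) * h2 - (aeval hζ.toInteger r) * h1
    · rw [span_singleton_le_iff_mem, RingHom.mem_ker, h3]
      simp only [map_add, map_mul]
      rw [hφq, hφg]; simp
  have hprime : (span {α}).IsPrime := by
    rw [← hker]; exact RingHom.ker_isPrime _
  refine ⟨span {α}, ⟨hprime, ⟨?_⟩⟩, ⟨α, rfl⟩⟩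
  have hmax : (span {((q : ℕ) : ℤ)}).IsMaximal :=
    (span_singleton_prime (by exact_mod_cast (Fact.out : q.Prime).ne_zero)).mpr
      (Nat.prime_iff_prime_int.mp Fact.out) |>.isMaximal
      (by simpa using (Fact.out : q.Prime).ne_zero)
  refine hmax.eq_of_le ?_ ?_
  · intro h
    apply hprime.ne_top
    rw [eq_top_iff_one] at h ⊢
    simpa [under] using h
  · rw [span_singleton_le_iff_mem, under, mem_comap, mem_span_singleton]
    exact ⟨β, by rw [h1]; simp⟩

/-- **Residue degree one.** If `a : ℤ` is a root of `Φ_n` mod `q` (`n` prime), and `α` divides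
`q` and `ζ - a` and is a combination of them, then `span {α}` is a prime above `q`. -/
theorem exists_principal_prime_over_of_root (hζ : IsPrimitiveRoot ζ n) (hn : n.Prime)
    (q : ℕ) [Fact q.Prime] (a : ℤ) (ha : (q : ℤ) ∣ ∑ i ∈ Finset.range n, a ^ i)
    (α β γ u v : 𝓞 K) (h1 : α * β = (q : 𝓞 K)) (h2 : α * γ = hζ.toInteger - (a : 𝓞 K))
    (h3 : α = (q : 𝓞 K) * u + (hζ.toInteger - (a : 𝓞 K)) * v) :
    ∃ P ∈ primesOver (span {((q : ℕ) : ℤ)}) (𝓞 K), Submodule.IsPrincipal P := by
  have hmap : (X - C a : ℤ[X]).map (Int.castRingHom (ZMod q)) = X - C (a : ZMod q) := by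
    simp
  have hev : aeval hζ.toInteger (X - C a : ℤ[X]) = hζ.toInteger - (a : 𝓞 K) := by
    simp
  refine exists_principal_prime_over hζ q (X - C a) ?_ ?_ α β γ u v h1 (by rw [hev, h2])
    (by rw [hev]; exact h3)
  · rw [hmap]; exact irreducible_X_sub_C _
  · rw [hmap, dvd_iff_isRoot]
    have : Fact n.Prime := ⟨hn⟩
    rw [IsRoot.def, cyclotomic_prime, eval_finsetSum]
    simp only [eval_pow, eval_X]
    have := (ZMod.intCast_zmod_eq_zero_iff_dvd _ q).mpr ha
    simpa using this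

end Fermat.Agent.Kummer.K1P
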