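import Mathlib

/-!
# Project K, work package K3c: explicit independence of the logarithmic derivatives

For `p = 5, 7, 11, 13` and `k = (p - 1) / 2`, let `F p 0 = 1 + X` and
`F p i = ∑ j ≤ i, (1 + X) ^ j` (`1 ≤ i < k`) in `(ZMod p)[X]`; these are the images of the
cyclotomic units `ζ` and `1 + ζ + ⋯ + ζ ^ i` in the variable `X = ζ - 1`. We prove that the
logarithmic derivatives `F_i' / F_i` are linearly independent modulo `X ^ (p - 2)`, in the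
denominator-free form

`X ^ (p - 2) ∣ ∑ i, C (e i) * F_i' * ∏ j ≠ i, F_j → e = 0`.

The proof is an explicit computation: the polynomials are expanded over `ℤ` (by `ring`), the
relevant coefficients are extracted, and the resulting linear system modulo `p` is solved.
-/

namespace Fermat.Agent.Kummer.K3C

open Polynomial Finset

/-- The image of the `i`-th cyclotomic unit generator in the variable `X = ζ - 1`:
`cyc R 0 = 1 + X` (the image of `ζ`) and `cyc R i = ∑ j ≤ i, (1 + X) ^ j` for `1 ≤ i`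
(the image of `1 + ζ + ⋯ + ζ ^ i`). -/
noncomputable def cyc (R : Type*) [CommRing R] (i : ℕ) : R[X] :=
  if i = 0 then 1 + X else ∑ j ∈ range (i + 1), (1 + X) ^ j

theorem cyc_map {R S : Type*} [CommRing R] [CommRing S] (f : R →+* S) (i : ℕ) :
    (cyc R i).map f = cyc S i := by
  unfold cyc
  split_ifs <;> simp [Polynomial.map_sum]

/-- The polynomials over `ZMod p` used in the independence statement. -/
noncomputable def F (p : ℕ) (i : Fin ((p - 1) / 2)) : (ZMod p)[X] := cyc (ZMod p) i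

/-- The integral version of the polynomial appearing in the independence statement. -/
noncomputable def logSum (k : ℕ) (e : Fin k → ℤ) : ℤ[X] :=
  ∑ i, C (e i) * derivative (cyc ℤ i) * ∏ j ∈ univ.erase i, cyc ℤ j

theorem logSum_map (p k : ℕ) (e : Fin k → ℤ) :
    (logSum k e).map (Int.castRingHom (ZMod p)) =
      ∑ i, C ((e i : ℤ) : ZMod p) * derivative (cyc (ZMod p) i) *
        ∏ j ∈ univ.erase i, cyc (ZMod p) j := by
  simp [logSum, Polynomial.map_sum, Polynomial.map_mul, Polynomial.map_prod, cyc_map,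
    ← Polynomial.derivative_map]

/-- Reduction of the independence statement over `ZMod p` to a divisibility statement about
the integer coefficients. -/
theorem indep_of_int (p k : ℕ) [NeZero p]
    (H : ∀ e : Fin k → ℤ, (∀ m < p - 2, (p : ℤ) ∣ (logSum k e).coeff m) → ∀ i, (p : ℤ) ∣ e i)
    (e : Fin k → ZMod p)
    (h : (X : (ZMod p)[X]) ^ (p - 2) ∣ ∑ i, C (e i) * derivative (cyc (ZMod p) i) *
        ∏ j ∈ univ.erase i, cyc (ZMod p) j) : e = 0 := by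
  set e' : Fin k → ℤ := fun i => ((e i).val : ℤ) with he'
  have hcast : ∀ i, ((e' i : ℤ) : ZMod p) = e i := fun i => by simp [he']
  have h' : (X : (ZMod p)[X]) ^ (p - 2) ∣ (logSum k e').map (Int.castRingHom (ZMod p)) := by
    rw [logSum_map]
    simpa only [hcast] using h
  rw [Polynomial.X_pow_dvd_iff] at h'
  have h2 : ∀ m < p - 2, (p : ℤ) ∣ (logSum k e').coeff m := by
    intro m hm
    have := h' m hm
    rw [Polynomial.coeff_map] at this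
    exact (ZMod.intCast_zmod_eq_zero_iff_dvd _ p).mp this
  funext i
  have := H e' h2 i
  rw [← hcast i]
  exact (ZMod.intCast_zmod_eq_zero_iff_dvd _ p).mpr this

/-! ### Explicit expansions over `ℤ` -/

theorem cycZ_0 : cyc ℤ 0 = 1 + X := by simp [cyc]

theorem cycZ_1 : cyc ℤ 1 = 2 + 1 * X := by
  simp [cyc, Finset.sum_range_succ]; ring

theorem cycZ_2 : cyc ℤ 2 = 3 + 3 * X + 1 * X ^ 2 := by
  simp [cyc, Finset.sum_range_succ]; ring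

theorem cycZ_3 : cyc ℤ 3 = 4 + 6 * X + 4 * X ^ 2 + 1 * X ^ 3 := by
  simp [cyc, Finset.sum_range_succ]; ring

theorem cycZ_4 : cyc ℤ 4 = 5 + 10 * X + 10 * X ^ 2 + 5 * X ^ 3 + 1 * X ^ 4 := by
  simp [cyc, Finset.sum_range_succ]; ring

theorem cycZ_5 : cyc ℤ 5 = 6 + 15 * X + 20 * X ^ 2 + 15 * X ^ 3 + 6 * X ^ 4 + 1 * X ^ 5 := by
  simp [cyc, Finset.sum_range_succ]; ring

theorem dcycZ_0 : derivative (cyc ℤ 0) = 1 := by
  rw [cycZ_0]; simp <;> ring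

theorem dcycZ_1 : derivative (cyc ℤ 1) = 1 := by
  rw [cycZ_1]; simp <;> ring

theorem dcycZ_2 : derivative (cyc ℤ 2) = 3 + 2 * X := by
  rw [cycZ_2]; simp <;> ring

theorem dcycZ_3 : derivative (cyc ℤ 3) = 6 + 8 * X + 3 * X ^ 2 := by
  rw [cycZ_3]; simp <;> ring

theorem dcycZ_4 : derivative (cyc ℤ 4) = 10 + 20 * X + 15 * X ^ 2 + 4 * X ^ 3 := by
  rw [cycZ_4]; simp <;> ring

theorem dcycZ_5 : derivative (cyc ℤ 5) = 15 + 40 * X + 45 * X ^ 2 + 24 * X ^ 3 + 5 * X ^ 4 := by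
  rw [cycZ_5]; simp <;> ring

/-! ### The prime `5` -/

theorem prodErase_2 {M : Type*} [CommMonoid M] (f : Fin 2 → M) :
    (∏ j ∈ univ.erase 0, f j = f 1) ∧
    (∏ j ∈ univ.erase 1, f j = f 0) := by
  refine ⟨?_, ?_⟩
  · rw [show (univ : Finset (Fin 2)).erase 0 = {1} from by decide]; simp
  · rw [show (univ : Finset (Fin 2)).erase 1 = {0} from by decide]; simp

theorem logSum_2 (e : Fin 2 → ℤ) : logSum 2 e =
      C (e 0) * (2 + 1 * X) +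
      C (e 1) * (1 + 1 * X) := by
  unfold logSum
  rw [Fin.sum_univ_two]
  obtain ⟨h0, h1⟩ := prodErase_2 (fun j : Fin 2 => cyc ℤ j)
  rw [h0, h1]
  simp only [(show (((0 : Fin 2) : ℕ)) = 0 from rfl), (show (((1 : Fin 2) : ℕ)) = 1 from rfl),
    dcycZ_0, dcycZ_1]
  simp only [cycZ_0, cycZ_1]
  ring

theorem coeff_logSum_2 (e : Fin 2 → ℤ) :
    (logSum 2 e).coeff 0 = e 0 * 2 + e 1 * 1 ∧
    (logSum 2 e).coeff 1 = e 0 * 1 + e 1 * 1 := by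
  rw [logSum_2]
  refine ⟨?_, ?_⟩ <;>
  simp [coeff_X, coeff_X_pow, coeff_one]

theorem indepInt_5 (e : Fin 2 → ℤ) (h : ∀ m < 5 - 2, ((5 : ℕ) : ℤ) ∣ (logSum 2 e).coeff m)
    (i : Fin 2) : ((5 : ℕ) : ℤ) ∣ e i := by
  obtain ⟨c0, c1⟩ := coeff_logSum_2 e
  have h0 := h 0 (by norm_num)
  rw [c0] at h0
  have h1 := h 1 (by norm_num)
  rw [c1] at h1
  simp only [Nat.cast_ofNat] at *
  obtain ⟨t0, ht0⟩ := h0
  obtain ⟨t1, ht1⟩ := h1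
  fin_cases i <;> simp only [Fin.isValue, Fin.zero_eta, Fin.mk_one, Fin.reduceFinMk]
  · exact ⟨1 * t0 + 4 * t1 - (1 * e 0 + 1 * e 1), by linear_combination 1 * ht0 + 4 * ht1⟩
  · exact ⟨4 * t0 + 2 * t1 - (2 * e 0 + 1 * e 1), by linear_combination 4 * ht0 + 2 * ht1⟩

/-- Independence of the logarithmic derivatives for `p = 5`. -/
theorem indep_5 (e : Fin ((5 - 1) / 2) → ZMod 5)
    (h : (X : (ZMod 5)[X]) ^ (5 - 2) ∣ ∑ i, C (e i) * derivative (F 5 i) *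
        ∏ j ∈ univ.erase i, F 5 j) : e = 0 :=
  indep_of_int 5 2 indepInt_5 e h

/-! ### The prime `7` -/

theorem prodErase_3 {M : Type*} [CommMonoid M] (f : Fin 3 → M) :
    (∏ j ∈ univ.erase 0, f j = f 1 * f 2) ∧
    (∏ j ∈ univ.erase 1, f j = f 0 * f 2) ∧
    (∏ j ∈ univ.erase 2, f j = f 0 * f 1) := by
  refine ⟨?_, ?_, ?_⟩
  · rw [show (univ : Finset (Fin 3)).erase 0 = {1, 2} from by decide]; simp
  · rw [show (univ : Finset (Fin 3)).erase 1 = {0, 2} from by decide]; simp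
  · rw [show (univ : Finset (Fin 3)).erase 2 = {0, 1} from by decide]; simp

theorem logSum_3 (e : Fin 3 → ℤ) : logSum 3 e =
      C (e 0) * (6 + 9 * X + 5 * X ^ 2 + 1 * X ^ 3) +
      C (e 1) * (3 + 6 * X + 4 * X ^ 2 + 1 * X ^ 3) +
      C (e 2) * (6 + 13 * X + 9 * X ^ 2 + 2 * X ^ 3) := by
  unfold logSum
  rw [Fin.sum_univ_three]
  obtain ⟨h0, h1, h2⟩ := prodErase_3 (fun j : Fin 3 => cyc ℤ j)
  rw [h0, h1, h2]
  simp only [(show (((0 : Fin 3) : ℕ)) = 0 from rfl), (show (((1 : Fin 3) : ℕ)) = 1 from rfl), (show (((2 : Fin 3) : ℕ)) = 2 from rfl),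
    dcycZ_0, dcycZ_1, dcycZ_2]
  simp only [cycZ_0, cycZ_1, cycZ_2]
  ring

theorem coeff_logSum_3 (e : Fin 3 → ℤ) :
    (logSum 3 e).coeff 0 = e 0 * 6 + e 1 * 3 + e 2 * 6 ∧
    (logSum 3 e).coeff 1 = e 0 * 9 + e 1 * 6 + e 2 * 13 ∧
    (logSum 3 e).coeff 3 = e 0 * 1 + e 1 * 1 + e 2 * 2 := by
  rw [logSum_3]
  refine ⟨?_, ?_, ?_⟩ <;>
  simp [coeff_X, coeff_X_pow, coeff_one]

theorem indepInt_7 (e : Fin 3 → ℤ) (h : ∀ m < 7 - 2, ((7 : ℕ) : ℤ) ∣ (logSum 3 e).coeff m)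
    (i : Fin 3) : ((7 : ℕ) : ℤ) ∣ e i := by
  obtain ⟨c0, c1, c3⟩ := coeff_logSum_3 e
  have h0 := h 0 (by norm_num)
  rw [c0] at h0
  have h1 := h 1 (by norm_num)
  rw [c1] at h1
  have h3 := h 3 (by norm_num)
  rw [c3] at h3
  simp only [Nat.cast_ofNat] at *
  obtain ⟨t0, ht0⟩ := h0
  obtain ⟨t1, ht1⟩ := h1
  obtain ⟨t3, ht3⟩ := h3
  fin_cases i <;> simp only [Fin.isValue, Fin.zero_eta, Fin.mk_one, Fin.reduceFinMk]
  · exact ⟨5 * t0 + 0 * t1 + 6 * t3 - (5 * e 0 + 3 * e 1 + 6 * e 2), by linear_combination 5 * ht0 + 0 * ht1 + 6 * ht3⟩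
  · exact ⟨4 * t0 + 5 * t1 + 1 * t3 - (10 * e 0 + 6 * e 1 + 13 * e 2), by linear_combination 4 * ht0 + 5 * ht1 + 1 * ht3⟩
  · exact ⟨6 * t0 + 1 * t1 + 4 * t3 - (7 * e 0 + 4 * e 1 + 8 * e 2), by linear_combination 6 * ht0 + 1 * ht1 + 4 * ht3⟩

/-- Independence of the logarithmic derivatives for `p = 7`. -/
theorem indep_7 (e : Fin ((7 - 1) / 2) → ZMod 7)
    (h : (X : (ZMod 7)[X]) ^ (7 - 2) ∣ ∑ i, C (e i) * derivative (F 7 i) *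
        ∏ j ∈ univ.erase i, F 7 j) : e = 0 :=
  indep_of_int 7 3 indepInt_7 e h

/-! ### The prime `11` -/

theorem prodErase_5 {M : Type*} [CommMonoid M] (f : Fin 5 → M) :
    (∏ j ∈ univ.erase 0, f j = f 1 * (f 2 * (f 3 * f 4))) ∧
    (∏ j ∈ univ.erase 1, f j = f 0 * (f 2 * (f 3 * f 4))) ∧
    (∏ j ∈ univ.erase 2, f j = f 0 * (f 1 * (f 3 * f 4))) ∧
    (∏ j ∈ univ.erase 3, f j = f 0 * (f 1 * (f 2 * f 4))) ∧
    (∏ j ∈ univ.erase 4, f j = f 0 * (f 1 * (f 2 * f 3))) := by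
  refine ⟨?_, ?_, ?_, ?_, ?_⟩
  · rw [show (univ : Finset (Fin 5)).erase 0 = {1, 2, 3, 4} from by decide]; simp
  · rw [show (univ : Finset (Fin 5)).erase 1 = {0, 2, 3, 4} from by decide]; simp
  · rw [show (univ : Finset (Fin 5)).erase 2 = {0, 1, 3, 4} from by decide]; simp
  · rw [show (univ : Finset (Fin 5)).erase 3 = {0, 1, 2, 4} from by decide]; simp
  · rw [show (univ : Finset (Fin 5)).erase 4 = {0, 1, 2, 3} from by decide]; simp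

theorem logSum_5 (e : Fin 5 → ℤ) : logSum 5 e =
      C (e 0) * (120 + 600 * X + 1450 * X ^ 2 + 2200 * X ^ 3 + 2299 * X ^ 4 + 1717 * X ^ 5 + 923 * X ^ 6 + 351 * X ^ 7 + 90 * X ^ 8 + 14 * X ^ 9 + 1 * X ^ 10) +
      C (e 1) * (60 + 330 * X + 860 * X ^ 2 + 1395 * X ^ 3 + 1552 * X ^ 4 + 1232 * X ^ 5 + 704 * X ^ 6 + 285 * X ^ 7 + 78 * X ^ 8 + 13 * X ^ 9 + 1 * X ^ 10) +
      C (e 2) * (120 + 680 * X + 1810 * X ^ 2 + 2980 * X ^ 3 + 3349 * X ^ 4 + 2673 * X ^ 5 + 1528 * X ^ 6 + 615 * X ^ 7 + 166 * X ^ 8 + 27 * X ^ 9 + 2 * X ^ 10) +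
      C (e 3) * (180 + 1050 * X + 2850 * X ^ 2 + 4745 * X ^ 3 + 5356 * X ^ 4 + 4268 * X ^ 5 + 2422 * X ^ 6 + 963 * X ^ 7 + 256 * X ^ 8 + 41 * X ^ 9 + 3 * X ^ 10) +
      C (e 4) * (240 + 1440 * X + 3980 * X ^ 2 + 6676 * X ^ 3 + 7524 * X ^ 4 + 5950 * X ^ 5 + 3341 * X ^ 6 + 1314 * X ^ 7 + 346 * X ^ 8 + 55 * X ^ 9 + 4 * X ^ 10) := by
  unfold logSum
  rw [Fin.sum_univ_five]
  obtain ⟨h0, h1, h2, h3, h4⟩ := prodErase_5 (fun j : Fin 5 => cyc ℤ j)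
  rw [h0, h1, h2, h3, h4]
  simp only [(show (((0 : Fin 5) : ℕ)) = 0 from rfl), (show (((1 : Fin 5) : ℕ)) = 1 from rfl), (show (((2 : Fin 5) : ℕ)) = 2 from rfl), (show (((3 : Fin 5) : ℕ)) = 3 from rfl), (show (((4 : Fin 5) : ℕ)) = 4 from rfl),
    dcycZ_0, dcycZ_1, dcycZ_2, dcycZ_3, dcycZ_4]
  simp only [cycZ_0, cycZ_1, cycZ_2, cycZ_3, cycZ_4]
  ring

theorem coeff_logSum_5 (e : Fin 5 → ℤ) :
    (logSum 5 e).coeff 0 = e 0 * 120 + e 1 * 60 + e 2 * 120 + e 3 * 180 + e 4 * 240 ∧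
    (logSum 5 e).coeff 1 = e 0 * 600 + e 1 * 330 + e 2 * 680 + e 3 * 1050 + e 4 * 1440 ∧
    (logSum 5 e).coeff 3 = e 0 * 2200 + e 1 * 1395 + e 2 * 2980 + e 3 * 4745 + e 4 * 6676 ∧
    (logSum 5 e).coeff 5 = e 0 * 1717 + e 1 * 1232 + e 2 * 2673 + e 3 * 4268 + e 4 * 5950 ∧
    (logSum 5 e).coeff 7 = e 0 * 351 + e 1 * 285 + e 2 * 615 + e 3 * 963 + e 4 * 1314 := by
  rw [logSum_5]
  refine ⟨?_, ?_, ?_, ?_, ?_⟩ <;>
  simp [coeff_X, coeff_X_pow, coeff_one]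

theorem indepInt_11 (e : Fin 5 → ℤ) (h : ∀ m < 11 - 2, ((11 : ℕ) : ℤ) ∣ (logSum 5 e).coeff m)
    (i : Fin 5) : ((11 : ℕ) : ℤ) ∣ e i := by
  obtain ⟨c0, c1, c3, c5, c7⟩ := coeff_logSum_5 e
  have h0 := h 0 (by norm_num)
  rw [c0] at h0
  have h1 := h 1 (by norm_num)
  rw [c1] at h1
  have h3 := h 3 (by norm_num)
  rw [c3] at h3
  have h5 := h 5 (by norm_num)
  rw [c5] at h5
  have h7 := h 7 (by norm_num)
  rw [c7] at h7
  simp only [Nat.cast_ofNat] at *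
  obtain ⟨t0, ht0⟩ := h0
  obtain ⟨t1, ht1⟩ := h1
  obtain ⟨t3, ht3⟩ := h3
  obtain ⟨t5, ht5⟩ := h5
  obtain ⟨t7, ht7⟩ := h7
  fin_cases i <;> simp only [Fin.isValue, Fin.zero_eta, Fin.mk_one, Fin.reduceFinMk]
  · exact ⟨0 * t0 + 5 * t1 + 10 * t3 + 6 * t5 + 2 * t7 - (3273 * e 0 + 2142 * e 1 + 4588 * e 2 + 7294 * e 3 + 10208 * e 4), by linear_combination 0 * ht0 + 5 * ht1 + 10 * ht3 + 6 * ht5 + 2 * ht7⟩
  · exact ⟨8 * t0 + 3 * t1 + 9 * t3 + 0 * t5 + 10 * t7 - (2370 * e 0 + 1534 * e 1 + 3270 * e 2 + 5175 * e 3 + 7224 * e 4), by linear_combination 8 * ht0 + 3 * ht1 + 9 * ht3 + 0 * ht5 + 10 * ht7⟩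
  · exact ⟨1 * t0 + 10 * t1 + 5 * t3 + 2 * t5 + 6 * t7 - (2060 * e 0 + 1319 * e 1 + 2805 * e 2 + 4429 * e 3 + 6164 * e 4), by linear_combination 1 * ht0 + 10 * ht1 + 5 * ht3 + 2 * ht5 + 6 * ht7⟩
  · exact ⟨7 * t0 + 8 * t1 + 3 * t3 + 10 * t5 + 7 * t7 - (2897 * e 0 + 1960 * e 1 + 4205 * e 2 + 6665 * e 3 + 9266 * e 4), by linear_combination 7 * ht0 + 8 * ht1 + 3 * ht3 + 10 * ht5 + 7 * ht7⟩
  · exact ⟨0 * t0 + 5 * t1 + 10 * t3 + 5 * t5 + 2 * t7 - (3117 * e 0 + 2030 * e 1 + 4345 * e 2 + 6906 * e 3 + 9667 * e 4), by linear_combination 0 * ht0 + 5 * ht1 + 10 * ht3 + 5 * ht5 + 2 * ht7⟩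

/-- Independence of the logarithmic derivatives for `p = 11`. -/
theorem indep_11 (e : Fin ((11 - 1) / 2) → ZMod 11)
    (h : (X : (ZMod 11)[X]) ^ (11 - 2) ∣ ∑ i, C (e i) * derivative (F 11 i) *
        ∏ j ∈ univ.erase i, F 11 j) : e = 0 :=
  indep_of_int 11 5 indepInt_11 e h

/-! ### The prime `13` -/

theorem prodErase_6 {M : Type*} [CommMonoid M] (f : Fin 6 → M) :
    (∏ j ∈ univ.erase 0, f j = f 1 * (f 2 * (f 3 * (f 4 * f 5)))) ∧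
    (∏ j ∈ univ.erase 1, f j = f 0 * (f 2 * (f 3 * (f 4 * f 5)))) ∧
    (∏ j ∈ univ.erase 2, f j = f 0 * (f 1 * (f 3 * (f 4 * f 5)))) ∧
    (∏ j ∈ univ.erase 3, f j = f 0 * (f 1 * (f 2 * (f 4 * f 5)))) ∧
    (∏ j ∈ univ.erase 4, f j = f 0 * (f 1 * (f 2 * (f 3 * f 5)))) ∧
    (∏ j ∈ univ.erase 5, f j = f 0 * (f 1 * (f 2 * (f 3 * f 4)))) := by
  refine ⟨?_, ?_, ?_, ?_, ?_, ?_⟩
  · rw [show (univ : Finset (Fin 6)).erase 0 = {1, 2, 3, 4, 5} from by decide]; simp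
  · rw [show (univ : Finset (Fin 6)).erase 1 = {0, 2, 3, 4, 5} from by decide]; simp
  · rw [show (univ : Finset (Fin 6)).erase 2 = {0, 1, 3, 4, 5} from by decide]; simp
  · rw [show (univ : Finset (Fin 6)).erase 3 = {0, 1, 2, 4, 5} from by decide]; simp
  · rw [show (univ : Finset (Fin 6)).erase 4 = {0, 1, 2, 3, 5} from by decide]; simp
  · rw [show (univ : Finset (Fin 6)).erase 5 = {0, 1, 2, 3, 4} from by decide]; simp

theorem logSum_6 (e : Fin 6 → ℤ) : logSum 6 e =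
      C (e 0) * (720 + 5400 * X + 20100 * X ^ 2 + 48750 * X ^ 3 + 85514 * X ^ 4 + 114257 * X ^ 5 + 119573 * X ^ 6 + 99426 * X ^ 7 + 66014 * X ^ 8 + 34900 * X ^ 9 + 14536 * X ^ 10 + 4674 * X ^ 11 + 1121 * X ^ 12 + 189 * X ^ 13 + 20 * X ^ 14 + 1 * X ^ 15) +
      C (e 1) * (360 + 2880 * X + 11310 * X ^ 2 + 28770 * X ^ 3 + 52747 * X ^ 4 + 73512 * X ^ 5 + 80159 * X ^ 6 + 69420 * X ^ 7 + 48010 * X ^ 8 + 26452 * X ^ 9 + 11492 * X ^ 10 + 3859 * X ^ 11 + 968 * X ^ 12 + 171 * X ^ 13 + 19 * X ^ 14 + 1 * X ^ 15) +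
      C (e 2) * (720 + 5880 * X + 23460 * X ^ 2 + 60430 * X ^ 3 + 111914 * X ^ 4 + 157223 * X ^ 5 + 172483 * X ^ 6 + 149995 * X ^ 7 + 103950 * X ^ 8 + 57259 * X ^ 9 + 24803 * X ^ 10 + 8278 * X ^ 11 + 2056 * X ^ 12 + 358 * X ^ 13 + 39 * X ^ 14 + 2 * X ^ 15) +
      C (e 3) * (1080 + 9000 * X + 36450 * X ^ 2 + 94920 * X ^ 3 + 177141 * X ^ 4 + 250078 * X ^ 5 + 274997 * X ^ 6 + 239128 * X ^ 7 + 165322 * X ^ 8 + 90640 * X ^ 9 + 38998 * X ^ 10 + 12905 * X ^ 11 + 3174 * X ^ 12 + 547 * X ^ 13 + 59 * X ^ 14 + 3 * X ^ 15) +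
      C (e 4) * (1440 + 12240 * X + 50280 * X ^ 2 + 132156 * X ^ 3 + 247924 * X ^ 4 + 350660 * X ^ 5 + 385236 * X ^ 6 + 333895 * X ^ 7 + 229676 * X ^ 8 + 125139 * X ^ 9 + 53475 * X ^ 10 + 17575 * X ^ 11 + 4295 * X ^ 12 + 736 * X ^ 13 + 79 * X ^ 14 + 4 * X ^ 15) +
      C (e 5) * (1800 + 15600 * X + 64950 * X ^ 2 + 172030 * X ^ 3 + 323615 * X ^ 4 + 457250 * X ^ 5 + 500545 * X ^ 6 + 431656 * X ^ 7 + 295254 * X ^ 8 + 159970 * X ^ 9 + 68006 * X ^ 10 + 22249 * X ^ 11 + 5416 * X ^ 12 + 925 * X ^ 13 + 99 * X ^ 14 + 5 * X ^ 15) := by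
  unfold logSum
  rw [Fin.sum_univ_six]
  obtain ⟨h0, h1, h2, h3, h4, h5⟩ := prodErase_6 (fun j : Fin 6 => cyc ℤ j)
  rw [h0, h1, h2, h3, h4, h5]
  simp only [(show (((0 : Fin 6) : ℕ)) = 0 from rfl), (show (((1 : Fin 6) : ℕ)) = 1 from rfl), (show (((2 : Fin 6) : ℕ)) = 2 from rfl), (show (((3 : Fin 6) : ℕ)) = 3 from rfl), (show (((4 : Fin 6) : ℕ)) = 4 from rfl), (show (((5 : Fin 6) : ℕ)) = 5 from rfl),
    dcycZ_0, dcycZ_1, dcycZ_2, dcycZ_3, dcycZ_4, dcycZ_5]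
  simp only [cycZ_0, cycZ_1, cycZ_2, cycZ_3, cycZ_4, cycZ_5]
  ring

theorem coeff_logSum_6 (e : Fin 6 → ℤ) :
    (logSum 6 e).coeff 0 = e 0 * 720 + e 1 * 360 + e 2 * 720 + e 3 * 1080 + e 4 * 1440 + e 5 * 1800 ∧
    (logSum 6 e).coeff 1 = e 0 * 5400 + e 1 * 2880 + e 2 * 5880 + e 3 * 9000 + e 4 * 12240 + e 5 * 15600 ∧
    (logSum 6 e).coeff 3 = e 0 * 48750 + e 1 * 28770 + e 2 * 60430 + e 3 * 94920 + e 4 * 132156 + e 5 * 172030 ∧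
    (logSum 6 e).coeff 5 = e 0 * 114257 + e 1 * 73512 + e 2 * 157223 + e 3 * 250078 + e 4 * 350660 + e 5 * 457250 ∧
    (logSum 6 e).coeff 7 = e 0 * 99426 + e 1 * 69420 + e 2 * 149995 + e 3 * 239128 + e 4 * 333895 + e 5 * 431656 ∧
    (logSum 6 e).coeff 9 = e 0 * 34900 + e 1 * 26452 + e 2 * 57259 + e 3 * 90640 + e 4 * 125139 + e 5 * 159970 := by
  rw [logSum_6]
  refine ⟨?_, ?_, ?_, ?_, ?_, ?_⟩ <;>
  simp [coeff_X, coeff_X_pow, coeff_one]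

theorem indepInt_13 (e : Fin 6 → ℤ) (h : ∀ m < 13 - 2, ((13 : ℕ) : ℤ) ∣ (logSum 6 e).coeff m)
    (i : Fin 6) : ((13 : ℕ) : ℤ) ∣ e i := by
  obtain ⟨c0, c1, c3, c5, c7, c9⟩ := coeff_logSum_6 e
  have h0 := h 0 (by norm_num)
  rw [c0] at h0
  have h1 := h 1 (by norm_num)
  rw [c1] at h1
  have h3 := h 3 (by norm_num)
  rw [c3] at h3
  have h5 := h 5 (by norm_num)
  rw [c5] at h5
  have h7 := h 7 (by norm_num)
  rw [c7] at h7
  have h9 := h 9 (by norm_num)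
  rw [c9] at h9
  simp only [Nat.cast_ofNat] at *
  obtain ⟨t0, ht0⟩ := h0
  obtain ⟨t1, ht1⟩ := h1
  obtain ⟨t3, ht3⟩ := h3
  obtain ⟨t5, ht5⟩ := h5
  obtain ⟨t7, ht7⟩ := h7
  obtain ⟨t9, ht9⟩ := h9
  fin_cases i <;> simp only [Fin.isValue, Fin.zero_eta, Fin.mk_one, Fin.reduceFinMk]
  · exact ⟨10 * t0 + 6 * t1 + 10 * t3 + 11 * t5 + 8 * t7 + 6 * t9 - (214518 * e 0 + 140868 * e 1 + 301519 * e 2 + 478594 * e 3 + 668358 * e 4 + 867286 * e 5), by linear_combination 10 * ht0 + 6 * ht1 + 10 * ht3 + 11 * ht5 + 8 * ht7 + 6 * ht9⟩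
  · exact ⟨12 * t0 + 1 * t1 + 5 * t3 + 9 * t5 + 3 * t7 + 9 * t9 - (146037 * e 0 + 96845 * e 1 + 207461 * e 2 + 329262 * e 3 + 459552 * e 4 + 595946 * e 5), by linear_combination 12 * ht0 + 1 * ht1 + 5 * ht3 + 9 * ht5 + 3 * ht7 + 9 * ht9⟩
  · exact ⟨12 * t0 + 10 * t1 + 5 * t3 + 5 * t5 + 7 * t7 + 4 * t9 - (131789 * e 0 + 87406 * e 1 + 187285 * e 2 + 297262 * e 3 + 414737 * e 4 + 537344 * e 5), by linear_combination 12 * ht0 + 10 * ht1 + 5 * ht3 + 5 * ht5 + 7 * ht7 + 4 * ht9⟩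
  · exact ⟨10 * t0 + 5 * t1 + 6 * t3 + 12 * t5 + 7 * t7 + 10 * t9 - (210982 * e 0 + 140248 * e 1 + 300647 * e 2 + 477427 * e 3 + 666547 * e 4 + 864344 * e 5), by linear_combination 10 * ht0 + 5 * ht1 + 6 * ht3 + 12 * ht5 + 7 * ht7 + 10 * ht9⟩
  · exact ⟨11 * t0 + 3 * t1 + 2 * t3 + 5 * t5 + 0 * t7 + 1 * t9 - (55985 * e 0 + 35704 * e 1 + 76138 * e 2 + 120750 * e 3 + 168870 * e 4 + 219760 * e 5), by linear_combination 11 * ht0 + 3 * ht1 + 2 * ht3 + 5 * ht5 + 0 * ht7 + 1 * ht9⟩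
  · exact ⟨11 * t0 + 1 * t1 + 6 * t3 + 4 * t5 + 10 * t7 + 3 * t9 - (143216 * e 0 + 95928 * e 1 + 205923 * e 2 + 327224 * e 3 + 456771 * e 4 + 591773 * e 5), by linear_combination 11 * ht0 + 1 * ht1 + 6 * ht3 + 4 * ht5 + 10 * ht7 + 3 * ht9⟩

/-- Independence of the logarithmic derivatives for `p = 13`. -/
theorem indep_13 (e : Fin ((13 - 1) / 2) → ZMod 13)
    (h : (X : (ZMod 13)[X]) ^ (13 - 2) ∣ ∑ i, C (e i) * derivative (F 13 i) *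
        ∏ j ∈ univ.erase i, F 13 j) : e = 0 :=
  indep_of_int 13 6 indepInt_13 e h

/-- **Independence of the logarithmic derivatives of the cyclotomic units** for
`p = 5, 7, 11, 13`. -/
theorem indep (p : ℕ) (hp : p = 5 ∨ p = 7 ∨ p = 11 ∨ p = 13) (e : Fin ((p - 1) / 2) → ZMod p)
    (h : (X : (ZMod p)[X]) ^ (p - 2) ∣ ∑ i, C (e i) * derivative (F p i) *
        ∏ j ∈ univ.erase i, F p j) : e = 0 := by
  rcases hp with rfl | rfl | rfl | rfl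
  · exact indep_5 e h
  · exact indep_7 e h
  · exact indep_11 e h
  · exact indep_13 e h

end Fermat.Agent.Kummer.K3C
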