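import Fermat.Agent.Kummer.Defs

/-!
# Project K (Kummer), package K3a: the logarithmic derivative modulo `p`

Owner: helper2.  Generic in the odd prime `p`.

`BR p = 𝔽_p[X] / (X ^ (p - 2))`, `tB` the class of `X`.  There is a ring homomorphism
`psi : 𝓞 K → (BR p)[ε]` (dual numbers) sending `ζ` to `(1 + tB) + ε`; its first component
`phi` is a ring homomorphism and its second component `dlt` is a derivation along `phi`.
The logarithmic derivative `LD u = dlt u * phi u⁻¹` is a group homomorphism from the units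
to `(BR p, +)` which kills `p`-th powers and units congruent to a rational integer mod `p`.
-/

set_option autoImplicit false
set_option linter.unusedSectionVars false

namespace Fermat.Agent.Kummer.K3

open Polynomial NumberField TrivSqZeroExt

section ring

variable (p : ℕ) [hp : Fact p.Prime]

/-- `B = 𝔽_p[X] / (X ^ (p - 2))`. -/
abbrev BR : Type := (ZMod p)[X] ⧸ Ideal.span {(X : (ZMod p)[X]) ^ (p - 2)}

/-- The class of `X` in `BR p`. -/
noncomputable def tB : BR p := Ideal.Quotient.mk _ X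

theorem tB_pow : (tB p) ^ (p - 2) = 0 := by
  rw [tB, ← map_pow]
  exact Ideal.Quotient.eq_zero_iff_mem.2 (Ideal.mem_span_singleton_self _)

/-- The image of `ζ` in the dual numbers over `BR p`. -/
noncomputable def yB : DualNumber (BR p) := inl (1 + tB p) + inr 1

theorem fst_yB : (yB p).fst = 1 + tB p := by simp [yB]

theorem snd_yB : (yB p).snd = 1 := by simp [yB]

theorem yB_sub_one_pow (hp2 : p ≠ 2) : (yB p - 1) ^ (p - 1) = 0 := by
  have h3 : 3 ≤ p := by
    have := hp.out.two_le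
    omega
  have h : yB p - 1 = inl (tB p) + inr 1 := by
    ext <;> simp [yB]
  rw [h]
  ext
  · rw [fst_pow]
    simp only [fst_add, fst_inl, fst_inr, add_zero, fst_zero]
    have : p - 1 = (p - 2) + 1 := by omega
    rw [this, pow_succ, tB_pow, zero_mul]
  · rw [snd_pow]
    simp only [fst_add, fst_inl, fst_inr, add_zero, snd_zero]
    have : (p - 1).pred = p - 2 := by
      simp only [Nat.pred_eq_sub_one]; omega
    rw [this, tB_pow]
    simp

theorem cyclotomic_zmod_eq : cyclotomic p (ZMod p) = (X - 1) ^ (p - 1) := by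
  have h := cyclotomic_mul_prime_eq_pow_of_not_dvd (ZMod p) (p := p) (n := 1)
    (by simpa using hp.out.one_lt.ne')
  rwa [one_mul, cyclotomic_one] at h

theorem aeval_yB_cyclotomic (hp2 : p ≠ 2) : aeval (yB p) (cyclotomic p ℤ) = 0 := by
  rw [← aeval_map_algebraMap (ZMod p) (yB p) (cyclotomic p ℤ), map_cyclotomic,
    cyclotomic_zmod_eq]
  simp only [map_pow, map_sub, aeval_X, map_one]
  exact yB_sub_one_pow p hp2

/-- Evaluation of an integer polynomial at a dual number. -/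
theorem aeval_dual {B : Type*} [CommRing B] (a b : B) (f : ℤ[X]) :
    aeval (inl a + inr b : DualNumber B) f =
      inl (aeval a f) + inr (b * aeval a (derivative f)) := by
  induction f using Polynomial.induction_on' with
  | add f g hf hg =>
    rw [map_add, hf, hg, derivative_add, map_add, map_add, mul_add, inl_add, inr_add]
    abel
  | monomial n c =>
    rw [aeval_monomial, derivative_monomial, aeval_monomial]
    ext
    · simp [fst_pow]
    · simp only [snd_mul, fst_pow, snd_pow, fst_add, fst_inl, fst_inr, snd_add, snd_inl, snd_inr,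
        add_zero, zero_add, smul_eq_mul, MulOpposite.smul_eq_mul_unop, MulOpposite.unop_op,
        Nat.pred_eq_sub_one, nsmul_eq_mul, eq_intCast]
      simp
      ring

/-- The reduction modulo `p` of `f (1 + X)`. -/
noncomputable def shiftPoly (f : ℤ[X]) : (ZMod p)[X] :=
  (f.map (Int.castRingHom (ZMod p))).comp (1 + X)

theorem aeval_one_add_tB (f : ℤ[X]) :
    aeval (1 + tB p) f = Ideal.Quotient.mk _ (shiftPoly p f) := by
  rw [shiftPoly, comp, hom_eval₂, eval₂_map, aeval_def]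
  congr 1

theorem derivative_shiftPoly (f : ℤ[X]) :
    derivative (shiftPoly p f) = shiftPoly p (derivative f) := by
  rw [shiftPoly, derivative_comp, shiftPoly, derivative_map]
  simp

end ring

section hom

variable {p : ℕ} [hp : Fact p.Prime] {K : Type*} [Field K] [NumberField K]
  [IsCyclotomicExtension {p} ℚ K] {ζ : K} (hζ : IsPrimitiveRoot ζ p)

theorem minpoly_toInteger : minpoly ℤ hζ.toInteger = cyclotomic p ℤ := by
  rw [← RingOfIntegers.minpoly_coe]
  exact (cyclotomic_eq_minpoly hζ hp.out.pos).symm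

/-- The ring homomorphism `𝓞 K → (BR p)[ε]` sending `ζ` to `(1 + tB) + ε`. -/
noncomputable def psi (hp2 : p ≠ 2) : 𝓞 K →ₐ[ℤ] DualNumber (BR p) :=
  hζ.integralPowerBasis.lift (yB p) (by
    rw [hζ.integralPowerBasis_gen, minpoly_toInteger hζ]
    exact aeval_yB_cyclotomic p hp2)

theorem psi_zeta (hp2 : p ≠ 2) : psi hζ hp2 hζ.toInteger = yB p :=
  calc psi hζ hp2 hζ.toInteger = psi hζ hp2 hζ.integralPowerBasis.gen := by
        rw [hζ.integralPowerBasis_gen]
    _ = yB p := PowerBasis.lift_gen _ _ _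

/-- First component of `psi`: a ring homomorphism `𝓞 K → BR p` with `ζ ↦ 1 + tB`. -/
noncomputable def phi (hp2 : p ≠ 2) : 𝓞 K →ₐ[ℤ] BR p :=
  (TrivSqZeroExt.fstHom ℤ (BR p) (BR p)).comp (psi hζ hp2)

/-- Second component of `psi`: a derivation along `phi`. -/
noncomputable def dlt (hp2 : p ≠ 2) (x : 𝓞 K) : BR p := (psi hζ hp2 x).snd

theorem phi_apply (hp2 : p ≠ 2) (x : 𝓞 K) : phi hζ hp2 x = (psi hζ hp2 x).fst := rfl

theorem dlt_mul (hp2 : p ≠ 2) (x y : 𝓞 K) :
    dlt hζ hp2 (x * y) = phi hζ hp2 x * dlt hζ hp2 y + phi hζ hp2 y * dlt hζ hp2 x := by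
  simp only [dlt, phi_apply, map_mul, snd_mul, smul_eq_mul, MulOpposite.smul_eq_mul_unop,
    MulOpposite.unop_op]
  ring

theorem dlt_one (hp2 : p ≠ 2) : dlt hζ hp2 1 = 0 := by
  simp [dlt]

theorem dlt_add (hp2 : p ≠ 2) (x y : 𝓞 K) :
    dlt hζ hp2 (x + y) = dlt hζ hp2 x + dlt hζ hp2 y := by
  simp [dlt]

theorem dlt_intCast (hp2 : p ≠ 2) (n : ℤ) : dlt hζ hp2 (n : 𝓞 K) = 0 := by
  simp [dlt]

theorem phi_zeta (hp2 : p ≠ 2) : phi hζ hp2 hζ.toInteger = 1 + tB p := by
  rw [phi_apply, psi_zeta, fst_yB]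

theorem dlt_zeta (hp2 : p ≠ 2) : dlt hζ hp2 hζ.toInteger = 1 := by
  rw [dlt, psi_zeta, snd_yB]

theorem psi_natCast_self (hp2 : p ≠ 2) : psi hζ hp2 (p : 𝓞 K) = 0 := by
  rw [map_natCast]
  have h := map_natCast (algebraMap (ZMod p) (DualNumber (BR p))) p
  rw [ZMod.natCast_self, map_zero] at h
  exact h.symm

theorem psi_aeval (hp2 : p ≠ 2) (f : ℤ[X]) :
    psi hζ hp2 (aeval hζ.toInteger f) =
      inl (aeval (1 + tB p) f) + inr (aeval (1 + tB p) (derivative f)) := by
  rw [← aeval_algHom_apply, psi_zeta, yB]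
  exact (aeval_dual (1 + tB p) 1 f).trans (by rw [one_mul]; rfl)

theorem phi_aeval (hp2 : p ≠ 2) (f : ℤ[X]) :
    phi hζ hp2 (aeval hζ.toInteger f) = Ideal.Quotient.mk _ (shiftPoly p f) := by
  rw [phi_apply, psi_aeval, ← aeval_one_add_tB]
  simp

theorem dlt_aeval (hp2 : p ≠ 2) (f : ℤ[X]) :
    dlt hζ hp2 (aeval hζ.toInteger f) = Ideal.Quotient.mk _ (derivative (shiftPoly p f)) := by
  rw [dlt, psi_aeval, derivative_shiftPoly, ← aeval_one_add_tB]
  simp

theorem phi_unit_mul_inv (hp2 : p ≠ 2) (u : (𝓞 K)ˣ) :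
    phi hζ hp2 (u : 𝓞 K) * phi hζ hp2 ((u⁻¹ : (𝓞 K)ˣ) : 𝓞 K) = 1 := by
  rw [← map_mul, ← Units.val_mul, mul_inv_cancel, Units.val_one, map_one]

/-- The logarithmic derivative modulo `p`, as a group homomorphism. -/
noncomputable def LD (hp2 : p ≠ 2) : (𝓞 K)ˣ →* Multiplicative (BR p) where
  toFun u := Multiplicative.ofAdd (dlt hζ hp2 (u : 𝓞 K) * phi hζ hp2 ((u⁻¹ : (𝓞 K)ˣ) : 𝓞 K))
  map_one' := by
    simp [dlt_one]
  map_mul' u v := by
    rw [← ofAdd_add]
    congr 1
    have hu := phi_unit_mul_inv hζ hp2 u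
    have hv := phi_unit_mul_inv hζ hp2 v
    rw [Units.val_mul, dlt_mul, mul_inv, Units.val_mul, map_mul]
    linear_combination (dlt hζ hp2 ↑v * phi hζ hp2 ↑v⁻¹) * hu +
      (dlt hζ hp2 ↑u * phi hζ hp2 ↑u⁻¹) * hv

theorem LD_apply (hp2 : p ≠ 2) (u : (𝓞 K)ˣ) :
    Multiplicative.toAdd (LD hζ hp2 u) =
      dlt hζ hp2 (u : 𝓞 K) * phi hζ hp2 ((u⁻¹ : (𝓞 K)ˣ) : 𝓞 K) := rfl

/-- `phi u * LD u = dlt u`. -/
theorem phi_mul_LD (hp2 : p ≠ 2) (u : (𝓞 K)ˣ) :
    phi hζ hp2 (u : 𝓞 K) * Multiplicative.toAdd (LD hζ hp2 u) = dlt hζ hp2 (u : 𝓞 K) := by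
  rw [LD_apply]
  linear_combination (dlt hζ hp2 ↑u) * phi_unit_mul_inv hζ hp2 u

/-- `LD` kills `p`-th powers. -/
theorem LD_pow_prime (hp2 : p ≠ 2) (v : (𝓞 K)ˣ) : LD hζ hp2 (v ^ p) = 1 := by
  rw [map_pow]
  apply Multiplicative.toAdd.injective
  rw [toAdd_pow, toAdd_one, nsmul_eq_mul]
  have h := map_natCast (algebraMap (ZMod p) (BR p)) p
  rw [ZMod.natCast_self, map_zero] at h
  rw [← h, zero_mul]

/-- `LD` kills the units that are congruent to a rational integer modulo `p`. -/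
theorem LD_eq_one_of_congr (hp2 : p ≠ 2) (u : (𝓞 K)ˣ)
    (h : ∃ n : ℤ, (p : 𝓞 K) ∣ (u : 𝓞 K) - n) : LD hζ hp2 u = 1 := by
  obtain ⟨n, w, hw⟩ := h
  have hu : (u : 𝓞 K) = n + p * w := by rw [← hw]; ring
  apply Multiplicative.toAdd.injective
  rw [LD_apply, toAdd_one]
  have : dlt hζ hp2 (u : 𝓞 K) = 0 := by
    rw [hu, dlt, map_add, map_mul, psi_natCast_self, zero_mul, add_zero, map_intCast]
    simp
  rw [this, zero_mul]

end hom

end Fermat.Agent.Kummer.K3
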