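import Fermat.Agent.Kummer.Defs

/-!
# Project K (Kummer), package K3: the per-prime polynomial statement `PolyLin p`

Owner: helper2.  This file only fixes the interface between the generic part of the proof of
Kummer's lemma (logarithmic derivative, `K3_LogDeriv.lean`, `K3_Glue.lean`) and the explicit
computations for `p = 5, 7, 11, 13`.

`cycShift p i` is the reduction modulo `p` of `cycPoly ℤ i` evaluated at `1 + X`, i.e.
`cycShift p 0 = 1 + X` and `cycShift p i = ∑ k ∈ range (i + 1), (1 + X) ^ k` for `1 ≤ i`.

`PolyLin p` says that the logarithmic derivatives of the `cycShift p i`, `i < (p - 1) / 2`,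
are linearly independent over `ZMod p` modulo `X ^ (p - 2)` (denominators cleared).
-/

set_option autoImplicit false

namespace Fermat.Agent.Kummer.K3

open Polynomial

/-- The reduction modulo `p` of `cycPoly ℤ i` evaluated at `1 + X`. -/
noncomputable def cycShift (p : ℕ) (i : ℕ) : (ZMod p)[X] :=
  (cycPoly (ZMod p) i).comp (1 + X)

theorem cycShift_zero (p : ℕ) : cycShift p 0 = 1 + X := by
  simp [cycShift, cycPoly]

theorem cycShift_of_pos (p : ℕ) {i : ℕ} (hi : i ≠ 0) :
    cycShift p i = ∑ k ∈ Finset.range (i + 1), (1 + X) ^ k := by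
  simp [cycShift, cycPoly, hi, Polynomial.sum_comp]

theorem cycShift_succ (p : ℕ) (i : ℕ) :
    cycShift p (i + 1) = ∑ k ∈ Finset.range (i + 2), (1 + X) ^ k :=
  cycShift_of_pos p (Nat.succ_ne_zero i)

/-- Linear independence over `ZMod p` of the logarithmic derivatives of the `cycShift p i`,
`i < (p - 1) / 2`, modulo `X ^ (p - 2)`, with denominators cleared. -/
def PolyLin (p : ℕ) : Prop :=
  ∀ e : Fin ((p - 1) / 2) → ZMod p,
    ((X : (ZMod p)[X]) ^ (p - 2) ∣
      ∑ i, C (e i) * derivative (cycShift p i) * ∏ j ∈ Finset.univ.erase i, cycShift p j) →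
    ∀ i, e i = 0

/-- The same statement with index set `Fin k` for an explicit `k`. -/
theorem polyLin_of_fin {p k : ℕ} (hk : (p - 1) / 2 = k)
    (h : ∀ e : Fin k → ZMod p,
      ((X : (ZMod p)[X]) ^ (p - 2) ∣
        ∑ i, C (e i) * derivative (cycShift p i) * ∏ j ∈ Finset.univ.erase i, cycShift p j) →
      ∀ i, e i = 0) : PolyLin p := by
  subst hk
  exact h

end Fermat.Agent.Kummer.K3
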