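import Fermat.Agent.Kummer.Defs
import Fermat.Agent.Kummer.K0_Reduction
import Fermat.Agent.Kummer.K5_Local

/-!
# Project K (Kummer), package K4: the descent of the second case

Owner: helper25.  Generic in the odd prime `p`: if the ring of integers of the `p`-th cyclotomic
field is a principal ideal ring and Kummer's lemma holds, then the generalised Fermat equation
`K0.FLTGen` has no solution (Kummer's descent, see Washington, *Cyclotomic fields*, Thm 9.3).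
Notation in the comments: `η = hζ.toInteger`, `λ = hζ.toInteger - 1`.
-/

set_option autoImplicit false
set_option linter.unusedSectionVars false

namespace Fermat.Agent.Kummer.K4x

open NumberField Finset

/-- In a principal ideal domain, if the members of a finite family are pairwise coprime and
their product is associated to a `k`-th power, then each member is associated to a `k`-th
power. -/
theorem exists_associated_pow_of_prod {R : Type*} [CommRing R] [IsDomain R]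
    [IsPrincipalIdealRing R] {ι : Type*} [DecidableEq ι] (s : Finset ι) (f : ι → R) (c : R)
    (k : ℕ) (hcop : ∀ i ∈ s, ∀ j ∈ s, i ≠ j → IsCoprime (f i) (f j))
    (hprod : Associated (c ^ k) (∏ i ∈ s, f i)) (i : ι) (hi : i ∈ s) :
    ∃ d : R, Associated (d ^ k) (f i) := by
  have h1 : ∏ j ∈ s, f j = f i * ∏ j ∈ s.erase i, f j := (Finset.mul_prod_erase s f hi).symm
  rw [h1] at hprod
  refine exists_associated_pow_of_associated_pow_mul ?_ hprod
  exact IsCoprime.prod_right fun j hj =>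
    hcop i hi j (Finset.mem_of_mem_erase hj) (Finset.ne_of_mem_erase hj).symm

variable {p : ℕ} [hp : Fact p.Prime] {K : Type*} [Field K] [NumberField K]
  [IsCyclotomicExtension {p} ℚ K] {ζ : K} (hζ : IsPrimitiveRoot ζ p)

/-- `λ ≠ 0`. -/
theorem lam_ne_zero : hζ.toInteger - 1 ≠ 0 := hζ.zeta_sub_one_prime'.ne_zero

/-- `η ^ p = 1`. -/
theorem eta_pow_prime : hζ.toInteger ^ p = 1 := hζ.toInteger_isPrimitiveRoot.pow_eq_one

/-- `η` is a unit. -/
theorem isUnit_eta : IsUnit hζ.toInteger :=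
  hζ.toInteger_isPrimitiveRoot.isUnit hp.out.ne_zero

/-- `1 + η` is a unit for odd `p`. -/
theorem isUnit_one_add_eta (hodd : p ≠ 2) : IsUnit (1 + hζ.toInteger) := by
  have h := hζ.toInteger_isPrimitiveRoot.geom_sum_isUnit hp.out.two_le
    (j := 2) ((Nat.coprime_primes Nat.prime_two hp.out).2 (Ne.symm hodd))
  simpa [Finset.sum_range_succ] using h

/-- `p ∣ λ ^ n` as soon as `p - 1 ≤ n`. -/
theorem prime_dvd_lam_pow {n : ℕ} (hn : p - 1 ≤ n) : (p : 𝓞 K) ∣ (hζ.toInteger - 1) ^ n :=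
  (K5.associated_prime_lambda_pow hζ).dvd.trans (pow_dvd_pow _ hn)

/-- the three term relation `η (x + η ^ (p - 1) y) + (x + η y) = (1 + η) (x + y)`. -/
theorem three_term (x y : 𝓞 K) :
    hζ.toInteger * (x + hζ.toInteger ^ (p - 1) * y) + (x + hζ.toInteger ^ 1 * y) =
      (1 + hζ.toInteger) * (x + hζ.toInteger ^ 0 * y) := by
  have h1 : hζ.toInteger * hζ.toInteger ^ (p - 1) = 1 := by
    rw [← pow_succ', Nat.sub_add_cancel hp.out.one_le, eta_pow_prime]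
  linear_combination y * h1

/-- the quotients `(x + η ^ i y) / λ` are pairwise coprime when `x`, `y` are coprime. -/
theorem isCoprime_quot [IsPrincipalIdealRing (𝓞 K)] {x y : 𝓞 K} (hxy : IsCoprime x y)
    {a : ℕ → 𝓞 K} (ha : ∀ i, x + hζ.toInteger ^ i * y = (hζ.toInteger - 1) * a i)
    {i j : ℕ} (hi : i < p) (hj : j < p) (hij : i ≠ j) : IsCoprime (a i) (a j) := by
  have key : ∀ d : 𝓞 K, d ∣ a i → d ∣ a j → IsUnit d := by
    intro d h1 h2
    have h3 : (hζ.toInteger - 1) * d ∣ hζ.toInteger - 1 := by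
      refine K5.dvd_lambda_of_dvd_factors hζ hxy hi hj hij ?_ ?_
      · rw [ha i]; exact mul_dvd_mul_left _ h1
      · rw [ha j]; exact mul_dvd_mul_left _ h2
    have h4 : (hζ.toInteger - 1) * d ∣ (hζ.toInteger - 1) * 1 := by simpa using h3
    exact isUnit_of_dvd_one ((mul_dvd_mul_iff_left (lam_ne_zero hζ)).1 h4)
  refine isCoprime_of_dvd _ _ ?_ ?_
  · rintro ⟨h1, h2⟩
    exact not_isUnit_zero (key 0 (h1 ▸ dvd_rfl) (h2 ▸ dvd_rfl))
  · intro z hz _ h1 h2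
    exact hz (key z h1 h2)


/-- a unit congruence: if `p ∣ r₁ + u * r₂`, `r₁ ≡ n₁`, `r₂ ≡ n₂` modulo `p` with `n₁ n₂ : ℤ`
and `p ∤ n₂`, then `u` is congruent to a rational integer modulo `p`. -/
theorem exists_int_congr_of_dvd {u r₁ r₂ : 𝓞 K} {n₁ n₂ : ℤ}
    (h : (p : 𝓞 K) ∣ r₁ + u * r₂) (h₁ : (p : 𝓞 K) ∣ r₁ - n₁) (h₂ : (p : 𝓞 K) ∣ r₂ - n₂)
    (hn₂ : ¬ (p : ℤ) ∣ n₂) : ∃ n : ℤ, (p : 𝓞 K) ∣ u - n := by
  have hpZ : Prime (p : ℤ) := Nat.prime_iff_prime_int.1 hp.out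
  obtain ⟨s, t, hst⟩ : IsCoprime (p : ℤ) n₂ := (Prime.coprime_iff_not_dvd hpZ).2 hn₂
  have hst' : (s : 𝓞 K) * (p : 𝓞 K) + (t : 𝓞 K) * (n₂ : 𝓞 K) = 1 := by
    have := congrArg (Int.cast : ℤ → 𝓞 K) hst
    push_cast at this
    exact this
  obtain ⟨c, hc⟩ := h
  obtain ⟨c₁, hc₁⟩ := h₁
  obtain ⟨c₂, hc₂⟩ := h₂
  refine ⟨-(t * n₁), (s : 𝓞 K) * u + t * (c - u * c₂ - c₁), ?_⟩
  push_cast
  linear_combination (-u) * hst' + (t : 𝓞 K) * hc - (t : 𝓞 K) * u * hc₂ - (t : 𝓞 K) * hc₁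

/-- **The descent step.** -/
theorem descent_step [IsPrincipalIdealRing (𝓞 K)] (hodd : p ≠ 2) (hK : KummerLemma p K)
    {n : ℕ} {x y z : 𝓞 K} {ε : (𝓞 K)ˣ}
    (hy : ¬ hζ.toInteger - 1 ∣ y) (hz : ¬ hζ.toInteger - 1 ∣ z) (hxy : IsCoprime x y)
    (h0 : (hζ.toInteger - 1) ^ 2 ∣ x + y)
    (h : x ^ p + y ^ p = ε * ((hζ.toInteger - 1) ^ (n + 1) * z) ^ p) :
    1 ≤ n ∧ ∃ (x' y' z' : 𝓞 K) (ε' : (𝓞 K)ˣ), ¬ hζ.toInteger - 1 ∣ y' ∧
      ¬ hζ.toInteger - 1 ∣ z' ∧ IsCoprime x' y' ∧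
      x' ^ p + y' ^ p = ε' * ((hζ.toInteger - 1) ^ n * z') ^ p := by
  classical
  have hlam := hζ.zeta_sub_one_prime'
  have hlam0 := lam_ne_zero hζ
  have hp2 := hp.out.two_le
  have hp3 : 3 ≤ p := by omega
  have hppos : 0 < p := by omega
  -- Step A: `λ` divides all the factors
  have hdvd : hζ.toInteger - 1 ∣ x ^ p + y ^ p := by
    rw [h, mul_pow, pow_succ]
    exact Dvd.dvd.mul_left (Dvd.dvd.mul_right (dvd_pow (Dvd.intro_left _ rfl) (by omega)) _) _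
  have hfac : ∀ i : ℕ, hζ.toInteger - 1 ∣ x + hζ.toInteger ^ i * y :=
    fun i => K5.lambda_dvd_factor_of_dvd_pow_add_pow hζ hodd hdvd i
  choose a ha using hfac
  -- Step B: only the factor with `i = 0` is divisible by `λ ^ 2`
  have hxy1 : hζ.toInteger - 1 ∣ x + y := dvd_trans (dvd_pow_self _ two_ne_zero) h0
  obtain ⟨i₀, -, huniq⟩ := K5.existsUnique_lambda_sq_dvd_factor hζ hxy1 hy
  have h00 : (0 : ℕ) = i₀ := huniq 0 ⟨hppos, by simpa using h0⟩
  have hna : ∀ i, i < p → i ≠ 0 → ¬ hζ.toInteger - 1 ∣ a i := by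
    intro i hi hi0 hdiv
    apply hi0
    have : (hζ.toInteger - 1) ^ 2 ∣ x + hζ.toInteger ^ i * y := by
      rw [ha i, pow_two]; exact mul_dvd_mul_left _ hdiv
    rw [huniq i ⟨hi, this⟩, ← h00]
  have ha0 : hζ.toInteger - 1 ∣ a 0 := by
    have : (hζ.toInteger - 1) * (hζ.toInteger - 1) ∣ (hζ.toInteger - 1) * a 0 := by
      rw [← ha 0, ← pow_two]; simpa using h0
    exact (mul_dvd_mul_iff_left hlam0).1 this
  -- Step C: the product of the quotients
  have hprod : ∏ i ∈ range p, a i = ε * ((hζ.toInteger - 1) ^ n * z) ^ p := by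
    have h1 : (hζ.toInteger - 1) ^ p * ∏ i ∈ range p, a i = x ^ p + y ^ p := by
      rw [K5.pow_add_pow_eq_prod hζ hodd, Finset.prod_congr rfl (fun i _ => ha i),
        Finset.prod_mul_distrib, Finset.prod_const, Finset.card_range]
    have h2 : (hζ.toInteger - 1) ^ p * ∏ i ∈ range p, a i =
        (hζ.toInteger - 1) ^ p * (ε * ((hζ.toInteger - 1) ^ n * z) ^ p) := by
      have key : ∀ l : 𝓞 K, (ε : 𝓞 K) * (l ^ (n + 1) * z) ^ p = l ^ p * (ε * (l ^ n * z) ^ p) :=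
        fun l => by ring
      rw [h1, h, key]
    exact mul_left_cancel₀ (pow_ne_zero _ hlam0) h2
  -- Step F: split off the power of `λ` from `a 0`
  have hB : ¬ hζ.toInteger - 1 ∣ ∏ i ∈ (range p).erase 0, a i := by
    intro hdiv
    obtain ⟨i, hi, hdi⟩ := (Prime.dvd_finsetProd_iff hlam _).1 hdiv
    exact hna i (Finset.mem_range.1 (Finset.mem_of_mem_erase hi)) (Finset.ne_of_mem_erase hi) hdi
  have hsplit : a 0 * ∏ i ∈ (range p).erase 0, a i = ∏ i ∈ range p, a i :=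
    Finset.mul_prod_erase _ _ (Finset.mem_range.2 hppos)
  have hpow_dvd : (hζ.toInteger - 1) ^ (n * p) ∣ a 0 := by
    refine hlam.pow_dvd_of_dvd_mul_right _ hB ?_
    rw [hsplit, hprod, mul_pow, ← pow_mul]
    exact Dvd.dvd.mul_left (Dvd.intro _ rfl) _
  obtain ⟨a0', ha0'⟩ := hpow_dvd
  have hprod' : a0' * ∏ i ∈ (range p).erase 0, a i = ε * z ^ p := by
    have h2 : (hζ.toInteger - 1) ^ (n * p) * (a0' * ∏ i ∈ (range p).erase 0, a i) =
        (hζ.toInteger - 1) ^ (n * p) * (ε * z ^ p) := by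
      have key : ∀ l : 𝓞 K, (ε : 𝓞 K) * (l ^ n * z) ^ p = l ^ (n * p) * (ε * z ^ p) :=
        fun l => by ring
      rw [← mul_assoc, ← ha0', hsplit, hprod, key]
    exact mul_left_cancel₀ (pow_ne_zero _ hlam0) h2
  have hna0' : ¬ hζ.toInteger - 1 ∣ a0' := by
    intro hdiv
    have h3 : hζ.toInteger - 1 ∣ (ε : 𝓞 K) * z ^ p := by
      rw [← hprod']; exact Dvd.dvd.mul_right hdiv _
    exact hz (hlam.dvd_of_dvd_pow ((IsUnit.dvd_mul_left ε.isUnit).1 h3))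
  have hn : 1 ≤ n := by
    by_contra hn0
    have hn0' : n = 0 := by omega
    apply hna0'
    have h5 : a 0 = a0' := by rw [ha0', hn0']; simp
    rw [← h5]
    exact ha0
  refine ⟨hn, ?_⟩
  -- Step G: factorisation
  set b : ℕ → 𝓞 K := fun i => if i = 0 then a0' else a i with hb_def
  have hb0 : b 0 = a0' := by simp [hb_def]
  have hbi : ∀ i, i ≠ 0 → b i = a i := fun i hi => by simp [hb_def, hi]
  have hbprod : ∏ i ∈ range p, b i = ε * z ^ p := by
    rw [← Finset.mul_prod_erase _ _ (Finset.mem_range.2 hppos), hb0, ← hprod']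
    congr 1
    exact Finset.prod_congr rfl fun i hi => hbi i (Finset.ne_of_mem_erase hi)
  have hdvd0 : a0' ∣ a 0 := Dvd.intro_left _ ha0'.symm
  have hbcop : ∀ i ∈ range p, ∀ j ∈ range p, i ≠ j → IsCoprime (b i) (b j) := by
    intro i hi j hj hij
    have hc := isCoprime_quot hζ hxy ha (Finset.mem_range.1 hi) (Finset.mem_range.1 hj) hij
    by_cases hi0 : i = 0
    · subst hi0
      rw [hb0, hbi j (Ne.symm hij)]
      exact hc.of_isCoprime_of_dvd_left hdvd0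
    · by_cases hj0 : j = 0
      · subst hj0
        rw [hb0, hbi i hi0]
        exact hc.of_isCoprime_of_dvd_right hdvd0
      · rw [hbi i hi0, hbi j hj0]
        exact hc
  have hassoc : Associated (z ^ p) (∏ i ∈ range p, b i) := by
    rw [hbprod]
    exact ⟨ε, by rw [mul_comm]⟩
  have hroot := exists_associated_pow_of_prod (range p) b z p hbcop hassoc
  obtain ⟨ρ₀, u₀, hρ₀⟩ := hroot 0 (Finset.mem_range.2 hppos)
  obtain ⟨ρ₁, u₁, hρ₁⟩ := hroot 1 (Finset.mem_range.2 (by omega))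
  obtain ⟨ρ₂, u₂, hρ₂⟩ := hroot (p - 1) (Finset.mem_range.2 (by omega))
  rw [hb0] at hρ₀
  rw [hbi 1 one_ne_zero] at hρ₁
  rw [hbi (p - 1) (by omega)] at hρ₂
  -- Step H: the three term relation
  have hrel : hζ.toInteger * a (p - 1) + a 1 = (1 + hζ.toInteger) * a 0 := by
    have h3 := three_term hζ x y
    rw [ha (p - 1), ha 1, ha 0] at h3
    refine mul_left_cancel₀ hlam0 ?_
    linear_combination h3
  -- the units
  obtain ⟨ηu, hηu⟩ := isUnit_eta hζ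
  obtain ⟨θ, hθ⟩ := isUnit_one_add_eta hζ hodd
  have hu₁ : (u₁ : 𝓞 K) * (↑u₁⁻¹ : 𝓞 K) = 1 := Units.mul_inv u₁
  have heq : ρ₁ ^ p + ((ηu * u₂ * u₁⁻¹ : (𝓞 K)ˣ) : 𝓞 K) * ρ₂ ^ p =
      ((θ * u₀ * u₁⁻¹ : (𝓞 K)ˣ) : 𝓞 K) * ((hζ.toInteger - 1) ^ n * ρ₀) ^ p := by
    rw [← hρ₂, ← hρ₁, ha0', ← hρ₀] at hrel
    push_cast
    rw [hηu, hθ]
    linear_combination (↑u₁⁻¹ : 𝓞 K) * hrel - ρ₁ ^ p * hu₁
  -- Step I: Kummer's lemma
  have hρ₂lam : ¬ hζ.toInteger - 1 ∣ ρ₂ := by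
    intro hdiv
    apply hna (p - 1) (by omega) (by omega)
    rw [← hρ₂]
    exact Dvd.dvd.mul_right (dvd_pow hdiv (by omega)) _
  have hρ₀lam : ¬ hζ.toInteger - 1 ∣ ρ₀ := by
    intro hdiv
    apply hna0'
    rw [← hρ₀]
    exact Dvd.dvd.mul_right (dvd_pow hdiv (by omega)) _
  have hcong : ∃ k : ℤ, (p : 𝓞 K) ∣ ((ηu * u₂ * u₁⁻¹ : (𝓞 K)ˣ) : 𝓞 K) - k := by
    obtain ⟨n₁, hn₁⟩ := K5.pow_prime_congr_int (p := p) ρ₁
    obtain ⟨n₂, hn₂⟩ := K5.pow_prime_congr_int (p := p) ρ₂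
    refine exists_int_congr_of_dvd ?_ hn₁ hn₂ ?_
    · rw [heq, mul_pow, ← pow_mul]
      exact Dvd.dvd.mul_left (Dvd.dvd.mul_right (prime_dvd_lam_pow hζ
        (by have := Nat.mul_le_mul_right p hn; omega)) _) _
    · intro hdiv
      apply hρ₂lam
      refine hlam.dvd_of_dvd_pow (n := p) ?_
      have h4 : hζ.toInteger - 1 ∣ (n₂ : 𝓞 K) := (K5.lambda_dvd_intCast_iff hζ).2 hdiv
      have h5 : hζ.toInteger - 1 ∣ ρ₂ ^ p - n₂ :=
        (hζ.toInteger_sub_one_dvd_prime').trans hn₂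
      simpa using dvd_add h5 h4
  obtain ⟨v, hv⟩ := hK _ hcong
  -- Step J: the new solution
  refine ⟨ρ₁, v * ρ₂, ρ₀, θ * u₀ * u₁⁻¹, ?_, hρ₀lam, ?_, ?_⟩
  · rwa [IsUnit.dvd_mul_left v.isUnit]
  · have hc := isCoprime_quot hζ hxy ha (i := 1) (j := p - 1) (by omega) (by omega) (by omega)
    rw [← hρ₁, ← hρ₂, isCoprime_mul_unit_right_left u₁.isUnit,
      isCoprime_mul_unit_right_right u₂.isUnit, IsCoprime.pow_iff hppos hppos] at hc
    rwa [isCoprime_mul_unit_left_right v.isUnit]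
  · rw [← heq, hv]
    push_cast
    ring


/-- The descent step, without the normalisation `λ ^ 2 ∣ x + y`. -/
theorem descent_step' [IsPrincipalIdealRing (𝓞 K)] (hodd : p ≠ 2) (hK : KummerLemma p K)
    {n : ℕ} {x y z : 𝓞 K} {ε : (𝓞 K)ˣ}
    (hy : ¬ hζ.toInteger - 1 ∣ y) (hz : ¬ hζ.toInteger - 1 ∣ z) (hxy : IsCoprime x y)
    (h : x ^ p + y ^ p = ε * ((hζ.toInteger - 1) ^ (n + 1) * z) ^ p) :
    1 ≤ n ∧ ∃ (x' y' z' : 𝓞 K) (ε' : (𝓞 K)ˣ), ¬ hζ.toInteger - 1 ∣ y' ∧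
      ¬ hζ.toInteger - 1 ∣ z' ∧ IsCoprime x' y' ∧
      x' ^ p + y' ^ p = ε' * ((hζ.toInteger - 1) ^ n * z') ^ p := by
  have hp2 := hp.out.two_le
  have hdvd : hζ.toInteger - 1 ∣ x ^ p + y ^ p := by
    rw [h, mul_pow, pow_succ]
    exact Dvd.dvd.mul_left (Dvd.dvd.mul_right (dvd_pow (Dvd.intro_left _ rfl) (by omega)) _) _
  have hxy1 : hζ.toInteger - 1 ∣ x + y := K5.lambda_dvd_add_of_dvd_pow_add_pow hζ hodd hdvd
  obtain ⟨i₀, ⟨-, hsq⟩, -⟩ := K5.existsUnique_lambda_sq_dvd_factor hζ hxy1 hy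
  have hu : IsUnit (hζ.toInteger ^ i₀) := (isUnit_eta hζ).pow i₀
  refine descent_step hζ hodd hK (y := hζ.toInteger ^ i₀ * y) (ε := ε) ?_ hz ?_ hsq ?_
  · rwa [IsUnit.dvd_mul_left hu]
  · rwa [isCoprime_mul_unit_left_right hu]
  · rw [← h, mul_pow, ← pow_mul, mul_comm i₀ p, pow_mul, eta_pow_prime, one_pow, one_mul]

/-- The generalised Fermat equation with exponent `n + 1` of `λ` has no solution. -/
theorem no_solution [IsPrincipalIdealRing (𝓞 K)] (hodd : p ≠ 2) (hK : KummerLemma p K)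
    (n : ℕ) : ∀ (x y z : 𝓞 K) (ε : (𝓞 K)ˣ), ¬ hζ.toInteger - 1 ∣ y → ¬ hζ.toInteger - 1 ∣ z →
      IsCoprime x y → x ^ p + y ^ p ≠ ε * ((hζ.toInteger - 1) ^ (n + 1) * z) ^ p := by
  induction n with
  | zero =>
    intro x y z ε hy hz hxy h
    have := (descent_step' hζ hodd hK hy hz hxy h).1
    omega
  | succ n ih =>
    intro x y z ε hy hz hxy h
    obtain ⟨-, x', y', z', ε', hy', hz', hxy', h'⟩ := descent_step' hζ hodd hK hy hz hxy h
    exact ih x' y' z' ε' hy' hz' hxy' h'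

/-- **Kummer's descent**: if the ring of integers of the `p`-th cyclotomic field is a principal
ideal ring and Kummer's lemma holds, then the generalised Fermat equation has no solution. -/
theorem fltGen_of_pid_of_kummer [IsPrincipalIdealRing (𝓞 K)] (hodd : p ≠ 2)
    (hK : KummerLemma p K) : K0.FLTGen hζ := by
  intro a b c u hc _ hb hlc hab h
  have hlam := hζ.zeta_sub_one_prime'
  have hfin : FiniteMultiplicity (hζ.toInteger - 1) c :=
    FiniteMultiplicity.of_not_isUnit hlam.not_isUnit hc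
  obtain ⟨z, hcz, hz⟩ := hfin.exists_eq_pow_mul_and_not_dvd
  obtain ⟨n, hn⟩ : ∃ n, multiplicity (hζ.toInteger - 1) c = n + 1 := by
    refine Nat.exists_eq_succ_of_ne_zero ?_
    intro h0
    rw [h0, pow_zero, one_mul] at hcz
    exact hz (hcz ▸ hlc)
  rw [hn] at hcz
  refine no_solution hζ hodd hK n a b z u hb hz hab ?_
  rw [h, hcz]

end Fermat.Agent.Kummer.K4x
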