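/-
Project K: Fermat's Last Theorem for the exponents `5, 7, 11, 13` (Kummer's method in class
number one).  Final assembly of K0 (reduction to case II over the cyclotomic integers),
K1 (principal ideal rings), K2 (case I, Sophie Germain), K3 (Kummer's lemma) and
K4 (case II descent).
-/
import Fermat.Agent.Kummer.K0_Assembly
import Fermat.Agent.Kummer.K1_PID7
import Fermat.Agent.Kummer.K1_PID11
import Fermat.Agent.Kummer.K1_PID13
import Fermat.Agent.Kummer.K3L_Kummer
import Fermat.Agent.Kummer.K4_Descent

set_option autoImplicit false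

namespace Fermat.Agent.Kummer

open NumberField

/-- The ring of integers of the `p`-th cyclotomic field is a principal ideal ring for
`p ∈ {5, 7, 11, 13}`. -/
theorem pid_small (p : ℕ) (hp : p = 5 ∨ p = 7 ∨ p = 11 ∨ p = 13)
    (K : Type*) [Field K] [NumberField K] [IsCyclotomicExtension {p} ℚ K] :
    IsPrincipalIdealRing (𝓞 K) := by
  rcases hp with rfl | rfl | rfl | rfl
  · exact IsCyclotomicExtension.Rat.five_pid K
  · exact pid_seven K
  · exact pid_eleven K
  · exact pid_thirteen K

/-- **Fermat's Last Theorem for the exponents `5, 7, 11, 13`.** -/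
theorem flt_small (p : ℕ) (hp : p = 5 ∨ p = 7 ∨ p = 11 ∨ p = 13) :
    FermatLastTheoremFor p := by
  have hprime : Fact p.Prime := ⟨K0.prime_of_small hp⟩
  refine K0.flt_of_forall_FLTGen p hp (fun K _ _ _ ζ hζ => ?_)
  have hpid : IsPrincipalIdealRing (𝓞 K) := pid_small p hp K
  exact K4x.fltGen_of_pid_of_kummer hζ (K0.ne_two_of_small hp) (K3L.kummerLemma_small p hp K)

/-- There is no Frey package with `p ∈ {5, 7, 11, 13}`. -/
theorem freyPackage_small_false (P : FreyPackage)
    (hp : P.p = 5 ∨ P.p = 7 ∨ P.p = 11 ∨ P.p = 13) : False :=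
  K0.freyPackage_false P (flt_small P.p hp)

end Fermat.Agent.Kummer
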